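import Mathlib

/-!
# Classes `z • a` in `H²` (P-CFT, work package Global/ClassFormation, helper50)

For a group `G`, a scalar `2`-cocycle `z : G → G → k` (trivial action) and an invariant element
`a` of `A : Rep k G`, the cochain `(x, y) ↦ z x y • a` is a `2`-cocycle of `A`.  (For a cyclic
group and the carry cocycle `z` this is the cup product `a ∪ δχ`.)  We record

* `scalarClass A hz : A.ρ.invariants →ₗ[k] H2 A`, the class of `z • a`;
* `map_scalarClass`: compatibility with `groupCohomology.map f φ 2` (hence with inflation and
  restriction): the image of the class of `z • a` is the class of `(z ∘ f) • φ a`;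
* `scalarClass_norm`: if `G` is finite and `a = ∑ g, g • t` is a norm then the class of `z • a`
  vanishes, with explicit primitive `x ↦ ∑ s, z x s • (x * s) • t`.
-/

set_option autoImplicit false

universe u

open CategoryTheory Rep groupCohomology

namespace Fermat.Agent.Lib.CFT.Global.ClassFormation

variable {k : Type u} [CommRing k]

section Scalar

variable {G : Type u} [Group G]

/-- `z : G → G → k` is a `2`-cocycle for the trivial action of `G` on `k`. -/
def IsScalarCocycle (z : G → G → k) : Prop :=
  ∀ x y s : G, z (x * y) s + z x y = z y s + z x (y * s)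

lemma IsScalarCocycle.comp {H : Type u} [Group H] {z : H → H → k} (hz : IsScalarCocycle z)
    (f : G →* H) : IsScalarCocycle (fun x y : G => z (f x) (f y)) := by
  intro x y s
  simpa only [map_mul] using hz (f x) (f y) (f s)

lemma IsScalarCocycle.add {z z' : G → G → k} (hz : IsScalarCocycle z) (hz' : IsScalarCocycle z') :
    IsScalarCocycle (fun x y => z x y + z' x y) := by
  intro x y s
  have h1 := hz x y s
  have h2 := hz' x y s
  linear_combination h1 + h2

lemma IsScalarCocycle.smul {z : G → G → k} (hz : IsScalarCocycle z) (c : k) :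
    IsScalarCocycle (fun x y => c * z x y) := by
  intro x y s
  have h1 := hz x y s
  linear_combination c * h1

variable (A : Rep k G)

/-- The `2`-cochain `(x, y) ↦ z x y • a`. -/
def scalarCochain (z : G → G → k) (a : A) : G × G → A := fun p => z p.1 p.2 • a

@[simp] lemma scalarCochain_apply (z : G → G → k) (a : A) (x y : G) :
    scalarCochain A z a (x, y) = z x y • a := rfl

variable {A} in
lemma scalarCochain_mem_cocycles₂ {z : G → G → k} (hz : IsScalarCocycle z) {a : A}
    (ha : ∀ g : G, A.ρ g a = a) : scalarCochain A z a ∈ cocycles₂ A := by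
  rw [mem_cocycles₂_iff]
  intro g h j
  simp only [scalarCochain_apply, map_smul, ha, ← add_smul, hz g h j]

/-- The `2`-cocycle `z • a` for an invariant element `a`, as a linear map in `a`. -/
def scalarCocycle {z : G → G → k} (hz : IsScalarCocycle z) : A.ρ.invariants →ₗ[k] cocycles₂ A where
  toFun a := ⟨scalarCochain A z a.1, scalarCochain_mem_cocycles₂ hz a.2⟩
  map_add' a b := by
    apply Subtype.ext
    funext p
    simp [scalarCochain]
  map_smul' c a := by
    apply Subtype.ext
    funext p
    simp [scalarCochain, smul_comm c]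

@[simp] lemma scalarCocycle_apply {z : G → G → k} (hz : IsScalarCocycle z) (a : A.ρ.invariants)
    (x y : G) : scalarCocycle A hz a (x, y) = z x y • a.1 := rfl

/-- The class of `z • a` in `H²(G, A)`, as a linear map in the invariant element `a`. -/
noncomputable def scalarClass {z : G → G → k} (hz : IsScalarCocycle z) :
    A.ρ.invariants →ₗ[k] H2 A :=
  (H2π A).hom ∘ₗ scalarCocycle A hz

lemma scalarClass_apply {z : G → G → k} (hz : IsScalarCocycle z) (a : A.ρ.invariants) :
    scalarClass A hz a = H2π A (scalarCocycle A hz a) := rfl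

/-- The class of `z • a` only depends on the function `z`. -/
lemma scalarClass_congr {z z' : G → G → k} (hz : IsScalarCocycle z) (hz' : IsScalarCocycle z')
    (h : ∀ x y, z x y = z' x y) (a : A.ρ.invariants) :
    scalarClass A hz a = scalarClass A hz' a := by
  obtain rfl : z = z' := by
    funext x y
    exact h x y
  rfl

/-- Additivity in the scalar cocycle. -/
lemma scalarClass_add_cocycle {z z' : G → G → k} (hz : IsScalarCocycle z)
    (hz' : IsScalarCocycle z') (a : A.ρ.invariants) :
    scalarClass A (hz.add hz') a = scalarClass A hz a + scalarClass A hz' a := by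
  simp only [scalarClass_apply]
  rw [← map_add]
  congr 1
  apply Subtype.ext
  funext p
  obtain ⟨x, y⟩ := p
  change (z x y + z' x y) • a.1 = z x y • a.1 + z' x y • a.1
  rw [add_smul]

/-- Scalar multiples of the cocycle. -/
lemma scalarClass_smul_cocycle {z : G → G → k} (hz : IsScalarCocycle z) (c : k)
    (a : A.ρ.invariants) :
    scalarClass A (hz.smul c) a = c • scalarClass A hz a := by
  simp only [scalarClass_apply]
  rw [← map_smul]
  congr 1
  apply Subtype.ext
  funext p
  obtain ⟨x, y⟩ := p
  change (c * z x y) • a.1 = c • z x y • a.1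
  rw [mul_smul]

end Scalar

section Functoriality

variable {G H : Type u} [Group G] [Group H] {A : Rep k H} {B : Rep k G}

/-- Functoriality of the classes `[z • a]` under `groupCohomology.map f φ 2`: the image of
`[z • a]` is `[(z ∘ f) • b]` for any invariant `b` with `φ a = b`. -/
lemma map_scalarClass (f : G →* H) (φ : res f A ⟶ B) {z : H → H → k} (hz : IsScalarCocycle z)
    (a : A.ρ.invariants) (b : B.ρ.invariants) (hb : φ.hom a.1 = b.1) :
    map f φ 2 (scalarClass A hz a) = scalarClass B (hz.comp f) b := by
  simp only [scalarClass_apply]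
  have h := congr($(H2π_comp_map f φ) (scalarCocycle A hz a))
  simp only [ModuleCat.hom_comp, LinearMap.coe_comp, Function.comp_apply] at h
  rw [h]
  congr 1
  apply Subtype.ext
  funext p
  change φ.hom (z (f p.1) (f p.2) • a.1) = z (f p.1) (f p.2) • b.1
  rw [map_smul, hb]

end Functoriality

section Norm

variable {G : Type u} [Group G] [Fintype G] (A : Rep k G)

/-- The norm of an element is invariant. -/
lemma norm_mem_invariants (t : A) : A.ρ.norm t ∈ A.ρ.invariants := by
  intro g
  exact congr($(Representation.self_comp_norm A.ρ g) t)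

/-- The explicit primitive of `z • N(t)`: `x ↦ ∑ s, z x s • (x * s) • t`. -/
def scalarPrimitive (z : G → G → k) (t : A) : G → A := fun x => ∑ s : G, z x s • A.ρ (x * s) t

lemma d₁₂_scalarPrimitive {z : G → G → k} (hz : IsScalarCocycle z) (t : A) :
    (d₁₂ A).hom (scalarPrimitive A z t) = scalarCochain A z (A.ρ.norm t) := by
  funext p
  obtain ⟨x, y⟩ := p
  rw [d₁₂_hom_apply]
  simp only [scalarPrimitive, scalarCochain_apply, map_sum, map_smul]
  have h1 : ∀ s : G, A.ρ x (A.ρ (y * s) t) = A.ρ (x * y * s) t := by
    intro s
    rw [← Module.End.mul_apply, ← map_mul, mul_assoc]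
  simp only [h1]
  have h2 : ∑ s : G, z x s • A.ρ (x * s) t = ∑ s : G, z x (y * s) • A.ρ (x * y * s) t := by
    rw [← Equiv.sum_comp (Equiv.mulLeft y)]
    refine Finset.sum_congr rfl fun s _ => ?_
    simp [mul_assoc]
  have h3 : A.ρ.norm t = ∑ s : G, A.ρ (x * y * s) t := by
    rw [Representation.norm, LinearMap.sum_apply, ← Equiv.sum_comp (Equiv.mulLeft (x * y))]
    rfl
  rw [h2, h3, Finset.smul_sum, ← Finset.sum_sub_distrib, ← Finset.sum_add_distrib]
  refine Finset.sum_congr rfl fun s _ => ?_
  rw [← sub_smul, ← add_smul]
  congr 1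
  have := hz x y s
  linear_combination -this

/-- If `a = N(t)` is a norm then the class of `z • a` vanishes. -/
theorem scalarClass_norm {z : G → G → k} (hz : IsScalarCocycle z) (t : A) :
    scalarClass A hz ⟨A.ρ.norm t, norm_mem_invariants A t⟩ = 0 := by
  rw [scalarClass_apply, H2π_eq_zero_iff]
  exact ⟨scalarPrimitive A z t, d₁₂_scalarPrimitive A hz t⟩

/-- Variant: an invariant element which is a norm gives the zero class. -/
theorem scalarClass_eq_zero_of_norm {z : G → G → k} (hz : IsScalarCocycle z) (a : A.ρ.invariants)
    (t : A) (ht : A.ρ.norm t = a.1) : scalarClass A hz a = 0 := by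
  have : a = ⟨A.ρ.norm t, norm_mem_invariants A t⟩ := Subtype.ext ht.symm
  rw [this]
  exact scalarClass_norm A hz t

end Norm

end Fermat.Agent.Lib.CFT.Global.ClassFormation
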