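import Fermat.Agent.Lib.CFT.Coh.InfRes
import Fermat.Agent.Lib.CFT.Global.ClassFormation.ScalarCocycle

/-!
# Comparison of `H²` of two quotients (P-CFT, work package Global/ClassFormation, helper50)

Abstract (purely cohomological) form of the key step in the construction of the global class
formation.  Let `G` be a group, `A : Rep k G`, and `N`, `N'` two normal subgroups.

* `infl_scalarClass_mem_range`: if `H¹(N', A) = 0`, `z` is a scalar `2`-cocycle of `G ⧸ N` and
  `a ∈ A^G` is a norm from `N'` (i.e. `a = ∑_{h ∈ N'} h • t`), then the inflation to `G` of the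
  class `[z • a] ∈ H²(G ⧸ N, A^N)` lies in the image of the inflation from `H²(G ⧸ N', A^{N'})`.
* `compareEquiv` / `isAddCyclic_H2_of_compare` / `card_H2_of_compare`: if moreover
  `H²(G ⧸ N, A^N)` is cyclic of order `m`, `n ∣ m`, `H¹(N, A) = 0`, every `n`-torsion class of
  `H²(G ⧸ N, A^N)` is of the form `[z • a]` with `a` a norm from `N'`, and `H²(G ⧸ N', A^{N'})` has
  at most `n` elements, then `H²(G ⧸ N', A^{N'})` is cyclic of order `n`, canonically isomorphic
  (via the two inflations) to the `n`-torsion of `H²(G ⧸ N, A^N)`.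

In the application `G = Gal(M/K)`, `A = C_M`, `M = L L'` with `L/K` cyclic cyclotomic
(`N = Gal(M/L)`) and `L'/K` an arbitrary Galois extension of degree `n` (`N' = Gal(M/L')`); the norm
hypothesis is supplied by the Artin map of the cyclic cyclotomic extension `M/L'`.
-/

set_option autoImplicit false

universe u

open CategoryTheory Rep groupCohomology

namespace Fermat.Agent.Lib.CFT.Global.ClassFormation

open Fermat.Agent.Lib.CFT.Coh.InfRes

variable {k : Type u} [CommRing k] {G : Type u} [Group G] (A : Rep k G)

section InvQuot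

variable (N : Subgroup G) [N.Normal]

/-- A `G`-invariant element of `A`, as a `G ⧸ N`-invariant element of `A^N`. -/
def invQuot : A.ρ.invariants →ₗ[k] (A.quotientToInvariants N).ρ.invariants where
  toFun a := ⟨⟨a.1, fun n => a.2 n⟩, fun g => by
    induction g using QuotientGroup.induction_on with
    | H g => exact Subtype.ext (a.2 g)⟩
  map_add' _ _ := rfl
  map_smul' _ _ := rfl

@[simp] lemma invQuot_coe (a : A.ρ.invariants) : ((invQuot A N a).1).1 = a.1 := rfl

/-- A `G`-invariant element of `A`, as an `N`-invariant element of `res A`. -/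
def invRes (S : Subgroup G) : A.ρ.invariants →ₗ[k] (res S.subtype A).ρ.invariants where
  toFun a := ⟨a.1, fun s => a.2 s⟩
  map_add' _ _ := rfl
  map_smul' _ _ := rfl

@[simp] lemma invRes_coe (S : Subgroup G) (a : A.ρ.invariants) : (invRes A S a).1 = a.1 := rfl

/-- Inflation of the class `[z • a]`. -/
lemma infl_scalarClass {z : G ⧸ N → G ⧸ N → k} (hz : IsScalarCocycle z) (a : A.ρ.invariants) :
    infl A N 2 (scalarClass (A.quotientToInvariants N) hz (invQuot A N a)) =
      scalarClass A (hz.comp (QuotientGroup.mk' N)) a := by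
  have := map_scalarClass (QuotientGroup.mk' N) (ofHom <| A.ρ.quotientToInvariants_lift N) hz
    (invQuot A N a) a rfl
  exact this

/-- Restriction of the class `[z • a]`. -/
lemma rest_scalarClass (S : Subgroup G) {z : G → G → k} (hz : IsScalarCocycle z)
    (a : A.ρ.invariants) :
    rest A S 2 (scalarClass A hz a) =
      scalarClass (res S.subtype A) (hz.comp S.subtype) (invRes A S a) := by
  have := map_scalarClass S.subtype (𝟙 (res S.subtype A)) hz a (invRes A S a) rfl
  exact this

end InvQuot

section Compare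

variable (N N' : Subgroup G) [N.Normal] [N'.Normal]

/-- **Comparison lemma.**  If `H¹(N', A) = 0` and the invariant element `a` is a norm from `N'`,
then the inflation of `[z • a] ∈ H²(G ⧸ N, A^N)` to `G` comes from `H²(G ⧸ N', A^{N'})`. -/
theorem infl_scalarClass_mem_range [Fintype N']
    (h1 : Limits.IsZero (groupCohomology (res N'.subtype A) 1))
    {z : G ⧸ N → G ⧸ N → k} (hz : IsScalarCocycle z) (a : A.ρ.invariants)
    (t : A) (ht : (res N'.subtype A).ρ.norm t = a.1) :
    ∃ y, infl A N' 2 y =
      infl A N 2 (scalarClass (A.quotientToInvariants N) hz (invQuot A N a)) := by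
  refine (infResExact_two A N' h1).2 _ ?_
  rw [infl_scalarClass, rest_scalarClass]
  exact scalarClass_eq_zero_of_norm (res N'.subtype A) _ (invRes A N' a) t ht

end Compare

section Counting

variable (N N' : Subgroup G) [N.Normal] [N'.Normal]

/-- The `n`-torsion classes in `H²(G ⧸ N, A^N)`. -/
noncomputable abbrev torsionH2 (n : ℕ) : Submodule k (H2 (A.quotientToInvariants N)) :=
  Submodule.torsionBy k (H2 (A.quotientToInvariants N)) (n : k)

lemma mem_torsionH2_iff (n : ℕ) (x : H2 (A.quotientToInvariants N)) :
    x ∈ torsionH2 A N n ↔ n • x = 0 := by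
  rw [Submodule.mem_torsionBy_iff, Nat.cast_smul_eq_nsmul]

/-- The hypothesis of the counting argument: every `n`-torsion class of `H²(G ⧸ N, A^N)` is of
the form `[z • a]` with `a ∈ A^G` a norm from `N'`. -/
def TorsionIsNormClass [Fintype N'] {z : G ⧸ N → G ⧸ N → k} (hz : IsScalarCocycle z) (n : ℕ) :
    Prop :=
  ∀ x : H2 (A.quotientToInvariants N), n • x = 0 →
    ∃ (a : A.ρ.invariants) (t : A), (res N'.subtype A).ρ.norm t = a.1 ∧
      x = scalarClass (A.quotientToInvariants N) hz (invQuot A N a)

variable {A N N'}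

/-- Under `TorsionIsNormClass`, the inflation of an `n`-torsion class of `H²(G ⧸ N, A^N)` comes
from `H²(G ⧸ N', A^{N'})`. -/
lemma infl_mem_range_of_torsion [Fintype N']
    (h1' : Limits.IsZero (groupCohomology (res N'.subtype A) 1))
    {z : G ⧸ N → G ⧸ N → k} {hz : IsScalarCocycle z} {n : ℕ}
    (hT : TorsionIsNormClass A N N' hz n) (x : H2 (A.quotientToInvariants N)) (hx : n • x = 0) :
    (infl A N 2).hom x ∈ LinearMap.range (infl A N' 2).hom := by
  obtain ⟨a, t, ht, rfl⟩ := hT x hx
  obtain ⟨y, hy⟩ := infl_scalarClass_mem_range A N N' h1' hz a t ht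
  exact ⟨y, hy⟩

/-- The comparison map from the `n`-torsion of `H²(G ⧸ N, A^N)` to `H²(G ⧸ N', A^{N'})`,
characterised by `infl (compareHom x) = infl x`. -/
noncomputable def compareHom [Fintype N']
    (h1' : Limits.IsZero (groupCohomology (res N'.subtype A) 1))
    {z : G ⧸ N → G ⧸ N → k} {hz : IsScalarCocycle z} {n : ℕ}
    (hT : TorsionIsNormClass A N N' hz n) :
    torsionH2 A N n →ₗ[k] H2 (A.quotientToInvariants N') :=
  (LinearEquiv.ofInjective (infl A N' 2).hom
      (infResExact_two A N' h1').1).symm.toLinearMap ∘ₗ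
    LinearMap.codRestrict (LinearMap.range (infl A N' 2).hom)
      ((infl A N 2).hom ∘ₗ (torsionH2 A N n).subtype)
      (fun x => infl_mem_range_of_torsion h1' hT x.1 ((mem_torsionH2_iff A N n x.1).1 x.2))

lemma infl_compareHom [Fintype N']
    (h1' : Limits.IsZero (groupCohomology (res N'.subtype A) 1))
    {z : G ⧸ N → G ⧸ N → k} {hz : IsScalarCocycle z} {n : ℕ}
    (hT : TorsionIsNormClass A N N' hz n) (x : torsionH2 A N n) :
    infl A N' 2 (compareHom h1' hT x) = infl A N 2 x.1 := by
  have := LinearEquiv.apply_symm_apply (LinearEquiv.ofInjective (infl A N' 2).hom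
      (infResExact_two A N' h1').1)
    (LinearMap.codRestrict (LinearMap.range (infl A N' 2).hom)
      ((infl A N 2).hom ∘ₗ (torsionH2 A N n).subtype)
      (fun x => infl_mem_range_of_torsion h1' hT x.1 ((mem_torsionH2_iff A N n x.1).1 x.2)) x)
  exact congr_arg Subtype.val this

lemma compareHom_injective [Fintype N']
    (h1 : Limits.IsZero (groupCohomology (res N.subtype A) 1))
    (h1' : Limits.IsZero (groupCohomology (res N'.subtype A) 1))
    {z : G ⧸ N → G ⧸ N → k} {hz : IsScalarCocycle z} {n : ℕ}
    (hT : TorsionIsNormClass A N N' hz n) : Function.Injective (compareHom h1' hT) := by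
  intro x y hxy
  have h := congr_arg (fun w => infl A N' 2 w) hxy
  simp only [infl_compareHom] at h
  exact Subtype.ext ((infResExact_two A N h1).1 h)

/-- The `n`-torsion of a finite cyclic group of order `m`, `n ∣ m`, has `n` elements. -/
lemma card_torsionH2 {m n : ℕ} (hnm : n ∣ m) [Finite (H2 (A.quotientToInvariants N))]
    (hcyc : IsAddCyclic (H2 (A.quotientToInvariants N)))
    (hcard : Nat.card (H2 (A.quotientToInvariants N)) = m) :
    Nat.card (torsionH2 A N n) = n := by
  have h := IsAddCyclic.card_nsmulAddMonoidHom_ker (H2 (A.quotientToInvariants N)) n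
  rw [hcard, Nat.gcd_eq_right hnm] at h
  refine Eq.trans (Nat.card_congr (Equiv.subtypeEquivRight fun x => ?_)) h
  rw [mem_torsionH2_iff]
  rfl

/-- **Counting theorem.**  The comparison map is bijective as soon as `H²(G ⧸ N, A^N)` is cyclic
of order `m`, `n ∣ m`, and `H²(G ⧸ N', A^{N'})` has at most `n` elements. -/
theorem compareHom_bijective [Fintype N']
    (h1 : Limits.IsZero (groupCohomology (res N.subtype A) 1))
    (h1' : Limits.IsZero (groupCohomology (res N'.subtype A) 1))
    {z : G ⧸ N → G ⧸ N → k} {hz : IsScalarCocycle z} {m n : ℕ} (hnm : n ∣ m)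
    (hT : TorsionIsNormClass A N N' hz n)
    [Finite (H2 (A.quotientToInvariants N))]
    (hcyc : IsAddCyclic (H2 (A.quotientToInvariants N)))
    (hcard : Nat.card (H2 (A.quotientToInvariants N)) = m)
    [Finite (H2 (A.quotientToInvariants N'))]
    (hle : Nat.card (H2 (A.quotientToInvariants N')) ≤ n) :
    Function.Bijective (compareHom h1' hT) := by
  refine (compareHom_injective h1 h1' hT).bijective_of_nat_card_le ?_
  rw [card_torsionH2 hnm hcyc hcard]
  exact hle

/-- The comparison isomorphism between the `n`-torsion of `H²(G ⧸ N, A^N)` and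
`H²(G ⧸ N', A^{N'})`. -/
noncomputable def compareEquiv [Fintype N']
    (h1 : Limits.IsZero (groupCohomology (res N.subtype A) 1))
    (h1' : Limits.IsZero (groupCohomology (res N'.subtype A) 1))
    {z : G ⧸ N → G ⧸ N → k} {hz : IsScalarCocycle z} {m n : ℕ} (hnm : n ∣ m)
    (hT : TorsionIsNormClass A N N' hz n)
    [Finite (H2 (A.quotientToInvariants N))]
    (hcyc : IsAddCyclic (H2 (A.quotientToInvariants N)))
    (hcard : Nat.card (H2 (A.quotientToInvariants N)) = m)
    [Finite (H2 (A.quotientToInvariants N'))]
    (hle : Nat.card (H2 (A.quotientToInvariants N')) ≤ n) :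
    torsionH2 A N n ≃ₗ[k] H2 (A.quotientToInvariants N') :=
  LinearEquiv.ofBijective (compareHom h1' hT)
    (compareHom_bijective h1 h1' hnm hT hcyc hcard hle)

/-- `H²(G ⧸ N', A^{N'})` has exactly `n` elements. -/
theorem card_H2_of_compare [Fintype N']
    (h1 : Limits.IsZero (groupCohomology (res N.subtype A) 1))
    (h1' : Limits.IsZero (groupCohomology (res N'.subtype A) 1))
    {z : G ⧸ N → G ⧸ N → k} {hz : IsScalarCocycle z} {m n : ℕ} (hnm : n ∣ m)
    (hT : TorsionIsNormClass A N N' hz n)
    [Finite (H2 (A.quotientToInvariants N))]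
    (hcyc : IsAddCyclic (H2 (A.quotientToInvariants N)))
    (hcard : Nat.card (H2 (A.quotientToInvariants N)) = m)
    [Finite (H2 (A.quotientToInvariants N'))]
    (hle : Nat.card (H2 (A.quotientToInvariants N')) ≤ n) :
    Nat.card (H2 (A.quotientToInvariants N')) = n := by
  rw [← Nat.card_congr (compareEquiv h1 h1' hnm hT hcyc hcard hle).toEquiv,
    card_torsionH2 hnm hcyc hcard]

/-- `H²(G ⧸ N', A^{N'})` is cyclic. -/
theorem isAddCyclic_H2_of_compare [Fintype N']
    (h1 : Limits.IsZero (groupCohomology (res N.subtype A) 1))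
    (h1' : Limits.IsZero (groupCohomology (res N'.subtype A) 1))
    {z : G ⧸ N → G ⧸ N → k} {hz : IsScalarCocycle z} {m n : ℕ} (hnm : n ∣ m)
    (hT : TorsionIsNormClass A N N' hz n)
    [Finite (H2 (A.quotientToInvariants N))]
    (hcyc : IsAddCyclic (H2 (A.quotientToInvariants N)))
    (hcard : Nat.card (H2 (A.quotientToInvariants N)) = m)
    [Finite (H2 (A.quotientToInvariants N'))]
    (hle : Nat.card (H2 (A.quotientToInvariants N')) ≤ n) :
    IsAddCyclic (H2 (A.quotientToInvariants N')) := by
  have e := (compareEquiv h1 h1' hnm hT hcyc hcard hle).toAddEquiv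
  have : IsAddCyclic (torsionH2 A N n) := by
    have : IsAddCyclic ((torsionH2 A N n).toAddSubgroup) := inferInstance
    exact this
  exact isAddCyclic_of_surjective e.toAddMonoidHom e.surjective

end Counting

end Fermat.Agent.Lib.CFT.Global.ClassFormation
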