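import Fermat.Agent.Lib.CFT.Global.ClassFormation.GenInfl
import Fermat.Agent.Lib.CFT.Global.ClassFormation.Compare

/-!
# Comparison of `H²` of two quotients, for inflation data (P-CFT, Global/ClassFormation, helper50)

The statements of `Compare.lean` in the language of inflation data (`GenInfl.lean`): `G` a group,
`A : Rep k G`, and two inflation data `(π : G →* Q, ι : res π B ⟶ A)`,
`(π' : G →* Q', ι' : res π' B' ⟶ A)`.

* `exists_map_eq_map_scalarClass`: if `H¹(ker π', A) = 0`, `z` is a scalar `2`-cocycle of `Q` and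
  `b ∈ B^Q` becomes a norm from `ker π'` in `A`, then the inflation of `[z • b] ∈ H²(Q, B)` to `G`
  comes from `H²(Q', B')`.
* `compareHomGen`, `compareEquivGen`, `card_H2_of_inflationData`,
  `isAddCyclic_H2_of_inflationData`: if moreover `H²(Q, B)` is cyclic of order `m`, `n ∣ m`,
  `H¹(ker π, A) = 0`, every `n`-torsion class of `H²(Q, B)` is of this form, and `H²(Q', B')` has
  at most `n` elements, then `H²(Q', B')` is cyclic of order `n`, identified with the `n`-torsion
  of `H²(Q, B)` through the two inflations.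

Application: `G = Gal(M/K)`, `A = C_M`, `Q = Gal(L/K)`, `B = C_L` with `L/K` cyclic cyclotomic,
`Q' = Gal(L'/K)`, `B' = C_{L'}` with `L'/K` an arbitrary Galois extension, `M = L L'`.
-/

set_option autoImplicit false

universe u

open CategoryTheory Rep groupCohomology

namespace Fermat.Agent.Lib.CFT.Global.ClassFormation

open Fermat.Agent.Lib.CFT.Coh.InfRes

variable {k : Type u} [CommRing k] {G Q Q' : Type u} [Group G] [Group Q] [Group Q']
variable {A : Rep.{u} k G} {B : Rep.{u} k Q} {B' : Rep.{u} k Q'}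
variable {π : G →* Q} {π' : G →* Q'} {ι : res π B ⟶ A} {ι' : res π' B' ⟶ A}

/-- The image under `ι` of a `Q`-invariant element is `G`-invariant. -/
def invMap (ι : res π B ⟶ A) : B.ρ.invariants →ₗ[k] A.ρ.invariants where
  toFun b := ⟨ι.hom b.1, fun g => by
    rw [← IsInflationDatum.ι_ρ, b.2 (π g)]⟩
  map_add' _ _ := Subtype.ext (map_add _ _ _)
  map_smul' _ _ := Subtype.ext (map_smul _ _ _)

@[simp] lemma invMap_coe (b : B.ρ.invariants) : (invMap ι b).1 = ι.hom b.1 := rfl

/-- Generalized inflation of the class `[z • b]`. -/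
lemma map_scalarClass_invMap {z : Q → Q → k} (hz : IsScalarCocycle z) (b : B.ρ.invariants) :
    map π ι 2 (scalarClass B hz b) = scalarClass A (hz.comp π) (invMap ι b) := by
  have := map_scalarClass π ι hz b (invMap ι b) rfl
  exact this

/-- **Comparison lemma** for inflation data. -/
theorem exists_map_eq_map_scalarClass [Fintype π'.ker] (h' : IsInflationDatum π' ι')
    (h1' : Limits.IsZero (groupCohomology (res π'.ker.subtype A) 1))
    {z : Q → Q → k} (hz : IsScalarCocycle z) (b : B.ρ.invariants)
    (t : A) (ht : (res π'.ker.subtype A).ρ.norm t = ι.hom b.1) :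
    ∃ y, map π' ι' 2 y = map π ι 2 (scalarClass B hz b) := by
  refine h'.exists_map_eq_of_rest_eq_zero h1' _ ?_
  rw [map_scalarClass_invMap, rest_scalarClass]
  exact scalarClass_eq_zero_of_norm (res π'.ker.subtype A) _ (invRes A π'.ker (invMap ι b)) t ht

section Counting

variable (B) in
/-- The `n`-torsion classes in `H²(Q, B)`. -/
noncomputable abbrev torsionH2Gen (n : ℕ) : Submodule k (H2 B) :=
  Submodule.torsionBy k (H2 B) (n : k)

variable (B) in
lemma mem_torsionH2Gen_iff (n : ℕ) (x : H2 B) : x ∈ torsionH2Gen B n ↔ n • x = 0 := by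
  rw [Submodule.mem_torsionBy_iff, Nat.cast_smul_eq_nsmul]

/-- The hypothesis of the counting argument: every `n`-torsion class of `H²(Q, B)` is of the
form `[z • b]` with `b ∈ B^Q` becoming a norm from `ker π'` in `A`. -/
def TorsionIsNormClassGen (π' : G →* Q') [Fintype π'.ker] (ι : res π B ⟶ A)
    {z : Q → Q → k} (hz : IsScalarCocycle z) (n : ℕ) : Prop :=
  ∀ x : H2 B, n • x = 0 →
    ∃ (b : B.ρ.invariants) (t : A), (res π'.ker.subtype A).ρ.norm t = ι.hom b.1 ∧
      x = scalarClass B hz b

lemma map_mem_range_of_torsion [Fintype π'.ker] (h' : IsInflationDatum π' ι')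
    (h1' : Limits.IsZero (groupCohomology (res π'.ker.subtype A) 1))
    {z : Q → Q → k} {hz : IsScalarCocycle z} {n : ℕ}
    (hT : TorsionIsNormClassGen π' ι hz n) (x : H2 B) (hx : n • x = 0) :
    (map π ι 2).hom x ∈ LinearMap.range (map π' ι' 2).hom := by
  obtain ⟨b, t, ht, rfl⟩ := hT x hx
  obtain ⟨y, hy⟩ := exists_map_eq_map_scalarClass h' h1' hz b t ht
  exact ⟨y, hy⟩

/-- The comparison map from the `n`-torsion of `H²(Q, B)` to `H²(Q', B')`, characterised by
`map π' ι' 2 (compareHomGen x) = map π ι 2 x`. -/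
noncomputable def compareHomGen [Fintype π'.ker] (h' : IsInflationDatum π' ι')
    (h1' : Limits.IsZero (groupCohomology (res π'.ker.subtype A) 1))
    {z : Q → Q → k} {hz : IsScalarCocycle z} {n : ℕ}
    (hT : TorsionIsNormClassGen π' ι hz n) :
    torsionH2Gen B n →ₗ[k] H2 B' :=
  (LinearEquiv.ofInjective (map π' ι' 2).hom (h'.map_injective h1')).symm.toLinearMap ∘ₗ
    LinearMap.codRestrict (LinearMap.range (map π' ι' 2).hom)
      ((map π ι 2).hom ∘ₗ (torsionH2Gen B n).subtype)
      (fun x => map_mem_range_of_torsion h' h1' hT x.1 ((mem_torsionH2Gen_iff B n x.1).1 x.2))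

lemma map_compareHomGen [Fintype π'.ker] (h' : IsInflationDatum π' ι')
    (h1' : Limits.IsZero (groupCohomology (res π'.ker.subtype A) 1))
    {z : Q → Q → k} {hz : IsScalarCocycle z} {n : ℕ}
    (hT : TorsionIsNormClassGen π' ι hz n) (x : torsionH2Gen B n) :
    map π' ι' 2 (compareHomGen h' h1' hT x) = map π ι 2 x.1 := by
  have := LinearEquiv.apply_symm_apply (LinearEquiv.ofInjective (map π' ι' 2).hom
      (h'.map_injective h1'))
    (LinearMap.codRestrict (LinearMap.range (map π' ι' 2).hom)
      ((map π ι 2).hom ∘ₗ (torsionH2Gen B n).subtype)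
      (fun x => map_mem_range_of_torsion h' h1' hT x.1 ((mem_torsionH2Gen_iff B n x.1).1 x.2)) x)
  exact congr_arg Subtype.val this

lemma compareHomGen_injective [Fintype π'.ker] (h : IsInflationDatum π ι)
    (h' : IsInflationDatum π' ι')
    (h1 : Limits.IsZero (groupCohomology (res π.ker.subtype A) 1))
    (h1' : Limits.IsZero (groupCohomology (res π'.ker.subtype A) 1))
    {z : Q → Q → k} {hz : IsScalarCocycle z} {n : ℕ}
    (hT : TorsionIsNormClassGen π' ι hz n) : Function.Injective (compareHomGen h' h1' hT) := by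
  intro x y hxy
  have hh := congr_arg (fun w => map π' ι' 2 w) hxy
  simp only [map_compareHomGen] at hh
  exact Subtype.ext (h.map_injective h1 hh)

/-- The `n`-torsion of a finite cyclic group of order `m`, `n ∣ m`, has `n` elements. -/
lemma card_torsionH2Gen {m n : ℕ} (hnm : n ∣ m) [Finite (H2 B)] (hcyc : IsAddCyclic (H2 B))
    (hcard : Nat.card (H2 B) = m) : Nat.card (torsionH2Gen B n) = n := by
  have hk := IsAddCyclic.card_nsmulAddMonoidHom_ker (H2 B) n
  rw [hcard, Nat.gcd_eq_right hnm] at hk
  refine Eq.trans (Nat.card_congr (Equiv.subtypeEquivRight fun x => ?_)) hk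
  rw [mem_torsionH2Gen_iff]
  rfl

/-- **Counting theorem** for inflation data. -/
theorem compareHomGen_bijective [Fintype π'.ker] (h : IsInflationDatum π ι)
    (h' : IsInflationDatum π' ι')
    (h1 : Limits.IsZero (groupCohomology (res π.ker.subtype A) 1))
    (h1' : Limits.IsZero (groupCohomology (res π'.ker.subtype A) 1))
    {z : Q → Q → k} {hz : IsScalarCocycle z} {m n : ℕ} (hnm : n ∣ m)
    (hT : TorsionIsNormClassGen π' ι hz n)
    [Finite (H2 B)] (hcyc : IsAddCyclic (H2 B)) (hcard : Nat.card (H2 B) = m)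
    [Finite (H2 B')] (hle : Nat.card (H2 B') ≤ n) :
    Function.Bijective (compareHomGen h' h1' hT) := by
  refine (compareHomGen_injective h h' h1 h1' hT).bijective_of_nat_card_le ?_
  rw [card_torsionH2Gen hnm hcyc hcard]
  exact hle

/-- The comparison isomorphism between the `n`-torsion of `H²(Q, B)` and `H²(Q', B')`. -/
noncomputable def compareEquivGen [Fintype π'.ker] (h : IsInflationDatum π ι)
    (h' : IsInflationDatum π' ι')
    (h1 : Limits.IsZero (groupCohomology (res π.ker.subtype A) 1))
    (h1' : Limits.IsZero (groupCohomology (res π'.ker.subtype A) 1))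
    {z : Q → Q → k} {hz : IsScalarCocycle z} {m n : ℕ} (hnm : n ∣ m)
    (hT : TorsionIsNormClassGen π' ι hz n)
    [Finite (H2 B)] (hcyc : IsAddCyclic (H2 B)) (hcard : Nat.card (H2 B) = m)
    [Finite (H2 B')] (hle : Nat.card (H2 B') ≤ n) :
    torsionH2Gen B n ≃ₗ[k] H2 B' :=
  LinearEquiv.ofBijective (compareHomGen h' h1' hT)
    (compareHomGen_bijective h h' h1 h1' hnm hT hcyc hcard hle)

lemma map_compareEquivGen [Fintype π'.ker] (h : IsInflationDatum π ι)
    (h' : IsInflationDatum π' ι')
    (h1 : Limits.IsZero (groupCohomology (res π.ker.subtype A) 1))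
    (h1' : Limits.IsZero (groupCohomology (res π'.ker.subtype A) 1))
    {z : Q → Q → k} {hz : IsScalarCocycle z} {m n : ℕ} (hnm : n ∣ m)
    (hT : TorsionIsNormClassGen π' ι hz n)
    [Finite (H2 B)] (hcyc : IsAddCyclic (H2 B)) (hcard : Nat.card (H2 B) = m)
    [Finite (H2 B')] (hle : Nat.card (H2 B') ≤ n) (x : torsionH2Gen B n) :
    map π' ι' 2 (compareEquivGen h h' h1 h1' hnm hT hcyc hcard hle x) = map π ι 2 x.1 :=
  map_compareHomGen h' h1' hT x

/-- `H²(Q', B')` has exactly `n` elements. -/
theorem card_H2_of_inflationData [Fintype π'.ker] (h : IsInflationDatum π ι)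
    (h' : IsInflationDatum π' ι')
    (h1 : Limits.IsZero (groupCohomology (res π.ker.subtype A) 1))
    (h1' : Limits.IsZero (groupCohomology (res π'.ker.subtype A) 1))
    {z : Q → Q → k} {hz : IsScalarCocycle z} {m n : ℕ} (hnm : n ∣ m)
    (hT : TorsionIsNormClassGen π' ι hz n)
    [Finite (H2 B)] (hcyc : IsAddCyclic (H2 B)) (hcard : Nat.card (H2 B) = m)
    [Finite (H2 B')] (hle : Nat.card (H2 B') ≤ n) :
    Nat.card (H2 B') = n := by
  rw [← Nat.card_congr (compareEquivGen h h' h1 h1' hnm hT hcyc hcard hle).toEquiv,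
    card_torsionH2Gen hnm hcyc hcard]

/-- `H²(Q', B')` is cyclic. -/
theorem isAddCyclic_H2_of_inflationData [Fintype π'.ker] (h : IsInflationDatum π ι)
    (h' : IsInflationDatum π' ι')
    (h1 : Limits.IsZero (groupCohomology (res π.ker.subtype A) 1))
    (h1' : Limits.IsZero (groupCohomology (res π'.ker.subtype A) 1))
    {z : Q → Q → k} {hz : IsScalarCocycle z} {m n : ℕ} (hnm : n ∣ m)
    (hT : TorsionIsNormClassGen π' ι hz n)
    [Finite (H2 B)] (hcyc : IsAddCyclic (H2 B)) (hcard : Nat.card (H2 B) = m)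
    [Finite (H2 B')] (hle : Nat.card (H2 B') ≤ n) :
    IsAddCyclic (H2 B') := by
  have e := (compareEquivGen h h' h1 h1' hnm hT hcyc hcard hle).toAddEquiv
  have : IsAddCyclic (torsionH2Gen B n) := by
    have : IsAddCyclic ((torsionH2Gen B n).toAddSubgroup) := inferInstance
    exact this
  exact isAddCyclic_of_surjective e.toAddMonoidHom e.surjective

end Counting

end Fermat.Agent.Lib.CFT.Global.ClassFormation
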