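import Mathlib
import Fermat.Agent.Lib.CFT.Global.LocalFieldAtTowerCard
import Fermat.Agent.Lib.CFT.Global.CyclotomicAdaptedLoc

/-!
# Adaptedness of a layer in a Galois tower (helper96, P-CFT, (GI-9) step (5))

Generic Galois tower `K ⊂ L₁ ⊂ M` of number fields, `Γ = Gal(M/K)`, `Q = Gal(L₁/K)`,
`N = Gal(M/L₁)`, `π = AlgEquiv.restrictNormalHom L₁ : Γ →* Q`.  For a maximal ideal `m'` of
`ℚ_q ⊗ M`:

`|Γ_{m'}| / |N_{m'}| = |Q_m|`, `m = maxBelow m'`,

so a divisibility `n ∣ |Q_m|` (e.g. from `CycAdapted.exists_cyclic_cyclotomic_primePow_maxSpec`)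
gives the adaptedness hypothesis `hadapt` of `ClassFormation.globalInv_principalClass_eq_zero`.
-/

set_option autoImplicit false
set_option linter.unusedSectionVars false

open scoped Pointwise TensorProduct

noncomputable section

namespace Fermat.Agent.Lib.CFT.Global.ClassFormation.Adapted

open Fermat.Agent.Lib.CFT.Global Fermat.Agent.Lib.CFT.Global.EtaleAlg
  Fermat.Agent.Lib.CFT.Global.LocalFieldAt

variable (K L₁ M : Type) [Field K] [Field L₁] [NumberField L₁] [Field M] [NumberField M]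
  [Algebra K L₁] [Algebra L₁ M] [Algebra K M] [IsScalarTower K L₁ M] [FiniteDimensional K M]
  [IsGalois K L₁] [IsGalois K M]

/-- Compatibility of restriction with the inclusion `L₁ → M`. -/
theorem tower_hf (g : M ≃ₐ[K] M) (x : L₁) :
    algebraMap L₁ M (AlgEquiv.restrictNormalHom L₁ g • x) = g • algebraMap L₁ M x :=
  AlgEquiv.restrictNormal_commutes g L₁ x

/-- The inclusion `Gal(M/L₁) → Gal(M/K)`. -/
abbrev towerIncl : (M ≃ₐ[L₁] M) →* (M ≃ₐ[K] M) := AlgEquiv.restrictScalarsHom K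

theorem towerIncl_smul (n : M ≃ₐ[L₁] M) (x : M) : towerIncl K L₁ M n • x = n • x := rfl

theorem towerIncl_injective : Function.Injective (towerIncl K L₁ M) :=
  AlgEquiv.restrictScalarsHom_injective K

theorem towerIncl_range :
    (towerIncl K L₁ M).range = (AlgEquiv.restrictNormalHom L₁ : (M ≃ₐ[K] M) →* _).ker := by
  ext g
  rw [MonoidHom.mem_ker]
  constructor
  · rintro ⟨n, rfl⟩
    ext x
    apply (algebraMap L₁ M).injective
    have h1 := AlgEquiv.restrictNormal_commutes (towerIncl K L₁ M n) L₁ x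
    exact h1.trans (n.commutes x)
  · intro hg
    have hcomm : ∀ x : L₁, g (algebraMap L₁ M x) = algebraMap L₁ M x := by
      intro x
      have h1 := AlgEquiv.restrictNormal_commutes g L₁ x
      have h2 : g.restrictNormal L₁ = 1 := hg
      rw [h2] at h1
      exact h1.symm
    refine ⟨AlgEquiv.ofRingEquiv (f := (g : M ≃+* M)) hcomm, ?_⟩
    ext x
    rfl

/-- **Relative order of decomposition groups in the tower**:
`|Γ_{m'}| / |N_{m'}| = |Q_{maxBelow m'}|`. -/
theorem card_stabilizer_div (q : Nat.Primes) (m' : MaximalSpectrum (LocAlg M q)) :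
    Nat.card (MulAction.stabilizer (M ≃ₐ[K] M) m') /
        Nat.card (MulAction.stabilizer (M ≃ₐ[L₁] M) m') =
      Nat.card (MulAction.stabilizer (L₁ ≃ₐ[K] L₁) (maxBelow L₁ M q m')) := by
  have : FiniteDimensional K L₁ := FiniteDimensional.left K L₁ M
  exact card_stabilizer_div_card_stabilizer K L₁ M (L₁ ≃ₐ[K] L₁) (M ≃ₐ[K] M)
    (AlgEquiv.restrictNormalHom L₁) (tower_hf K L₁ M) q (maxBelow L₁ M q m') m' rfl
    (M ≃ₐ[L₁] M) (towerIncl K L₁ M) (towerIncl_smul K L₁ M) (towerIncl_injective K L₁ M)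
    (towerIncl_range K L₁ M)

/-- **Adaptedness** (the conclusion of `hadapt` in `globalInv_principalClass_eq_zero`) from a
divisibility for the decomposition group of `L₁ / K` below. -/
theorem dvd_card_stabilizer_div (q : Nat.Primes) (m' : MaximalSpectrum (LocAlg M q)) {n : ℕ}
    (h : n ∣ Nat.card (MulAction.stabilizer (L₁ ≃ₐ[K] L₁) (maxBelow L₁ M q m'))) :
    n ∣ Nat.card (MulAction.stabilizer (M ≃ₐ[K] M) m') /
      Nat.card (MulAction.stabilizer (M ≃ₐ[L₁] M) m') := by
  rw [card_stabilizer_div K L₁ M q m']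
  exact h

/-- Adaptedness for all primes in `S`, in the shape delivered by
`CycAdapted.exists_cyclic_cyclotomic_primePow_maxSpec`. -/
theorem adapted_of_forall_dvd (S : Finset Nat.Primes) {n : ℕ}
    (h : ∀ q ∈ S, ∀ m₁ : MaximalSpectrum (LocAlg L₁ q),
      n ∣ Nat.card (MulAction.stabilizer (L₁ ≃ₐ[K] L₁) m₁))
    (q : Nat.Primes) (hq : q ∈ S) (m' : MaximalSpectrum (LocAlg M q)) :
    n ∣ Nat.card (MulAction.stabilizer (M ≃ₐ[K] M) m') /
      Nat.card (MulAction.stabilizer (M ≃ₐ[L₁] M) m') :=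
  dvd_card_stabilizer_div K L₁ M q m' (h q hq _)

end Fermat.Agent.Lib.CFT.Global.ClassFormation.Adapted
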