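import Fermat.Agent.Lib.CFT.Global.ClassFormation.SumFormulaLayer
import Fermat.Agent.Lib.CFT.Global.CyclotomicAdaptedLoc

/-!
# The concrete adapted tower `K ⊆ L₁ ⊆ K(ζ_m) ⊆ L(ζ_m)` (P-CFT (GI-9), helper17)

The field-theoretic construction in the proof of the sum formula (Cassels–Fröhlich VII.11.2): for
a Galois extension `L/K` of number fields and a modulus `m` we take `M = L(ζ_m)`
(`CyclotomicField m L`, Galois over `K`: `isGalois_cycloTop`), its subfield `K(ζ_m)` (`cycSub`,
a cyclotomic extension of `K`: `isCyclotomicExtension_cycSub`) and a layer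
`L₁ : IntermediateField K (cycSub K L m)`, used *as a type* `↥L₁` (so that the results on cyclic
cyclotomic layers apply verbatim), with `Gal(M/K) → Gal(L/K)`, `Gal(M/K) → Gal(L₁/K)` the
restriction maps and `Gal(M/L₁) → Gal(M/K)` the restriction of scalars.

* `globalInv_principalClass_eq_zero_of_cyclotomic_layer`: the instantiation of
  `globalInv_principalClass_eq_zero_of_layer` for this tower, with the adaptedness hypothesis in
  the form produced by `CycAdapted.exists_cyclic_cyclotomic_primePow_maxSpec`;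
* `globalInv_principalClass_eq_zero_of_support`: the sum formula for a class of odd prime power
  order of `H²(Gal(L/K), Lˣ)` with local components supported in a finite set of primes, from the
  Hasse principle and the sum formula on cyclic cyclotomic layers of odd degree.
-/

set_option autoImplicit false

open CategoryTheory Polynomial IntermediateField

namespace Fermat.Agent.Lib.CFT.Global.ClassFormation.AdaptedTower

open Fermat.Agent.Lib.CFT.Global Fermat.Agent.Lib.CFT.Global.EtaleAlg
open Fermat.Agent.Lib.CFT.Global.LocalFieldAt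
open Fermat.Agent.Lib.CFT.Local (LocalInvTheory)

attribute [local instance] Units.mulDistribMulActionRight

section Concrete

variable (K L : Type) [Field K] [NumberField K] [Field L] [NumberField L] [Algebra K L]
  (m : ℕ) [NeZero m]

/-- A finite normal extension is the splitting field of a nonzero polynomial. -/
theorem exists_ne_zero_isSplittingField' [Normal K L] :
    ∃ f : K[X], f ≠ 0 ∧ IsSplittingField K L f := by
  obtain ⟨f, hf⟩ := Normal.exists_isSplittingField K L
  by_cases h0 : f = 0
  · subst h0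
    refine ⟨1, one_ne_zero, ⟨by simp, ?_⟩⟩
    have := hf.adjoin_rootSet
    simpa [rootSet_zero] using this
  · exact ⟨f, h0, hf⟩

/-- `L(ζ_m)/K` is Galois if `L/K` is. -/
instance isGalois_cycloTop [IsGalois K L] : IsGalois K (CyclotomicField m L) := by
  obtain ⟨f, hf0, hf⟩ := exists_ne_zero_isSplittingField' K L
  have h2 : IsSplittingField L (CyclotomicField m L)
      ((cyclotomic m K).map (algebraMap K L)) := by
    rw [map_cyclotomic]
    exact IsCyclotomicExtension.splitting_field_cyclotomic m L _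
  have h3 := Polynomial.IsSplittingField.mul (F := K) (K := L) (CyclotomicField m L) f
    (cyclotomic m K) hf0 (cyclotomic_ne_zero m K)
  have := Normal.of_isSplittingField (F := K) (E := CyclotomicField m L) (f * cyclotomic m K)
  exact ⟨⟩

/-- The subfield `K(ζ_m)` of `L(ζ_m)`. -/
noncomputable def cycSub : IntermediateField K (CyclotomicField m L) :=
  K⟮IsCyclotomicExtension.zeta m L (CyclotomicField m L)⟯

instance isCyclotomicExtension_cycSub : IsCyclotomicExtension {m} K (cycSub K L m) :=
  (IsCyclotomicExtension.zeta_spec m L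
    (CyclotomicField m L)).intermediateField_adjoin_isCyclotomicExtension K

instance isGalois_cycSub : IsGalois K (cycSub K L m) :=
  IsCyclotomicExtension.isGalois {m} K _

end Concrete

section Layer

variable (T : ∀ q : Nat.Primes, LocalInvTheory (pv q))
variable (K L : Type) [Field K] [NumberField K] [Field L] [NumberField L] [Algebra K L]
  [IsGalois K L] (m : ℕ) [NeZero m] (L₁ : IntermediateField K (cycSub K L m)) [IsGalois K L₁]

/-- `L(ζ_m)` is Galois over every layer of `K(ζ_m)/K`. -/
instance isGalois_over_layer : IsGalois L₁ (CyclotomicField m L) :=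
  IsGalois.tower_top_of_isGalois K L₁ (CyclotomicField m L)

/-- **The sum formula via an adapted cyclotomic layer**: `globalInv_principalClass_eq_zero_of_layer`
for the tower `K ⊆ L₁ ⊆ K(ζ_m) ⊆ M = L(ζ_m)`, `K ⊆ L ⊆ M`, with Galois groups and restriction
maps.  `S` is a set of primes containing the support of `α`. -/
theorem globalInv_principalClass_eq_zero_of_cyclotomic_layer
    (hHasse : ∀ c : groupCohomology (unitsRep (CyclotomicField m L)
        (CyclotomicField m L ≃ₐ[L₁] CyclotomicField m L)) 2,
      (∀ (q : Nat.Primes) (m' : MaximalSpectrum (LocAlg (CyclotomicField m L) q)),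
        locComp (CyclotomicField m L) (CyclotomicField m L ≃ₐ[L₁] CyclotomicField m L) q m' 2
          (principalClass (CyclotomicField m L)
            (CyclotomicField m L ≃ₐ[L₁] CyclotomicField m L) c) = 0) →
      (∀ a : MaximalSpectrum (ArchAlg (CyclotomicField m L)),
        archComp (CyclotomicField m L) (CyclotomicField m L ≃ₐ[L₁] CyclotomicField m L) a 2
          (principalClass (CyclotomicField m L)
            (CyclotomicField m L ≃ₐ[L₁] CyclotomicField m L) c) = 0) → c = 0)
    (p k : ℕ) (hp : Odd p)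
    (α : groupCohomology (unitsRep L (L ≃ₐ[K] L)) 2) (hα : (p ^ k) • α = 0)
    (S : Set Nat.Primes)
    (hS : ∀ q ∉ S, ∀ m₀ : MaximalSpectrum (LocAlg L q),
      locComp L (L ≃ₐ[K] L) q m₀ 2 (principalClass L (L ≃ₐ[K] L) α) = 0)
    (hadapt : ∀ q ∈ S, ∀ m₁ : MaximalSpectrum (LocAlg L₁ q),
      p ^ k ∣ Nat.card (MulAction.stabilizer (L₁ ≃ₐ[K] L₁) m₁))
    (Sbad : Set Nat.Primes) (hdisj : ∀ q ∈ Sbad, q ∉ S)
    (hO2a : ∀ β : groupCohomology (unitsRep L₁ (L₁ ≃ₐ[K] L₁)) 2,
      (∀ q ∈ Sbad, ∀ m₁ : MaximalSpectrum (LocAlg L₁ q),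
        locComp L₁ (L₁ ≃ₐ[K] L₁) q m₁ 2 (principalClass L₁ (L₁ ≃ₐ[K] L₁) β) = 0) →
      globalInv T L₁ (L₁ ≃ₐ[K] L₁) (principalClass L₁ (L₁ ≃ₐ[K] L₁) β) = 0) :
    globalInv T L (L ≃ₐ[K] L) (principalClass L (L ≃ₐ[K] L) α) = 0 := by
  refine globalInv_principalClass_eq_zero_of_layer T K L L₁ (CyclotomicField m L)
    (L ≃ₐ[K] L) (L₁ ≃ₐ[K] L₁) (CyclotomicField m L ≃ₐ[K] CyclotomicField m L)
    (CyclotomicField m L ≃ₐ[L₁] CyclotomicField m L)
    (AlgEquiv.restrictNormalHom L) (fun γ x => AlgEquiv.restrictNormal_commutes γ L x)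
    (AlgEquiv.restrictNormalHom L₁) (fun γ x => AlgEquiv.restrictNormal_commutes γ L₁ x)
    (AlgEquiv.restrictScalarsHom K) (fun n x => rfl)
    hHasse p k hp α hα ?_ Sbad ?_ hO2a
  · intro q m' h0
    apply hadapt q
    by_contra hq
    exact h0 (hS q hq _)
  · intro q hq m₀
    exact hS q (hdisj q hq) m₀

end Layer

section Support

variable (T : ∀ q : Nat.Primes, LocalInvTheory (pv q))
variable (K L : Type) [Field K] [NumberField K] [Field L] [NumberField L] [Algebra K L]
  [IsGalois K L]

/-- **The sum formula for classes of odd prime power order with finite support**, from the Hasse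
principle (`hHasse`) and the sum formula on the cyclic cyclotomic layers of odd degree
(`hcyc`). -/
theorem globalInv_principalClass_eq_zero_of_support
    (hHasse : ∀ (M : Type) [Field M] [NumberField M] (N : Type) [Group N] [Finite N]
      [MulSemiringAction N M] [FaithfulSMul N M] (c : groupCohomology (unitsRep M N) 2),
      (∀ (q : Nat.Primes) (m' : MaximalSpectrum (LocAlg M q)),
        locComp M N q m' 2 (principalClass M N c) = 0) →
      (∀ a : MaximalSpectrum (ArchAlg M), archComp M N a 2 (principalClass M N c) = 0) → c = 0)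
    (hcyc : ∀ (m : ℕ) [NeZero m], Irreducible (cyclotomic m K) →
      ∀ (M0 : Type) [Field M0] [NumberField M0] [Algebra K M0] [IsGalois K M0]
        [IsCyclotomicExtension {m} K M0] (L₁ : IntermediateField K M0) [IsGalois K L₁],
        IsCyclic (L₁ ≃ₐ[K] L₁) → Odd (Module.finrank K L₁) →
        ∀ β : groupCohomology (unitsRep L₁ (L₁ ≃ₐ[K] L₁)) 2,
          (∀ q : Nat.Primes, pv q ∣ m → ∀ m₁ : MaximalSpectrum (LocAlg L₁ q),
            locComp L₁ (L₁ ≃ₐ[K] L₁) q m₁ 2 (principalClass L₁ (L₁ ≃ₐ[K] L₁) β) = 0) →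
          globalInv T L₁ (L₁ ≃ₐ[K] L₁) (principalClass L₁ (L₁ ≃ₐ[K] L₁) β) = 0)
    {p : ℕ} (hp : p.Prime) (hp2 : p ≠ 2) (k : ℕ)
    (α : groupCohomology (unitsRep L (L ≃ₐ[K] L)) 2) (hα : (p ^ k) • α = 0)
    (S : Finset Nat.Primes)
    (hS : ∀ q ∉ S, ∀ m₀ : MaximalSpectrum (LocAlg L q),
      locComp L (L ≃ₐ[K] L) q m₀ 2 (principalClass L (L ≃ₐ[K] L) α) = 0) :
    globalInv T L (L ≃ₐ[K] L) (principalClass L (L ≃ₐ[K] L) α) = 0 := by
  have hodd : Odd p := hp.odd_of_ne_two hp2
  obtain ⟨m, hm0, hirr, -, -, hmS, hM⟩ :=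
    CycAdapted.exists_cyclic_cyclotomic_primePow_maxSpec K S hp k one_ne_zero
  have := hm0
  obtain ⟨L₁, hgal, hcycl, -, ⟨a, ha⟩, hdec⟩ := hM (cycSub K L m)
  have := hgal
  refine globalInv_principalClass_eq_zero_of_cyclotomic_layer T K L m L₁
    (hHasse _ _) p k hodd α hα (S : Set Nat.Primes) (fun q hq => hS q (by simpa using hq))
    (fun q hq => hdec q (by simpa using hq)) {q | pv q ∣ m}
    (fun q hq hqS => hmS q (by simpa using hqS) hq) ?_
  intro β hβ
  refine hcyc m hirr (cycSub K L m) L₁ hcycl ?_ β (fun q hq m₁ => hβ q hq m₁)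
  rw [ha]
  exact hodd.pow

end Support

end Fermat.Agent.Lib.CFT.Global.ClassFormation.AdaptedTower
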