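import Fermat.Agent.Lib.CFT.Global.ClassFormation.PLayer
import Fermat.Agent.Lib.CFT.Global.SecondIneq.Unconditional

/-!
# `H²(Gal(L/K), C_L)` is cyclic of order `[L:K]` for EVERY Galois layer (P-CFT, helper50)

* `card_H2_and_isAddCyclic_of_ineq`: from the Props `FirstIneqHerbrand`, `PrimeLayersGood`: take a
  prime `ℓ ≡ 1 mod [L:K]·[K:ℚ]` (elementary Dirichlet, Mathlib `Nat.exists_prime_gt_modEq_one`);
  then `(ℤ/ℓ)ˣ` is cyclic and `[L:K] ∣ [K(ζ_ℓ):K]`, so `PLayer.lean` applies.
* `card_H2_ideleClass`, `isAddCyclic_H2_ideleClass`: the unconditional statements (both inequalities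
  are theorems: `CohIdeles.firstIneqHerbrand`, `CohIdeles.primeLayersGood`).
* `GlobalCFInput`, `globalCFInput`: the action form asked for by `SVersion/Formation`: for a finite
  group `G` acting faithfully on a number field `L`: `H¹(G, C_L) = 0`, `H²(G, C_L)` is cyclic of
  order `|G|`.
-/

set_option autoImplicit false

open CategoryTheory Rep groupCohomology

namespace Fermat.Agent.Lib.CFT.Global.ClassFormation

open Fermat.Agent.Lib.CFT.Global Fermat.Agent.Lib.CFT.Global.SecondIneq.Consequences

section Galois

variable (K L' : Type) [Field K] [NumberField K] [Field L'] [NumberField L'] [Algebra K L']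
  [IsGalois K L']

/-- **All Galois layers, from the two inequalities.** -/
theorem card_H2_and_isAddCyclic_of_ineq (h1 : FirstIneqHerbrand) (hP : PrimeLayersGood) :
    Nat.card (H2 (ideleClassRep L' (L' ≃ₐ[K] L'))) = Module.finrank K L' ∧
      IsAddCyclic (H2 (ideleClassRep L' (L' ≃ₐ[K] L'))) := by
  have hd : 0 < Module.finrank ℚ K := Module.finrank_pos
  have hn : 0 < Module.finrank K L' := Module.finrank_pos
  obtain ⟨ℓ, hℓ, -, hmod⟩ := Nat.exists_prime_gt_modEq_one (k := Module.finrank ℚ K *
    Module.finrank K L') 0 (Nat.mul_ne_zero hd.ne' hn.ne')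
  have hdvd : Module.finrank ℚ K * Module.finrank K L' ∣ ℓ - 1 :=
    (Nat.modEq_iff_dvd' hℓ.one_le).1 hmod.symm
  have : NeZero ℓ := ⟨hℓ.ne_zero⟩
  let _ : Algebra (CyclotomicField ℓ K) (CyclotomicField ℓ L') :=
    (cycloLift K L' ℓ).toRingHom.toAlgebra
  have : IsScalarTower K (CyclotomicField ℓ K) (CyclotomicField ℓ L') :=
    IsScalarTower.of_algebraMap_eq (fun x => ((cycloLift K L' ℓ).commutes x).symm)
  have : IsGalois K (CyclotomicField ℓ K) := IsCyclotomicExtension.isGalois {ℓ} K _
  have : IsGalois K (CyclotomicField ℓ L') := isGalois_cyclotomicField K L' _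
  have : IsCyclic (ZMod ℓ)ˣ := ZMod.isCyclic_units_prime hℓ
  refine card_H2_and_isAddCyclic_of_cyclotomic_of_ineq K (CyclotomicField ℓ K) L'
    (CyclotomicField ℓ L') ℓ h1 hP ?_
  have h2 := totient_dvd_finrank_mul K ℓ (CyclotomicField ℓ K)
  rw [Nat.totient_prime hℓ] at h2
  exact (Nat.mul_dvd_mul_iff_left hd).1 (hdvd.trans h2)

/-- `|H²(Gal(L/K), C_L)| = [L:K]` for every Galois extension of number fields. -/
theorem card_H2_ideleClass :
    Nat.card (H2 (ideleClassRep L' (L' ≃ₐ[K] L'))) = Module.finrank K L' :=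
  (card_H2_and_isAddCyclic_of_ineq K L' CohIdeles.firstIneqHerbrand CohIdeles.primeLayersGood).1

/-- `H²(Gal(L/K), C_L)` is cyclic for every Galois extension of number fields. -/
theorem isAddCyclic_H2_ideleClass : IsAddCyclic (H2 (ideleClassRep L' (L' ≃ₐ[K] L'))) :=
  (card_H2_and_isAddCyclic_of_ineq K L' CohIdeles.firstIneqHerbrand CohIdeles.primeLayersGood).2

end Galois

section Action

/-- The cohomological input of the global class formation, in action form. -/
def GlobalCFInput : Prop :=
  ∀ (L : Type) [Field L] [NumberField L] (G : Type) [Group G] [Finite G]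
    [MulSemiringAction G L] [FaithfulSMul G L],
    Limits.IsZero (groupCohomology (ideleClassRep L G) 1) ∧
      IsAddCyclic (groupCohomology (ideleClassRep L G) 2) ∧
      Nat.card (groupCohomology (ideleClassRep L G) 2) = Nat.card G

variable (M : Type) [Field M] [NumberField M] (G : Type) [Group G] [Finite G]
  [MulSemiringAction G M] [FaithfulSMul G M]

/-- `Hⁿ(G, C_M) ≅ Hⁿ(Gal(M/M^G), C_M)` for a finite group acting faithfully on `M`. -/
noncomputable def actionCohIso (n : ℕ) : groupCohomology (ideleClassRep M G) n ≅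
    groupCohomology (ideleClassRep M (M ≃ₐ[FixedPoints.subfield G M] M)) n :=
  groupCohomology.mapIso (A := ideleClassRep M (M ≃ₐ[FixedPoints.subfield G M] M))
    (B := ideleClassRep M G) (FixedPoints.toAlgAutMulEquiv G M) (LinearEquiv.refl ℤ _)
    (fun g => by
      ext u
      exact congrArg Additive.ofMul
        (smul_ideleClass_congr M g (FixedPoints.toAlgAutMulEquiv G M g) (fun _ => rfl)
          (Additive.toMul u))) n

/-- **`H²(G, C_M)` is cyclic of order `|G|`, `H¹(G, C_M) = 0`** (action form). -/
theorem ideleClass_cohomology_cyclic :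
    Limits.IsZero (groupCohomology (ideleClassRep M G) 1) ∧
      IsAddCyclic (groupCohomology (ideleClassRep M G) 2) ∧
      Nat.card (groupCohomology (ideleClassRep M G) 2) = Nat.card G := by
  refine ⟨ideleClass_H1_isZero M G, ?_, ?_⟩
  · have e := (actionCohIso M G 2).toLinearEquiv.toAddEquiv
    have := isAddCyclic_H2_ideleClass (FixedPoints.subfield G M) M
    exact isAddCyclic_of_surjective e.symm e.symm.surjective
  · have e := (actionCohIso M G 2).toLinearEquiv.toEquiv
    rw [Nat.card_congr e, Nat.card_congr (FixedPoints.toAlgAutMulEquiv G M).toEquiv,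
      IsGalois.card_aut_eq_finrank]
    exact card_H2_ideleClass (FixedPoints.subfield G M) M

/-- The input of `SVersion/Formation` is a theorem. -/
theorem globalCFInput : GlobalCFInput := fun L _ _ G _ _ _ _ => ideleClass_cohomology_cyclic L G

end Action

end Fermat.Agent.Lib.CFT.Global.ClassFormation
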