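import Fermat.Agent.Lib.CFT.Coh.CyclicExplicit
import Fermat.Agent.Lib.CFT.Global.ClassFormation.ScalarCocycle

/-!
# The carry cocycle of a finite cyclic group (P-CFT, Global/ClassFormation, helper50)

Bridge between `ScalarCocycle.lean` and helper33's `Coh/CyclicExplicit.lean`: for a finite cyclic
group `G` with generator `s`, the carry cocycle `carry s hs x y = 1` if `dlog x + dlog y ≥ |G|` and
`0` otherwise is a scalar `2`-cocycle, and the class `[carry • a]` is `CyclicExplicit.toH2 a`
(the class of `cyc2 a`, i.e. `a ∪ δχ_s`).  Hence every class of `H²(G, A)` is of the form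
`[carry • a]`, and `[carry • a] = 0` iff `a` is a norm.
-/

set_option autoImplicit false

universe u

open CategoryTheory Rep groupCohomology

namespace Fermat.Agent.Lib.CFT.Global.ClassFormation

open Fermat.Agent.Lib.CFT.Coh.CyclicExplicit Fermat.Agent.Lib.CFT.Coh.TateLow

section Carry

variable (k : Type u) [CommRing k] {G : Type u} [Group G] [Fintype G] (s : G)
  (hs : ∀ x, x ∈ Subgroup.zpowers s)

/-- The carry cocycle of a finite cyclic group with generator `s`. -/
noncomputable def carry : G → G → k :=
  fun x y => if Fintype.card G ≤ dlog s hs x + dlog s hs y then 1 else 0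

lemma carry_apply (x y : G) :
    carry k s hs x y = if Fintype.card G ≤ dlog s hs x + dlog s hs y then 1 else 0 := rfl

/-- The carry cocycle is a scalar `2`-cocycle. -/
theorem isScalarCocycle_carry : IsScalarCocycle (carry k s hs) := by
  intro x y t
  simp only [carry_apply, dlog_mul]
  have hx := dlog_lt s hs x
  have hy := dlog_lt s hs y
  have ht := dlog_lt s hs t
  set N := Fintype.card G
  set i := dlog s hs x
  set j := dlog s hs y
  set l := dlog s hs t
  by_cases h1 : N ≤ i + j
  · rw [mod_of_ge h1 (by omega)]
    by_cases h2 : N ≤ j + l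
    · rw [mod_of_ge h2 (by omega)]
      split_ifs <;> first | ring1 | (exfalso; omega)
    · rw [Nat.mod_eq_of_lt (by omega : j + l < N)]
      split_ifs <;> first | ring1 | (exfalso; omega)
  · rw [Nat.mod_eq_of_lt (by omega : i + j < N)]
    by_cases h2 : N ≤ j + l
    · rw [mod_of_ge h2 (by omega)]
      split_ifs <;> first | ring1 | (exfalso; omega)
    · rw [Nat.mod_eq_of_lt (by omega : j + l < N)]
      split_ifs <;> first | ring1 | (exfalso; omega)

end Carry

section Classes

variable {k G : Type u} [CommRing k] [Group G] [Fintype G] (A : Rep k G) (s : G)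
  (hs : ∀ x, x ∈ Subgroup.zpowers s)

/-- `[carry • a]` is the class of `cyc2 a`. -/
theorem scalarClass_carry (a : A.ρ.invariants) :
    scalarClass A (isScalarCocycle_carry k s hs) a = toH2 A s hs a := by
  rw [scalarClass_apply, toH2_apply]
  congr 1
  apply Subtype.ext
  funext p
  obtain ⟨x, y⟩ := p
  change carry k s hs x y • a.1 = cyc2 A s hs a.1 (x, y)
  rw [cyc2_apply, carry_apply]
  split_ifs <;> simp

/-- Every class of `H²(G, A)`, `G` finite cyclic, is of the form `[carry • a]`. -/
theorem exists_scalarClass_carry_eq (x : H2 A) :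
    ∃ a : A.ρ.invariants, scalarClass A (isScalarCocycle_carry k s hs) a = x := by
  obtain ⟨a, ha⟩ := toH2_surjective A s hs x
  exact ⟨a, by rw [scalarClass_carry, ha]⟩

/-- `[carry • a] = 0` iff `a` is a norm. -/
theorem scalarClass_carry_eq_zero_iff (a : A.ρ.invariants) :
    scalarClass A (isScalarCocycle_carry k s hs) a = 0 ↔ ∃ t : A, A.ρ.norm t = a.1 := by
  rw [scalarClass_carry, toH2_eq_zero_iff, mem_normRange]

end Classes

end Fermat.Agent.Lib.CFT.Global.ClassFormation
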