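import Fermat.Agent.Lib.CFT.Global.FirstIneqSplit
import Fermat.Agent.Lib.CFT.Global.Places.GaloisLocal
import Fermat.Agent.Lib.CFT.Global.Places.GaloisUnram
import Fermat.Agent.Lib.CFT.Global.EtaleAlgCoh

/-!
# A cyclic layer has a prime with full decomposition group, in action form (P-CFT, (GI-7), helper9)

For a finite cyclic group `G` acting faithfully on a number field `L` there are a rational prime
`q₀` and a `G`-orbit `ω₀` of maximal ideals of `ℚ_{q₀} ⊗ L` whose canonical representative is fixed
by all of `G` (`exists_rep_stabilizer_eq_top`).  This is helper14's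
`FirstIneqSplit.exists_prime_stabilizer_eq_top` (Frobenius density: a cyclic extension has inert
primes) for `K = L^G`, transported to the conventions of `Global/LocalComponents.lean`.
-/

set_option autoImplicit false

namespace Fermat.Agent.Lib.CFT.Global.ClassFormation.CyclicLayer

open Fermat.Agent.Lib.CFT.Global Fermat.Agent.Lib.CFT.Global.EtaleAlg
open Fermat.Agent.Lib.CFT.Global.Places Fermat.Agent.Lib.CFT.Global.Places.Galois
open NumberField IsDedekindDomain

open scoped Pointwise

section Inert

variable (L : Type) [Field L] [NumberField L]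
variable (G : Type) [Group G] [Finite G] [MulSemiringAction G L] [FaithfulSMul G L]

/-- There is a prime of `L` (as a maximal ideal of some `ℚ_q ⊗ L`) fixed by the whole cyclic
group `G`. -/
theorem exists_maximalSpectrum_stabilizer_eq_top [IsCyclic G] :
    ∃ (q₀ : Nat.Primes) (m : MaximalSpectrum (LocAlg L q₀)), MulAction.stabilizer G m = ⊤ := by
  let e : G ≃* Gal(L/FixedPoints.subfield G L) := FixedPoints.toAlgAutMulEquiv G L
  have : IsCyclic Gal(L/FixedPoints.subfield G L) :=
    isCyclic_of_surjective e e.surjective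
  obtain ⟨ℓ, -, Q, hQ, hmem, hst⟩ :=
    FirstIneqSplit.exists_prime_stabilizer_eq_top (FixedPoints.subfield G L) L ∅
  have hQ0 : Q ≠ ⊥ := by
    intro h
    rw [h, Ideal.mem_bot] at hmem
    have : ((ℓ : ℕ) : 𝓞 L) ≠ 0 := Nat.cast_ne_zero.mpr ℓ.2.ne_zero
    exact this hmem
  let w : PrimesOver L ℓ := ⟨⟨Q, hQ, hQ0⟩, hmem⟩
  refine ⟨ℓ, primesEquivMaximalSpectrum L ℓ w, ?_⟩
  rw [stabilizer_primesEquiv, eq_top_iff]
  intro g _
  rw [MulAction.mem_stabilizer_iff]
  have h1 : e g ∈ MulAction.stabilizer Gal(L/FixedPoints.subfield G L) Q := by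
    rw [hst]; exact Subgroup.mem_top _
  rw [MulAction.mem_stabilizer_iff] at h1
  exact h1

/-- There is a `G`-orbit of primes of `L` whose canonical representative is fixed by the whole
cyclic group `G`. -/
theorem exists_rep_stabilizer_eq_top [IsCyclic G] :
    ∃ (q₀ : Nat.Primes) (ω₀ : MulAction.orbitRel.Quotient G (MaximalSpectrum (LocAlg L q₀))),
      MulAction.stabilizer G (orbitRep G (LocAlg L q₀) ω₀) = ⊤ := by
  obtain ⟨q₀, m, hm⟩ := exists_maximalSpectrum_stabilizer_eq_top L G
  obtain ⟨ω₀, g, hg⟩ := orbitRep_cov G (LocAlg L q₀) m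
  refine ⟨q₀, ω₀, ?_⟩
  have hgm : g • m = m := by
    have : g ∈ MulAction.stabilizer G m := by rw [hm]; exact Subgroup.mem_top _
    exact this
  rw [← hg, hgm, hm]

end Inert

end Fermat.Agent.Lib.CFT.Global.ClassFormation.CyclicLayer
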