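import Fermat.Agent.Lib.CFT.Global.ClassFormation.LocalInv
import Fermat.Agent.Lib.CFT.Global.CohIdeles.Hilbert90

/-!
# Idele cohomology classes with a single prescribed local component (P-CFT, (GI-7), helper9)

For a number field `L` with an action of a finite group `G`, a rational prime `q₀`, a `G`-orbit
`ω₀` of primes of `L` above `q₀` (with canonical representative `m₀ = orbitRep ω₀`) and a class
`c₀ ∈ H²(G_{m₀}, (L_{m₀})ˣ)` there is a class `x ∈ H²(G, J_L)` whose local component at `m₀` is
`c₀` and whose local components at the representatives of all other orbits (above any prime) are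
trivial (`exists_single_locComp`).  In terms of a system of local invariants:
`exists_single_locInv`.
-/

set_option autoImplicit false

namespace Fermat.Agent.Lib.CFT.Global.ClassFormation.CyclicLayer

open CategoryTheory
open Fermat.Agent.Lib.CFT.Global Fermat.Agent.Lib.CFT.Global.EtaleAlg
open Fermat.Agent.Lib.CFT.Global.LocalFieldAt
open Fermat.Agent.Lib.CFT.Global.CohIdeles
open Fermat.Agent.Lib.CFT.Local (LocalInvTheory)
open Fermat.Agent.Lib.CFT.Local.LocalBrauer (QZ)

open scoped Pointwise

attribute [local instance] Units.mulDistribMulActionRight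

section Single

variable (L : Type) [Field L] [NumberField L]
variable (G : Type) [Group G] [MulSemiringAction G L]

/-- The `G`-orbits of primes of `L` above `q`. -/
abbrev Orb (q : Nat.Primes) : Type :=
  MulAction.orbitRel.Quotient G (MaximalSpectrum (LocAlg L q))

/-- The canonical representative of an orbit of primes above `q`. -/
noncomputable abbrev rep (q : Nat.Primes) (ω : Orb L G q) : MaximalSpectrum (LocAlg L q) :=
  orbitRep G (LocAlg L q) ω

/-- The projection of helper58's restricted product description at the place `q` is the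
`q`-component projection of `Global/LocalComponents.lean`. -/
lemma ideleProjHom_some (q : Nat.Primes) :
    ideleProjHom L G (some q) = ideleLocProjRep L G q := rfl

variable [Finite G]

/-- **A class of `H²(G, J_L)` with a single prescribed local component.** -/
theorem exists_single_locComp (q₀ : Nat.Primes) (ω₀ : Orb L G q₀)
    (c₀ : groupCohomology (Rep.ofMulDistribMulAction (MulAction.stabilizer G (rep L G q₀ ω₀))
      (FieldAt L q₀ (rep L G q₀ ω₀))ˣ) 2) :
    ∃ x : groupCohomology (ideleRep L G) 2,
      locComp L G q₀ (rep L G q₀ ω₀) 2 x = c₀ ∧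
      (∀ ω : Orb L G q₀, ω ≠ ω₀ → locComp L G q₀ (rep L G q₀ ω) 2 x = 0) ∧
      (∀ q : Nat.Primes, q ≠ q₀ → ∀ m : MaximalSpectrum (LocAlg L q),
        locComp L G q m 2 x = 0) := by
  classical
  have : Fintype (Orb L G q₀) := Fintype.ofFinite _
  -- the semi-local class with components `Pi.single ω₀ c₀`
  obtain ⟨y₀, hy₀⟩ := (bijective_unitsProj G (rep L G q₀) (orbitRep_cov G (LocAlg L q₀))
    (orbitRep_sep G (LocAlg L q₀)) 2).2 (Pi.single ω₀ c₀)
  -- the idele class with components `Pi.single (some q₀) y₀`
  obtain ⟨x, hx⟩ := H2_idele_exists L G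
    (Pi.single (some q₀)
      (y₀ : groupCohomology (Rep.ofMulDistribMulAction G (PlaceAlg L (some q₀))ˣ) 2))
    ((Set.finite_singleton (some q₀)).subset (fun i hi => by
      by_contra hne
      exact hi (Pi.single_eq_of_ne hne _)))
  have hx₀ : groupCohomology.map (MonoidHom.id G) (ideleLocProjRep L G q₀) 2 x = y₀ :=
    (hx (some q₀)).trans (Pi.single_eq_same _ _)
  refine ⟨x, ?_, ?_, ?_⟩
  · rw [locComp_eq, ConcreteCategory.comp_apply, hx₀]
    have h := congrFun hy₀ ω₀
    rw [Pi.single_eq_same] at h
    exact h
  · intro ω hω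
    rw [locComp_eq, ConcreteCategory.comp_apply, hx₀]
    have h := congrFun hy₀ ω
    rw [Pi.single_eq_of_ne hω] at h
    exact h
  · intro q hq m
    have h' : groupCohomology.map (MonoidHom.id G) (ideleLocProjRep L G q) 2 x = 0 :=
      (hx (some q)).trans
        (Pi.single_eq_of_ne (fun h' => hq (Option.some_injective _ h')) _)
    rw [locComp_eq, ConcreteCategory.comp_apply, h', map_zero]

variable [FaithfulSMul G L] (T : ∀ q : Nat.Primes, LocalInvTheory (pv q))

/-- **A class of `H²(G, J_L)` with a single prescribed local invariant**: every element of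
`ℚ/ℤ` killed by the local degree at `m₀ = rep ω₀` is the local invariant at `m₀` of a class all
of whose other local invariants (at the orbit representatives) vanish. -/
theorem exists_single_locInv (q₀ : Nat.Primes) (ω₀ : Orb L G q₀) (a : QZ)
    (ha : Nat.card (MulAction.stabilizer G (rep L G q₀ ω₀)) • a = 0) :
    ∃ x : groupCohomology (ideleRep L G) 2,
      locInv T L G q₀ (rep L G q₀ ω₀) x = a ∧
      (∀ ω : Orb L G q₀, ω ≠ ω₀ → locInv T L G q₀ (rep L G q₀ ω) x = 0) ∧
      (∀ q : Nat.Primes, q ≠ q₀ → ∀ m : MaximalSpectrum (LocAlg L q),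
        locInv T L G q m x = 0) := by
  obtain ⟨c₀, hc₀⟩ := (T q₀).exists_inv_eq (FieldAt L q₀ (rep L G q₀ ω₀))
    (MulAction.stabilizer G (rep L G q₀ ω₀)) a ha
  obtain ⟨x, hx1, hx2, hx3⟩ := exists_single_locComp L G q₀ ω₀ c₀
  refine ⟨x, ?_, fun ω hω => ?_, fun q hq m => ?_⟩
  · rw [locInv_apply, hx1]
    exact hc₀
  · rw [locInv_eq_zero_iff]
    exact hx2 ω hω
  · rw [locInv_eq_zero_iff]
    exact hx3 q hq m

end Single

end Fermat.Agent.Lib.CFT.Global.ClassFormation.CyclicLayer
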