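import Fermat.Agent.Lib.CFT.Global.ClassFormation.GlobalInv

/-!
# The global invariant of classes supported at a single prime (P-CFT, helper55)

Complements to `GlobalInv.lean`:

* `globalInv_apply`: unfolding of the definition;
* `card_nsmul_primeInv`, `card_nsmul_globalInv`: the global invariant is killed by `|G|`;
* `primeInv_eq_locInv_of_forall`, `globalInv_eq_locInv_of_forall`: a class whose local components
  vanish away from the `G`-orbit of one prime `m₀` has global invariant `locInv m₀`.
-/

set_option autoImplicit false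
set_option linter.unusedSectionVars false

namespace Fermat.Agent.Lib.CFT.Global.ClassFormation

open CategoryTheory
open Fermat.Agent.Lib.CFT.Global Fermat.Agent.Lib.CFT.Global.EtaleAlg
open Fermat.Agent.Lib.CFT.Global.LocalFieldAt
open Fermat.Agent.Lib.CFT.Local (LocalInvTheory)
open Fermat.Agent.Lib.CFT.Local.LocalBrauer (QZ)

open scoped Pointwise

attribute [local instance] Units.mulDistribMulActionRight

section Single

variable (T : ∀ q : Nat.Primes, LocalInvTheory (pv q))
variable (L : Type) [Field L] [NumberField L]
variable (G : Type) [Group G] [Finite G] [MulSemiringAction G L] [FaithfulSMul G L]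

lemma globalInv_apply (c : groupCohomology (ideleRep L G) 2) :
    globalInv T L G c = ∑ᶠ q : Nat.Primes,
      ∑ᶠ ω : MulAction.orbitRel.Quotient G (MaximalSpectrum (LocAlg L q)),
        locInv T L G q ω.out c := rfl

lemma card_nsmul_locInv' (q : Nat.Primes) (m : MaximalSpectrum (LocAlg L q))
    (c : groupCohomology (ideleRep L G) 2) :
    Nat.card G • locInv T L G q m c = 0 := by
  obtain ⟨t, ht⟩ : Nat.card (MulAction.stabilizer G m) ∣ Nat.card G :=
    Subgroup.card_subgroup_dvd_card _
  rw [ht, mul_comm, mul_smul, card_nsmul_locInv, smul_zero]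

lemma nsmul_finsum_eq_zero {ι A : Type*} [AddCommMonoid A] (n : ℕ) (f : ι → A)
    (h : ∀ i, n • f i = 0) : n • ∑ᶠ i, f i = 0 := by
  by_cases hf : (Function.support f).Finite
  · rw [finsum_eq_sum_of_support_subset f (s := hf.toFinset) (by simp), Finset.smul_sum]
    exact Finset.sum_eq_zero fun i _ => h i
  · rw [finsum_of_infinite_support hf, smul_zero]

lemma card_nsmul_primeInv (q : Nat.Primes) (c : groupCohomology (ideleRep L G) 2) :
    Nat.card G • primeInv T L G q c = 0 :=
  nsmul_finsum_eq_zero _ _ fun _ => card_nsmul_locInv' T L G q _ c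

lemma card_nsmul_globalInv (c : groupCohomology (ideleRep L G) 2) :
    Nat.card G • globalInv T L G c = 0 :=
  nsmul_finsum_eq_zero _ _ fun q => card_nsmul_primeInv T L G q c

/-- A class whose components above `q` vanish away from the orbit of `m₀` has `q`-invariant
`locInv m₀`. -/
lemma primeInv_eq_locInv_of_forall (q : Nat.Primes) (m₀ : MaximalSpectrum (LocAlg L q))
    (c : groupCohomology (ideleRep L G) 2)
    (h : ∀ m : MaximalSpectrum (LocAlg L q), m ∉ MulAction.orbit G m₀ →
      locComp L G q m 2 c = 0) :
    primeInv T L G q c = locInv T L G q m₀ c := by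
  classical
  unfold primeInv
  rw [finsum_eq_single _ (Quotient.mk'' m₀ : MulAction.orbitRel.Quotient G _)]
  · have h1 : (Quotient.mk'' (Quotient.mk'' m₀ : MulAction.orbitRel.Quotient G
        (MaximalSpectrum (LocAlg L q))).out : MulAction.orbitRel.Quotient G _) = Quotient.mk'' m₀ :=
      Quotient.out_eq' _
    rw [Quotient.eq''] at h1
    obtain ⟨g, hg⟩ := h1
    rw [← hg]
    exact locInv_smul T L G q g _ c
  · intro ω hω
    refine (locInv_eq_zero_iff T L G q _ c).2 (h _ ?_)
    intro hmem
    apply hω
    rw [← Quotient.out_eq' ω]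
    exact Quotient.sound' hmem

/-- A class whose components vanish away from the orbit of one prime `m₀` above `q₀` has global
invariant `locInv m₀`. -/
theorem globalInv_eq_locInv_of_forall (q₀ : Nat.Primes) (m₀ : MaximalSpectrum (LocAlg L q₀))
    (c : groupCohomology (ideleRep L G) 2)
    (h1 : ∀ q : Nat.Primes, q ≠ q₀ → ∀ m : MaximalSpectrum (LocAlg L q),
      locComp L G q m 2 c = 0)
    (h2 : ∀ m : MaximalSpectrum (LocAlg L q₀), m ∉ MulAction.orbit G m₀ →
      locComp L G q₀ m 2 c = 0) :
    globalInv T L G c = locInv T L G q₀ m₀ c := by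
  unfold globalInv
  rw [finsum_eq_single _ q₀ fun q hq => primeInv_eq_zero_of_forall T L G q c (h1 q hq)]
  exact primeInv_eq_locInv_of_forall T L G q₀ m₀ c h2

end Single

end Fermat.Agent.Lib.CFT.Global.ClassFormation
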