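import Fermat.Agent.Lib.CFT.Coh.InfRes
import Fermat.Agent.Lib.CFT.Global.ClassFormation.ScalarCocycle

/-!
# Inflation along a surjection of groups (P-CFT, work package Global/ClassFormation, helper50)

In arithmetic applications the quotient of `G = Gal(M/K)` by `N = Gal(M/L)` is not used as a
quotient group but through the restriction map `π : Gal(M/K) →* Gal(L/K)`, and `A^N = (C_M)^N` is
not used as a submodule but through the inclusion `ι : C_L → C_M`.  An *inflation datum* is a
surjective homomorphism `π : G →* Q` together with a morphism `ι : res π B ⟶ A` of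
`G`-representations which is injective with image the invariants of `ker π`.

* `IsInflationDatum.map_injective`, `IsInflationDatum.exists_map_eq_of_rest_eq_zero`: for an
  inflation datum with `H¹(ker π, A) = 0`, the generalized inflation
  `map π ι 2 : H²(Q, B) ⟶ H²(G, A)` is injective and its image is the kernel of the restriction to
  `ker π` (transported from `Coh/InfRes`).
* `exists_map_eq_map_scalarClass`, and the counting statements `card_H2_of_inflationData`,
  `isAddCyclic_H2_of_inflationData`, `compareEquivGen`: the comparison of `H²` of two quotients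
  (see `Compare.lean`) in this language.
-/

set_option autoImplicit false

universe u

open CategoryTheory Rep groupCohomology

namespace Fermat.Agent.Lib.CFT.Global.ClassFormation

open Fermat.Agent.Lib.CFT.Coh.InfRes

variable {k : Type u} [CommRing k] {G Q : Type u} [Group G] [Group Q]

/-- An inflation datum: `π : G →* Q` surjective and `ι : res π B ⟶ A` injective with image the
`ker π`-invariants of `A`. -/
structure IsInflationDatum (π : G →* Q) {A : Rep.{u} k G} {B : Rep.{u} k Q} (ι : res π B ⟶ A) :
    Prop where
  surjective : Function.Surjective π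
  injective : Function.Injective ι.hom
  exists_of_fixed : ∀ a : A, (∀ n ∈ π.ker, A.ρ n a = a) → ∃ b : B, ι.hom b = a

namespace IsInflationDatum

variable {π : G →* Q} {A : Rep.{u} k G} {B : Rep.{u} k Q} {ι : res π B ⟶ A}

lemma ι_ρ (g : G) (b : B) : ι.hom (B.ρ (π g) b) = A.ρ g (ι.hom b) :=
  hom_comm_apply ι g b

lemma ι_mem_invariants (b : B) :
    ι.hom b ∈ Representation.invariants (A.ρ.comp π.ker.subtype) := by
  intro n
  have h := ι_ρ (ι := ι) (n : G) b
  have hn : π (n : G) = 1 := n.2
  rw [hn, map_one] at h
  exact h.symm

/-- The linear map `B → A^{ker π}` induced by `ι`. -/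
noncomputable def toInvariants (ι : res π B ⟶ A) : B.V →ₗ[k] (A.quotientToInvariants π.ker).V :=
  LinearMap.codRestrict (Representation.invariants (A.ρ.comp π.ker.subtype)) ι.hom.toLinearMap
    (fun b => ι_mem_invariants b)

@[simp] lemma toInvariants_coe (b : B) : ((toInvariants ι b).1 : A) = ι.hom b := rfl

variable (h : IsInflationDatum π ι)

include h in
lemma toInvariants_bijective : Function.Bijective (toInvariants ι) := by
  constructor
  · intro x y hxy
    apply h.injective
    have := congr_arg Subtype.val hxy
    exact this
  · intro a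
    obtain ⟨b, hb⟩ := h.exists_of_fixed a.1 (fun n hn => a.2 ⟨n, hn⟩)
    refine ⟨b, ?_⟩
    apply Subtype.ext
    exact hb

/-- The linear equivalence `B ≃ A^{ker π}` of an inflation datum. -/
noncomputable def equivInvariants : B.V ≃ₗ[k] (A.quotientToInvariants π.ker).V :=
  LinearEquiv.ofBijective (toInvariants ι) (toInvariants_bijective h)

@[simp] lemma equivInvariants_coe (b : B) : ((equivInvariants h b).1 : A) = ι.hom b := rfl

/-- The group isomorphism `G ⧸ ker π ≃* Q`. -/
noncomputable def quotEquiv : G ⧸ π.ker ≃* Q :=
  QuotientGroup.quotientKerEquivOfSurjective π h.surjective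

@[simp] lemma quotEquiv_mk (g : G) : quotEquiv h (QuotientGroup.mk g) = π g := rfl

lemma equivInvariants_ρ (q : Q) (b : B) :
    equivInvariants h (B.ρ q b) =
      (A.quotientToInvariants π.ker).ρ ((quotEquiv h).symm q) (equivInvariants h b) := by
  obtain ⟨g, rfl⟩ := h.surjective q
  have hg : (quotEquiv h).symm (π g) = QuotientGroup.mk g := by
    rw [MulEquiv.symm_apply_eq]
    rfl
  rw [hg]
  apply Subtype.ext
  exact ι_ρ g b

/-- The isomorphism `Hⁿ(Q, B) ≅ Hⁿ(G ⧸ ker π, A^{ker π})` of an inflation datum. -/
noncomputable def cohIso (n : ℕ) :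
    groupCohomology B n ≅ groupCohomology (A.quotientToInvariants π.ker) n :=
  mapIso (quotEquiv h).symm (equivInvariants h)
    (fun q => LinearMap.ext fun b => equivInvariants_ρ h q b) n

/-- The generalized inflation factors through the isomorphism `cohIso` and the inflation. -/
lemma map_eq_cohIso_comp_infl (n : ℕ) :
    map π ι n = (cohIso h n).hom ≫ infl A π.ker n := by
  rw [cohIso, mapIso_hom, ← map_comp]
  refine map_congr ?_ ?_ n
  · ext g
    rfl
  · ext b
    rfl

include h in
/-- Injectivity of the generalized inflation in degree `2`. -/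
theorem map_injective (h1 : Limits.IsZero (groupCohomology (res π.ker.subtype A) 1)) :
    Function.Injective (map π ι 2) := by
  rw [map_eq_cohIso_comp_infl h 2]
  have hinj : Function.Injective (cohIso h 2).hom := (ModuleCat.mono_iff_injective _).1 inferInstance
  intro x y hxy
  apply hinj
  apply (infResExact_two A π.ker h1).1
  exact hxy

include h in
/-- Exactness of generalized inflation-restriction in degree `2`. -/
theorem exists_map_eq_of_rest_eq_zero
    (h1 : Limits.IsZero (groupCohomology (res π.ker.subtype A) 1))
    (x : groupCohomology A 2) (hx : rest A π.ker 2 x = 0) : ∃ y, map π ι 2 y = x := by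
  obtain ⟨y', hy'⟩ := (infResExact_two A π.ker h1).2 x hx
  have hsurj : Function.Surjective (cohIso h 2).hom := (ModuleCat.epi_iff_surjective _).1 inferInstance
  obtain ⟨y, rfl⟩ := hsurj y'
  refine ⟨y, ?_⟩
  rw [map_eq_cohIso_comp_infl h 2]
  exact hy'

end IsInflationDatum

end Fermat.Agent.Lib.CFT.Global.ClassFormation
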