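import Fermat.Agent.Lib.CFT.Global.ClassFormation.GlobalInv
import Fermat.Agent.Lib.CFT.Global.ClassFormation.GenInfl

/-!
# The sum formula for Brauer classes: reduction to cyclic cyclotomic layers (P-CFT, helper55)

Relative to `T : ∀ q, LocalInvTheory (pv q)`.  This is the reduction step of the proof of the
reciprocity law `∑_v inv_v(α) = 0` for `α ∈ H²(Gal(M/K), Mˣ)` (Cassels–Fröhlich VII.11.2 (Tate)),
for classes of odd prime power order:

* `principalClass L G α`: the image in `H²(G, J_L)` of a class of `H²(G, Lˣ)`;
  `map_principalClass`: naturality in `(G, L)`;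
* `restUnits`, `locInv_restUnits`: restriction to a subgroup multiplies local invariants by the
  local degree;
* `globalInv_principalClass_eq_zero`: if `L₁ = M^N` is a layer adapted to `α` (its local degrees
  kill the local invariants of `α`), the Hasse principle holds for `H²(N, Mˣ)`, and the sum formula
  holds on `H²(Q, L₁ˣ)` (`Q = Γ/N`) for classes locally trivial at `Sbad`, then
  `globalInv T M Γ (principalClass M Γ α) = 0`.

The remaining inputs are: the construction of an adapted cyclic cyclotomic layer
(`Global/CyclotomicAdapted.lean`), the sum formula for symbols on such a layer (`CycloSymbolSum`),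
the Hasse principle (`IdeleSES.hasse_principle_H2` + `CohIdeles`), and the tower facts
(`LocalFieldAtTower`).
-/

set_option autoImplicit false
set_option linter.unusedSectionVars false

namespace Fermat.Agent.Lib.CFT.Global.ClassFormation

open CategoryTheory
open Fermat.Agent.Lib.CFT.Global Fermat.Agent.Lib.CFT.Global.EtaleAlg
open Fermat.Agent.Lib.CFT.Global.LocalFieldAt
open Fermat.Agent.Lib.CFT.Local (LocalInvTheory)
open Fermat.Agent.Lib.CFT.Local.LocalBrauer (QZ)

open scoped Pointwise

attribute [local instance] Units.mulDistribMulActionRight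

section PrincipalNatural

variable {L L' : Type} [Field L] [NumberField L] [Field L'] [NumberField L']
variable {G G' : Type} [Group G] [Group G'] [MulSemiringAction G L] [MulSemiringAction G' L']
  (f : G' →* G) (ι : L →+* L') (hι : ∀ (g : G') (x : L), ι (f g • x) = g • ι x)

/-- The map `Lˣ → L'ˣ` induced by `ι`, as a morphism of representations of `G'`. -/
noncomputable def unitsMapRepHom : Rep.res f (unitsRep L G) ⟶ unitsRep L' G' :=
  unitsRepHomAlong f ι hι

/-- The class in `H²(G, J_L)` of a class of `H²(G, Lˣ)`. -/
noncomputable abbrev principalClass (L : Type) [Field L] [NumberField L] (G : Type) [Group G]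
    [MulSemiringAction G L] (α : groupCohomology (unitsRep L G) 2) :
    groupCohomology (ideleRep L G) 2 :=
  groupCohomology.map (MonoidHom.id G) (principalRepHom L G) 2 α

/-- Naturality of the principal embedding `Lˣ → J_L` in `(G, L)`. -/
lemma map_principalClass (α : groupCohomology (unitsRep L G) 2) :
    groupCohomology.map f (ideleMapRepHom f ι hι) 2 (principalClass L G α) =
      principalClass L' G' (groupCohomology.map f (unitsMapRepHom f ι hι) 2 α) := by
  have h : groupCohomology.map (MonoidHom.id G) (principalRepHom L G) 2 ≫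
      groupCohomology.map f (ideleMapRepHom f ι hι) 2 =
      groupCohomology.map f (unitsMapRepHom f ι hι) 2 ≫
        groupCohomology.map (MonoidHom.id G') (principalRepHom L' G') 2 := by
    rw [← groupCohomology.map_comp, ← groupCohomology.map_comp]
    refine groupCohomology.map_congr rfl ?_ 2
    refine LinearMap.ext fun x => ?_
    exact congrArg Additive.ofMul (ideleMap_principal ι x.toMul)
  have h2 := ConcreteCategory.congr_hom h α
  rw [ConcreteCategory.comp_apply, ConcreteCategory.comp_apply] at h2
  exact h2

end PrincipalNatural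

section Restrict

variable (T : ∀ q : Nat.Primes, LocalInvTheory (pv q))
variable (M : Type) [Field M] [NumberField M]
variable {Γ N : Type} [Group Γ] [Finite Γ] [MulSemiringAction Γ M] [FaithfulSMul Γ M]
  [Group N] [Finite N] [MulSemiringAction N M] [FaithfulSMul N M]
  (j : N →* Γ) (hj : ∀ (n : N) (x : M), RingHom.id M (j n • x) = n • RingHom.id M x)

/-- Restriction of a class of `H²(Γ, Mˣ)` along `j : N →* Γ` (for `N` acting on `M` through
`j`). -/
noncomputable abbrev restUnits (α : groupCohomology (unitsRep M Γ) 2) :
    groupCohomology (unitsRep M N) 2 :=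
  groupCohomology.map j (unitsMapRepHom j (RingHom.id M) hj) 2 α

lemma asIdeal_eq_comap_id (q : Nat.Primes) (m : MaximalSpectrum (LocAlg M q)) :
    m.asIdeal = m.asIdeal.comap
      ((locMap (RingHom.id M) q : LocAlg M q →ₐ[ℚ_[pv q]] LocAlg M q) :
        LocAlg M q →+* LocAlg M q) := by
  ext x
  rw [Ideal.mem_comap]
  change x ∈ m.asIdeal ↔ locMap (RingHom.id M) q x ∈ m.asIdeal
  rw [locMap_id]

/-- **Restriction to a subgroup**: the local invariant at `m` of the restriction to `N` of a class
is `|Γ_m| / |N_m|` times its local invariant. -/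
theorem locInv_restUnits (hjinj : Function.Injective j) (q : Nat.Primes)
    (m : MaximalSpectrum (LocAlg M q)) (α : groupCohomology (unitsRep M Γ) 2) :
    locInv T M N q m (principalClass M N (restUnits M j hj α)) =
      (Nat.card (MulAction.stabilizer Γ m) / Nat.card (MulAction.stabilizer N m)) •
        locInv T M Γ q m (principalClass M Γ α) := by
  rw [restUnits, ← map_principalClass]
  refine locInv_map_of_injective T j (RingHom.id M) hj q m m
    (asIdeal_eq_comap_id M q m) ?_ ?_ _
  · intro s t hst
    apply Subtype.ext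
    apply hjinj
    exact congrArg (fun z : MulAction.stabilizer Γ m => (z : Γ)) hst
  · constructor
    · exact RingHom.injective _
    · have hsurj : Function.Surjective
          ((locMap (RingHom.id M) q : LocAlg M q →ₐ[ℚ_[pv q]] LocAlg M q) :
            LocAlg M q →+* LocAlg M q) := fun z => ⟨z, locMap_id q z⟩
      exact Ideal.quotientMap_surjective (H := le_of_eq (asIdeal_eq_comap_id M q m)) hsurj

/-- If the restriction along `j` vanishes and `j` is an isomorphism onto the subgroup `S`, then
the restriction `rest` of `Coh/InfRes` to `S` vanishes. -/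
lemma rest_eq_zero_of_restUnits_eq_zero (hjinj : Function.Injective j) (S : Subgroup Γ)
    (hS : j.range = S) (α : groupCohomology (unitsRep M Γ) 2)
    (h : restUnits M j hj α = 0) : Coh.InfRes.rest (unitsRep M Γ) S 2 α = 0 := by
  let e0 : N ≃* S := (MonoidHom.ofInjective hjinj).trans (MulEquiv.subgroupCongr hS)
  let e : S →* N := e0.symm.toMonoidHom
  have he : ∀ κ : S, j (e κ) = κ := by
    intro κ
    have h1 : e0 (e κ) = κ := e0.apply_symm_apply κ
    exact congrArg (fun z : S => (z : Γ)) h1
  have hcompat : ∀ (κ : S) (x : M), e κ • x = (κ : Γ) • x := by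
    intro κ x
    have := hj (e κ) x
    rw [he] at this
    exact this.symm
  let ψ : Rep.res e (unitsRep M N) ⟶ Rep.res S.subtype (unitsRep M Γ) :=
    Rep.ofHom (ρ := (Rep.res e (unitsRep M N)).ρ)
      (σ := (Rep.res S.subtype (unitsRep M Γ)).ρ) ⟨LinearMap.id, fun κ => by
        refine LinearMap.ext fun u => ?_
        apply congrArg Additive.ofMul
        apply Units.ext
        exact hcompat κ _⟩
  have hcomp : groupCohomology.map j (unitsMapRepHom j (RingHom.id M) hj) 2 ≫
      groupCohomology.map e ψ 2 = Coh.InfRes.rest (unitsRep M Γ) S 2 := by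
    rw [← groupCohomology.map_comp]
    refine groupCohomology.map_congr ?_ ?_ 2
    · ext κ
      exact he κ
    · refine LinearMap.ext fun x => ?_
      apply congrArg Additive.ofMul
      apply Units.ext
      rfl
  have h2 := ConcreteCategory.congr_hom hcomp α
  rw [ConcreteCategory.comp_apply] at h2
  rw [← h2]
  have h3 : groupCohomology.map j (unitsMapRepHom j (RingHom.id M) hj) 2 α = 0 := h
  rw [h3, map_zero]

end Restrict

section Aux

lemma eq_zero_of_two_nsmul_of_pow_nsmul {A : Type*} [AddCommGroup A] (y : A) (p k : ℕ)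
    (hp : Odd p) (h2 : 2 • y = 0) (hpk : (p ^ k) • y = 0) : y = 0 := by
  have h1 : addOrderOf y ∣ 2 := addOrderOf_dvd_of_nsmul_eq_zero h2
  have h3 : addOrderOf y ∣ p ^ k := addOrderOf_dvd_of_nsmul_eq_zero hpk
  have hcop : Nat.Coprime 2 (p ^ k) := Nat.Coprime.pow_right k (Nat.coprime_two_left.2 hp)
  have h4 : addOrderOf y = 1 := Nat.eq_one_of_dvd_coprimes hcop h1 h3
  exact AddMonoid.addOrderOf_eq_one_iff.1 h4

end Aux

section SumFormula

variable (T : ∀ q : Nat.Primes, LocalInvTheory (pv q))
variable {M L₁ : Type} [Field M] [NumberField M] [Field L₁] [NumberField L₁]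
variable {Γ Q N : Type} [Group Γ] [Finite Γ] [Group Q] [Finite Q] [Group N] [Finite N]
  [MulSemiringAction Γ M] [FaithfulSMul Γ M] [MulSemiringAction Q L₁] [FaithfulSMul Q L₁]
  [MulSemiringAction N M] [FaithfulSMul N M]
  (π : Γ →* Q) (ι : L₁ →+* M) (hι : ∀ (γ : Γ) (x : L₁), ι (π γ • x) = γ • ι x)
  (j : N →* Γ) (hj : ∀ (n : N) (x : M), RingHom.id M (j n • x) = n • RingHom.id M x)

include hι hj in
/-- **The sum formula, reduction step** (Cassels–Fröhlich VII.11.2).  Let `α ∈ H²(Γ, Mˣ)` be
killed by `p ^ k`, `p` odd, and let `L₁ = M^N`, `N = ker π` (presented by `j : N →* Γ`), be a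
layer which is *adapted* to `α`: at every prime `m` of `M` where `α` has a nonzero local
component, `p ^ k` divides the local degree `|Γ_m| / |N_m|` of `L₁`.  Assume the Hasse principle
for `H²(N, Mˣ)`, and that the sum formula holds for all classes of `H²(Q, L₁ˣ)` with vanishing
local components at a set `Sbad` of primes where `α` has vanishing local components.  Then the sum
formula holds for `α`. -/
theorem globalInv_principalClass_eq_zero
    (hinfl : IsInflationDatum π (unitsMapRepHom π ι hι))
    (hjinj : Function.Injective j) (hjker : j.range = π.ker)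
    (h90 : Limits.IsZero (groupCohomology (Rep.res π.ker.subtype (unitsRep M Γ)) 1))
    (hHasse : ∀ c : groupCohomology (unitsRep M N) 2,
      (∀ (q : Nat.Primes) (m : MaximalSpectrum (LocAlg M q)),
        locComp M N q m 2 (principalClass M N c) = 0) →
      (∀ a : MaximalSpectrum (ArchAlg M),
        archComp M N a 2 (principalClass M N c) = 0) → c = 0)
    (harch : ∀ (a : MaximalSpectrum (ArchAlg M))
      (y : groupCohomology (Rep.ofMulDistribMulAction (MulAction.stabilizer N a)
        (ArchAlg M ⧸ a.asIdeal)ˣ) 2), 2 • y = 0)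
    (p k : ℕ) (hp : Odd p)
    (α : groupCohomology (unitsRep M Γ) 2) (hα : (p ^ k) • α = 0)
    (hadapt : ∀ (q : Nat.Primes) (m : MaximalSpectrum (LocAlg M q)),
      locComp M Γ q m 2 (principalClass M Γ α) ≠ 0 →
        p ^ k ∣ Nat.card (MulAction.stabilizer Γ m) / Nat.card (MulAction.stabilizer N m))
    (Sbad : Set Nat.Primes)
    (hbad : ∀ q ∈ Sbad, ∀ m : MaximalSpectrum (LocAlg M q),
      locComp M Γ q m 2 (principalClass M Γ α) = 0)
    (hO2a : ∀ β : groupCohomology (unitsRep L₁ Q) 2,
      (∀ q ∈ Sbad, ∀ m : MaximalSpectrum (LocAlg L₁ q),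
        locComp L₁ Q q m 2 (principalClass L₁ Q β) = 0) →
      globalInv T L₁ Q (principalClass L₁ Q β) = 0)
    (hover : ∀ (q : Nat.Primes) (m : MaximalSpectrum (LocAlg L₁ q)),
      ∃ m', primeBelowMax ι q m' = m)
    (htrans : ∀ (q : Nat.Primes) (m₁ m₂ : MaximalSpectrum (LocAlg M q)),
      primeBelowMax ι q m₁ = primeBelowMax ι q m₂ → ∃ k : Γ, k • m₁ = m₂)
    (hdec : ∀ (q : Nat.Primes) (m' : MaximalSpectrum (LocAlg M q)),
      Function.Surjective (decompMap π ι hι q (primeBelowMax ι q m') m' rfl))
    (hfix : ∀ (q : Nat.Primes) (m' : MaximalSpectrum (LocAlg M q)) (y : FieldAt M q m'),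
      (∀ d : MulAction.stabilizer Γ m', d • y = y) →
        ∃ x : FieldAt L₁ q (primeBelowMax ι q m'), fieldAtMap ι q _ m' rfl x = y) :
    globalInv T M Γ (principalClass M Γ α) = 0 := by
  -- Step 1: the restriction of `α` to `N` is locally trivial at all finite primes
  set c := restUnits M j hj α with hc
  have hpc : (p ^ k) • c = 0 := by
    rw [hc, restUnits, ← map_nsmul, hα, map_zero]
  have hpα : (p ^ k) • principalClass M Γ α = 0 := by
    rw [principalClass, ← map_nsmul, hα, map_zero]
  have hloc : ∀ (q : Nat.Primes) (m : MaximalSpectrum (LocAlg M q)),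
      locComp M N q m 2 (principalClass M N c) = 0 := by
    intro q m
    rw [← locInv_eq_zero_iff T, hc, locInv_restUnits T M j hj hjinj]
    by_cases h0 : locComp M Γ q m 2 (principalClass M Γ α) = 0
    · rw [(locInv_eq_zero_iff T M Γ q m _).2 h0, smul_zero]
    · obtain ⟨t, ht⟩ := hadapt q m h0
      rw [ht, mul_comm, mul_smul, ← map_nsmul, hpα, map_zero, smul_zero]
  -- Step 2: also at the archimedean places
  have harch0 : ∀ a : MaximalSpectrum (ArchAlg M),
      archComp M N a 2 (principalClass M N c) = 0 := by
    intro a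
    refine eq_zero_of_two_nsmul_of_pow_nsmul _ p k hp (harch a _) ?_
    rw [← map_nsmul, principalClass, ← map_nsmul, hpc, map_zero, map_zero]
  -- Step 3: Hasse principle
  have hc0 : c = 0 := hHasse c hloc harch0
  -- Step 4: `α` is inflated from `L₁`
  have hrest := rest_eq_zero_of_restUnits_eq_zero M j hj hjinj π.ker hjker α hc0
  obtain ⟨β, hβ⟩ := hinfl.exists_map_eq_of_rest_eq_zero h90 α hrest
  -- Step 5: compare the global invariants
  have hαβ : principalClass M Γ α =
      groupCohomology.map π (ideleMapRepHom π ι hι) 2 (principalClass L₁ Q β) := by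
    rw [map_principalClass, ← hβ]
  rw [hαβ, globalInv_map_of_surjective T π ι hι hinfl.surjective hover htrans hdec hfix]
  -- Step 6: bad primes
  apply hO2a
  intro q hq m
  obtain ⟨m', rfl⟩ := hover q m
  rw [← locInv_eq_zero_iff T,
    ← locInv_map_of_surjective T π ι hι q (primeBelowMax ι q m') m' rfl (hdec q m') (hfix q m'),
    ← hαβ, locInv_eq_zero_iff]
  exact hbad q hq m'

end SumFormula

end Fermat.Agent.Lib.CFT.Global.ClassFormation
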