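import Fermat.Agent.Lib.CFT.Global.ClassFormation.LocalInv
import Fermat.Agent.Lib.CFT.Coh.ConjTrivial
import Fermat.Agent.Lib.CFT.Global.Places.LocAlgDecomp

/-!
# The global invariant: sum of the local invariants (P-CFT, helper55)

Relative to `T : ∀ q, LocalInvTheory (pv q)`:

* `locInv_smul`: the local invariant at a prime `m` of a class of `H²(G, J_L)` only depends on the
  `G`-orbit of `m` (inner automorphisms act trivially on cohomology, `Coh/ConjTrivial`);
* `primeInv T L G q c`: the sum of the local invariants of `c` over representatives of the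
  `G`-orbits of primes above `q` (i.e. over the primes of the fixed field above `q`);
  `globalInv T L G c := ∑ᶠ q, primeInv T L G q c`;
* additivity under finite support (`globalInv_add`), vanishing criteria;
* `primeBelowMax ι q m'`: the prime of `L` below a prime `m'` of `L'`;
* `globalInv_map_of_surjective`: **inflation compatibility** of the global invariant, under the
  standard facts on the primes in a Galois tower (lying over, transitivity on the fibres,
  surjectivity of decomposition groups, equality of the local base fields), taken as hypotheses.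

Only finite primes are used: the theory is meant for classes of odd order, whose archimedean
components vanish.
-/

set_option autoImplicit false
set_option linter.unusedSectionVars false
set_option linter.style.haveILetI false

namespace Fermat.Agent.Lib.CFT.Global.ClassFormation

open CategoryTheory
open Fermat.Agent.Lib.CFT.Global Fermat.Agent.Lib.CFT.Global.EtaleAlg
open Fermat.Agent.Lib.CFT.Global.LocalFieldAt
open Fermat.Agent.Lib.CFT.Local (LocalInvTheory)
open Fermat.Agent.Lib.CFT.Local.LocalBrauer (QZ)

open scoped Pointwise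

attribute [local instance] Units.mulDistribMulActionRight

section Conj

variable (T : ∀ q : Nat.Primes, LocalInvTheory (pv q))
variable (L : Type) [Field L] [NumberField L]
variable (G : Type) [Group G] [Finite G] [MulSemiringAction G L] [FaithfulSMul G L]

lemma toRingHom_inv_conj_smul (g h : G) (x : L) :
    MulSemiringAction.toRingHom G L g⁻¹ ((MulAut.conj g).toMonoidHom h • x) =
      h • MulSemiringAction.toRingHom G L g⁻¹ x := by
  simp [MulAut.conj_apply, mul_smul]

lemma asIdeal_eq_comap_inv_smul (q : Nat.Primes) (g : G) (m : MaximalSpectrum (LocAlg L q)) :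
    m.asIdeal = (g⁻¹ • m).asIdeal.comap
      ((locMap (MulSemiringAction.toRingHom G L g⁻¹) q :
        LocAlg L q →ₐ[ℚ_[pv q]] LocAlg L q) : LocAlg L q →+* LocAlg L q) := by
  ext x
  rw [Ideal.mem_comap]
  change x ∈ m.asIdeal ↔ g⁻¹ • x ∈ (g⁻¹ • m).asIdeal
  rw [smul_mem_smul_asIdeal_iff]

/-- **Conjugation invariance** of the local invariants: the local invariant of a class of
`H²(G, J_L)` at a prime `m` only depends on the `G`-orbit of `m`. -/
theorem locInv_inv_smul (q : Nat.Primes) (g : G) (m : MaximalSpectrum (LocAlg L q))
    (c : groupCohomology (ideleRep L G) 2) :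
    locInv T L G q (g⁻¹ • m) c = locInv T L G q m c := by
  have hι := toRingHom_inv_conj_smul L G g
  have hm := asIdeal_eq_comap_inv_smul L G q g m
  have hid : groupCohomology.map (MulAut.conj g).toMonoidHom
      (ideleMapRepHom (MulAut.conj g).toMonoidHom (MulSemiringAction.toRingHom G L g⁻¹) hι) 2 =
      𝟙 (groupCohomology (ideleRep L G) 2) := by
    refine Coh.ConjTrivial.map_eq_id_of_conj (ideleRep L G) g _ (fun x => rfl) _ (fun a => ?_) 2
    rfl
  have key := locInv_map_of_surjective T (MulAut.conj g).toMonoidHom
    (MulSemiringAction.toRingHom G L g⁻¹) hι q m (g⁻¹ • m) hm ?_ ?_ c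
  · rw [hid] at key
    exact key
  · intro d
    refine ⟨⟨g⁻¹ * (d : G) * g, ?_⟩, ?_⟩
    · rw [MulAction.mem_stabilizer_iff, mul_smul, mul_smul, smul_inv_smul]
      congr 1
      exact MulAction.mem_stabilizer_iff.1 d.2
    · apply Subtype.ext
      change g * (g⁻¹ * (d : G) * g) * g⁻¹ = d
      group
  · intro y _
    have hsurj : Function.Surjective
        ((locMap (MulSemiringAction.toRingHom G L g⁻¹) q :
          LocAlg L q →ₐ[ℚ_[pv q]] LocAlg L q) : LocAlg L q →+* LocAlg L q) := by
      intro z
      refine ⟨g • z, ?_⟩
      change g⁻¹ • (g • z) = z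
      rw [inv_smul_smul]
    exact Ideal.quotientMap_surjective (H := le_of_eq hm) hsurj y

theorem locInv_smul (q : Nat.Primes) (g : G) (m : MaximalSpectrum (LocAlg L q))
    (c : groupCohomology (ideleRep L G) 2) :
    locInv T L G q (g • m) c = locInv T L G q m c := by
  have h := locInv_inv_smul T L G q g⁻¹ m c
  rwa [inv_inv] at h

end Conj

section OrbitSum

/-- Sums over orbit representatives of an invariant function are compatible with an equivariant
surjection whose fibres are orbits of the kernel. -/
lemma finsum_orbit_out_comp {G G' X X' A : Type*} [Group G] [Group G'] [MulAction G X]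
    [MulAction G' X'] [AddCommMonoid A] (f : G' →* G) (hf : Function.Surjective f)
    (φ : X' → X) (hφ : ∀ (g : G') (x : X'), φ (g • x) = f g • φ x)
    (hsurj : Function.Surjective φ)
    (htrans : ∀ x y : X', φ x = φ y → ∃ k : G', k • x = y)
    (F : X → A) (hF : ∀ (g : G) (x : X), F (g • x) = F x) :
    ∑ᶠ ω : MulAction.orbitRel.Quotient G' X', F (φ ω.out) =
      ∑ᶠ ω : MulAction.orbitRel.Quotient G X, F ω.out := by
  -- the induced map on orbit spaces
  let Φ : MulAction.orbitRel.Quotient G' X' → MulAction.orbitRel.Quotient G X :=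
    Quotient.map' φ (by
      rintro x y ⟨g, rfl⟩
      exact ⟨f g, (hφ g y).symm⟩)
  have hΦ : Function.Bijective Φ := by
    constructor
    · intro a b hab
      induction a using Quotient.inductionOn' with | h x => ?_
      induction b using Quotient.inductionOn' with | h y => ?_
      have h1 : (Quotient.mk'' (φ x) : MulAction.orbitRel.Quotient G X) = Quotient.mk'' (φ y) := hab
      rw [Quotient.eq''] at h1
      obtain ⟨g, hg⟩ := h1
      obtain ⟨g', rfl⟩ := hf g
      have h2 : φ (g' • y) = φ x := by rw [hφ]; exact hg
      obtain ⟨k, hk⟩ := htrans _ _ h2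
      apply Quotient.sound'
      exact ⟨k * g', by show (k * g') • y = x; rw [mul_smul]; exact hk⟩
    · intro a
      induction a using Quotient.inductionOn' with | h x => ?_
      obtain ⟨x', rfl⟩ := hsurj x
      exact ⟨Quotient.mk'' x', rfl⟩
  have hval : ∀ ω : MulAction.orbitRel.Quotient G' X', F (φ ω.out) = F (Φ ω).out := by
    intro ω
    have h1 : (Quotient.mk'' (φ ω.out) : MulAction.orbitRel.Quotient G X) = Φ ω := by
      conv_rhs => rw [← Quotient.out_eq' ω]
      rfl
    have h2 : (Quotient.mk'' (Φ ω).out : MulAction.orbitRel.Quotient G X) = Φ ω :=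
      Quotient.out_eq' _
    have h3 := h1.trans h2.symm
    rw [Quotient.eq''] at h3
    obtain ⟨g, hg⟩ := h3
    rw [← hg, hF]
  rw [finsum_congr hval]
  exact finsum_comp_equiv (Equiv.ofBijective Φ hΦ) (f := fun ω => F ω.out)

end OrbitSum

section Global

variable (T : ∀ q : Nat.Primes, LocalInvTheory (pv q))
variable (L : Type) [Field L] [NumberField L]
variable (G : Type) [Group G] [Finite G] [MulSemiringAction G L] [FaithfulSMul G L]

/-- The sum of the local invariants of a class of `H²(G, J_L)` over the primes of the fixed field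
above `q`, i.e. over a system of representatives of the `G`-orbits of primes of `L` above `q`. -/
noncomputable def primeInv (q : Nat.Primes) (c : groupCohomology (ideleRep L G) 2) : QZ :=
  ∑ᶠ ω : MulAction.orbitRel.Quotient G (MaximalSpectrum (LocAlg L q)), locInv T L G q ω.out c

/-- **The global invariant** of a class of `H²(G, J_L)`: the sum of its local invariants over all
finite primes of the fixed field of `G`. -/
noncomputable def globalInv (c : groupCohomology (ideleRep L G) 2) : QZ :=
  ∑ᶠ q : Nat.Primes, primeInv T L G q c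

/-- The class `c` has nonzero local components at finitely many rational primes only. -/
def HasFiniteSupport (c : groupCohomology (ideleRep L G) 2) : Prop :=
  {q : Nat.Primes | ∃ m : MaximalSpectrum (LocAlg L q), locComp L G q m 2 c ≠ 0}.Finite

lemma primeInv_add (q : Nat.Primes) (c c' : groupCohomology (ideleRep L G) 2) :
    primeInv T L G q (c + c') = primeInv T L G q c + primeInv T L G q c' := by
  unfold primeInv
  rw [← finsum_add_distrib (Set.toFinite _) (Set.toFinite _)]
  exact finsum_congr fun ω => map_add _ _ _

lemma primeInv_zero (q : Nat.Primes) : primeInv T L G q 0 = 0 := by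
  unfold primeInv
  simp

lemma primeInv_eq_zero_of_forall (q : Nat.Primes) (c : groupCohomology (ideleRep L G) 2)
    (h : ∀ m : MaximalSpectrum (LocAlg L q), locComp L G q m 2 c = 0) :
    primeInv T L G q c = 0 := by
  unfold primeInv
  refine (finsum_congr fun ω => ?_).trans finsum_zero
  exact (locInv_eq_zero_iff T L G q _ c).2 (h _)

/-- The sum over any system of orbit representatives gives `primeInv`. -/
lemma primeInv_eq_finsum_of_mem (q : Nat.Primes) (c : groupCohomology (ideleRep L G) 2)
    (r : MulAction.orbitRel.Quotient G (MaximalSpectrum (LocAlg L q)) →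
      MaximalSpectrum (LocAlg L q))
    (hr : ∀ ω, Quotient.mk'' (r ω) = ω) :
    primeInv T L G q c = ∑ᶠ ω, locInv T L G q (r ω) c := by
  unfold primeInv
  refine finsum_congr fun ω => ?_
  have h1 : (Quotient.mk'' ω.out : MulAction.orbitRel.Quotient G _) = Quotient.mk'' (r ω) :=
    (Quotient.out_eq' ω).trans (hr ω).symm
  rw [Quotient.eq''] at h1
  obtain ⟨g, hg⟩ := h1
  rw [← hg]
  exact locInv_smul T L G q g _ c

lemma support_primeInv_subset (c : groupCohomology (ideleRep L G) 2) :
    Function.support (fun q => primeInv T L G q c) ⊆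
      {q : Nat.Primes | ∃ m : MaximalSpectrum (LocAlg L q), locComp L G q m 2 c ≠ 0} := by
  intro q hq
  by_contra h
  simp only [Set.mem_ofPred_eq, not_exists, not_not] at h
  exact hq (primeInv_eq_zero_of_forall T L G q c h)

lemma globalInv_add (c c' : groupCohomology (ideleRep L G) 2)
    (hc : HasFiniteSupport L G c) (hc' : HasFiniteSupport L G c') :
    globalInv T L G (c + c') = globalInv T L G c + globalInv T L G c' := by
  unfold globalInv
  rw [← finsum_add_distrib (hc.subset (support_primeInv_subset T L G c))
    (hc'.subset (support_primeInv_subset T L G c'))]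
  exact finsum_congr fun q => primeInv_add T L G q c c'

lemma globalInv_zero : globalInv T L G 0 = 0 := by
  unfold globalInv
  simp [primeInv_zero]

lemma globalInv_eq_zero_of_forall (c : groupCohomology (ideleRep L G) 2)
    (h : ∀ (q : Nat.Primes) (m : MaximalSpectrum (LocAlg L q)), locComp L G q m 2 c = 0) :
    globalInv T L G c = 0 := by
  unfold globalInv
  exact (finsum_congr fun q => primeInv_eq_zero_of_forall T L G q c (h q)).trans finsum_zero

end Global

section Below

variable {L L' : Type} [Field L] [NumberField L] [Field L'] [NumberField L']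
  (ι : L →+* L') (q : Nat.Primes)

/-- The prime of `L` below a prime of `L'` (contraction along `ℚ_q ⊗ L → ℚ_q ⊗ L'`). -/
noncomputable def primeBelowMax (m' : MaximalSpectrum (LocAlg L' q)) :
    MaximalSpectrum (LocAlg L q) :=
  ⟨m'.asIdeal.comap ((locMap ι q : LocAlg L q →ₐ[ℚ_[pv q]] LocAlg L' q) :
      LocAlg L q →+* LocAlg L' q), by
    haveI := m'.isMaximal
    haveI : (m'.asIdeal.comap ((locMap ι q : LocAlg L q →ₐ[ℚ_[pv q]] LocAlg L' q) :
      LocAlg L q →+* LocAlg L' q)).IsPrime := Ideal.comap_isPrime _ _
    exact IsArtinianRing.isMaximal_of_isPrime _⟩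

lemma primeBelowMax_asIdeal (m' : MaximalSpectrum (LocAlg L' q)) :
    (primeBelowMax ι q m').asIdeal =
      m'.asIdeal.comap ((locMap ι q : LocAlg L q →ₐ[ℚ_[pv q]] LocAlg L' q) :
        LocAlg L q →+* LocAlg L' q) := rfl

variable {G G' : Type} [Group G] [Group G'] [MulSemiringAction G L] [MulSemiringAction G' L']
  (f : G' →* G) (hι : ∀ (g : G') (x : L), ι (f g • x) = g • ι x)

include hι in
lemma primeBelowMax_smul (g : G') (m' : MaximalSpectrum (LocAlg L' q)) :
    primeBelowMax ι q (g • m') = f g • primeBelowMax ι q m' := by
  apply MaximalSpectrum.ext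
  ext x
  rw [primeBelowMax_asIdeal, Ideal.mem_comap, mem_smul_asIdeal_iff, mem_smul_asIdeal_iff,
    primeBelowMax_asIdeal, Ideal.mem_comap]
  have h1 : ((locMap ι q : LocAlg L q →ₐ[ℚ_[pv q]] LocAlg L' q) : LocAlg L q →+* LocAlg L' q)
      ((f g)⁻¹ • x) = g⁻¹ • ((locMap ι q : LocAlg L q →ₐ[ℚ_[pv q]] LocAlg L' q) :
        LocAlg L q →+* LocAlg L' q) x := by
    rw [← map_inv]
    exact locMap_smul_along f ι hι q g⁻¹ x
  rw [h1]

end Below

section Inflation

variable (T : ∀ q : Nat.Primes, LocalInvTheory (pv q))
variable {L L' : Type} [Field L] [NumberField L] [Field L'] [NumberField L']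
variable {G G' : Type} [Group G] [Finite G] [Group G'] [Finite G']
  [MulSemiringAction G L] [FaithfulSMul G L] [MulSemiringAction G' L'] [FaithfulSMul G' L']
  (f : G' →* G) (ι : L →+* L') (hι : ∀ (g : G') (x : L), ι (f g • x) = g • ι x)

/-- **Inflation compatibility of the sum of local invariants above `q`.** -/
theorem primeInv_map_of_surjective (hf : Function.Surjective f) (q : Nat.Primes)
    (hover : ∀ m : MaximalSpectrum (LocAlg L q), ∃ m', primeBelowMax ι q m' = m)
    (htrans : ∀ m₁ m₂ : MaximalSpectrum (LocAlg L' q),
      primeBelowMax ι q m₁ = primeBelowMax ι q m₂ → ∃ k : G', k • m₁ = m₂)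
    (hdec : ∀ m' : MaximalSpectrum (LocAlg L' q),
      Function.Surjective (decompMap f ι hι q (primeBelowMax ι q m') m' rfl))
    (hfix : ∀ (m' : MaximalSpectrum (LocAlg L' q)) (y : FieldAt L' q m'),
      (∀ d : MulAction.stabilizer G' m', d • y = y) →
        ∃ x : FieldAt L q (primeBelowMax ι q m'), fieldAtMap ι q _ m' rfl x = y)
    (c : groupCohomology (ideleRep L G) 2) :
    primeInv T L' G' q (groupCohomology.map f (ideleMapRepHom f ι hι) 2 c) =
      primeInv T L G q c := by
  unfold primeInv
  have h1 : ∀ ω : MulAction.orbitRel.Quotient G' (MaximalSpectrum (LocAlg L' q)),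
      locInv T L' G' q ω.out (groupCohomology.map f (ideleMapRepHom f ι hι) 2 c) =
        locInv T L G q (primeBelowMax ι q ω.out) c := fun ω =>
    locInv_map_of_surjective T f ι hι q (primeBelowMax ι q ω.out) ω.out rfl (hdec _) (hfix _) c
  rw [finsum_congr h1]
  exact finsum_orbit_out_comp f hf (primeBelowMax ι q) (primeBelowMax_smul ι q f hι) hover htrans
    (fun m => locInv T L G q m c) (fun g m => locInv_smul T L G q g m c)

/-- **Inflation compatibility of the global invariant.** -/
theorem globalInv_map_of_surjective (hf : Function.Surjective f)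
    (hover : ∀ (q : Nat.Primes) (m : MaximalSpectrum (LocAlg L q)),
      ∃ m', primeBelowMax ι q m' = m)
    (htrans : ∀ (q : Nat.Primes) (m₁ m₂ : MaximalSpectrum (LocAlg L' q)),
      primeBelowMax ι q m₁ = primeBelowMax ι q m₂ → ∃ k : G', k • m₁ = m₂)
    (hdec : ∀ (q : Nat.Primes) (m' : MaximalSpectrum (LocAlg L' q)),
      Function.Surjective (decompMap f ι hι q (primeBelowMax ι q m') m' rfl))
    (hfix : ∀ (q : Nat.Primes) (m' : MaximalSpectrum (LocAlg L' q)) (y : FieldAt L' q m'),
      (∀ d : MulAction.stabilizer G' m', d • y = y) →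
        ∃ x : FieldAt L q (primeBelowMax ι q m'), fieldAtMap ι q _ m' rfl x = y)
    (c : groupCohomology (ideleRep L G) 2) :
    globalInv T L' G' (groupCohomology.map f (ideleMapRepHom f ι hι) 2 c) =
      globalInv T L G c := by
  unfold globalInv
  exact finsum_congr fun q =>
    primeInv_map_of_surjective T f ι hι hf q (hover q) (htrans q) (hdec q) (hfix q) c

end Inflation

end Fermat.Agent.Lib.CFT.Global.ClassFormation
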