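import Fermat.Agent.Lib.CFT.Global.ClassFormation.CyclicLayerAbstract
import Fermat.Agent.Lib.CFT.Global.ClassFormation.CyclicLayerSingle
import Fermat.Agent.Lib.CFT.Global.ClassFormation.CyclicLayerInert
import Fermat.Agent.Lib.CFT.Global.IdeleCyclic
import Fermat.Agent.Lib.CFT.Global.SecondIneq.Unconditional
import Fermat.Agent.Lib.CFT.Global.CohIdeles.LocalComp
import Fermat.Agent.Lib.CFT.Global.ClassFormation.GlobalInvSingle
import Fermat.Agent.Lib.CFT.Global.ClassFormation.SumFormula

/-!
# The invariant map of a cyclic layer (P-CFT, (GI-7) = (O4), helper9)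

`L` a number field with a faithful action of a finite cyclic group `G`, and
`T : ∀ q, LocalInvTheory (pv q)` a system of canonical local invariants.  Let
`gInv : H²(G, J_L) →+ ℚ/ℤ` be a "global invariant map", i.e. an additive map such that

* `hsingle`: on a class all of whose local invariants at the orbit representatives vanish except
  at one representative `m₀`, `gInv` is the local invariant at `m₀`;
* `htors`: `|G| • gInv x = 0`;
* `hsum`: `gInv` vanishes on the image of `H²(G, Lˣ)` (the sum formula / reciprocity law).

Then `gInv` factors through `H²(G, J_L) ↠ H²(G, C_L)` (`classInv`, `classInv_map`), and the induced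
map `classInv : H²(G, C_L) →+ ℚ/ℤ` is injective with image the `|G|`-torsion
(`classInv_injective`, `card_nsmul_classInv`, `exists_classInv_eq`).

The last section instantiates this with `globalInv T L G` of `GlobalInv.lean` (an additive map
`globalInvHom` since every class has finite support; `hsingle`, `htors` hold unconditionally), so
that the only remaining hypothesis is the sum formula
`hsum : ∀ α, globalInv T L G (principalClass L G α) = 0` on the layer:

* `cyclicInv hsum : H²(G, C_L) →+ ℚ/ℤ`, `cyclicInv_map`, `cyclicInv_unique`;
* `cyclicInv_injective`, `card_nsmul_cyclicInv`, `exists_cyclicInv_eq`,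
  `cyclicInv_bijective_torsion`: `cyclicInv` is an isomorphism onto the `|G|`-torsion of `ℚ/ℤ`;
* `exists_principalClass_eq_of_globalInv_eq_zero`: a class of `H²(G, J_L)` with global invariant
  zero comes from `H²(G, Lˣ)`.

Ingredients: surjectivity of `H²(G, J_L) → H²(G, C_L)` (`IdeleCyclic.lean`, periodicity + Hilbert
90), `|H²(G, C_L)| = |G|` (`SecondIneq/Unconditional.lean`), existence of a prime with full
decomposition group (`CyclicLayerInert.lean`, Frobenius density), classes with one prescribed local
component (`CyclicLayerSingle.lean`), surjectivity of the local invariants (`LocalInvTheory`).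
-/

set_option autoImplicit false
set_option linter.unusedSectionVars false

namespace Fermat.Agent.Lib.CFT.Global.ClassFormation.CyclicLayer

open CategoryTheory
open Fermat.Agent.Lib.CFT.Global Fermat.Agent.Lib.CFT.Global.EtaleAlg
open Fermat.Agent.Lib.CFT.Global.LocalFieldAt
open Fermat.Agent.Lib.CFT.Global.SecondIneq.Consequences
open Fermat.Agent.Lib.CFT.Local (LocalInvTheory)
open Fermat.Agent.Lib.CFT.Local.LocalBrauer (QZ)

open scoped Pointwise

attribute [local instance] Units.mulDistribMulActionRight

section Main

variable (T : ∀ q : Nat.Primes, LocalInvTheory (pv q))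
variable (L : Type) [Field L] [NumberField L]
variable (G : Type) [Group G] [Finite G] [MulSemiringAction G L] [FaithfulSMul G L]

/-- The map `H²(G, J_L) → H²(G, C_L)` as an additive map. -/
noncomputable def classMap :
    groupCohomology (ideleRep L G) 2 →+ groupCohomology (ideleClassRep L G) 2 :=
  ((groupCohomology.functor ℤ G 2).map (classRepHom L G)).hom.toAddMonoidHom

lemma classMap_apply (x : groupCohomology (ideleRep L G) 2) :
    classMap L G x = (groupCohomology.functor ℤ G 2).map (classRepHom L G) x := rfl

/-- Hilbert 90 in action form. -/
lemma isZero_H1_unitsRep :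
    Limits.IsZero (groupCohomology (unitsRep L G) 1) :=
  isZero_H1_of_forall_isMulCoboundary₁ fun f hf => isMulCoboundary₁_of_faithful f hf

/-- For a cyclic layer `H²(G, J_L) → H²(G, C_L)` is surjective (action form). -/
theorem classMap_surjective [IsCyclic G] : Function.Surjective (classMap L G) := by
  classical
  have : Fintype G := Fintype.ofFinite G
  obtain ⟨g, hg⟩ := IsCyclic.exists_generator (α := G)
  exact surjective_H2_classRepHom_of_cyclic L G g hg (isZero_H1_unitsRep L G)

variable (gInv : groupCohomology (ideleRep L G) 2 →+ QZ)

/-- The defining property of a global invariant map used here: on a class all of whose local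
invariants at the orbit representatives vanish except at one representative, it is the local
invariant there. -/
def IsSingle : Prop :=
  ∀ (q₀ : Nat.Primes) (ω₀ : Orb L G q₀) (x : groupCohomology (ideleRep L G) 2),
    (∀ ω : Orb L G q₀, ω ≠ ω₀ → locInv T L G q₀ (rep L G q₀ ω) x = 0) →
    (∀ q : Nat.Primes, q ≠ q₀ → ∀ ω : Orb L G q, locInv T L G q (rep L G q ω) x = 0) →
    gInv x = locInv T L G q₀ (rep L G q₀ ω₀) x

/-- The sum formula on the layer: the global invariant vanishes on principal classes. -/
def IsReciprocity : Prop :=
  ∀ y : groupCohomology (unitsRep L G) 2,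
    gInv ((groupCohomology.functor ℤ G 2).map (principalRepHom L G) y) = 0

variable {T L G gInv}

/-- **Every `|G|`-torsion element of `ℚ/ℤ` is a global invariant** on a cyclic layer: there is
a prime with full decomposition group, and a class with a single prescribed local invariant
there. -/
theorem exists_gInv_eq [IsCyclic G] (hsingle : IsSingle T L G gInv) (a : QZ)
    (ha : Nat.card G • a = 0) : ∃ x, gInv x = a := by
  obtain ⟨q₀, ω₀, hst⟩ := exists_rep_stabilizer_eq_top L G
  have hcard : Nat.card (MulAction.stabilizer G (rep L G q₀ ω₀)) = Nat.card G := by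
    rw [hst, Subgroup.card_top]
  obtain ⟨x, hx1, hx2, hx3⟩ := exists_single_locInv L G T q₀ ω₀ a (by rw [hcard]; exact ha)
  refine ⟨x, ?_⟩
  rw [hsingle q₀ ω₀ x hx2 (fun q hq ω => hx3 q hq _), hx1]

/-- The invariant map of a cyclic layer on `H²(G, C_L)`, induced by a global invariant map
satisfying the sum formula. -/
noncomputable def classInv [IsCyclic G] (hsum : IsReciprocity L G gInv) :
    groupCohomology (ideleClassRep L G) 2 →+ QZ :=
  descend (classMap L G) (classMap_surjective L G) gInv (fun x hx => by
    obtain ⟨y, rfl⟩ := exists_of_map_classRepHom_eq_zero L G x hx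
    exact hsum y)

@[simp] theorem classInv_classMap [IsCyclic G] (hsum : IsReciprocity L G gInv)
    (x : groupCohomology (ideleRep L G) 2) : classInv hsum (classMap L G x) = gInv x :=
  descend_apply _ _ _ _ x

/-- `classInv` is compatible with `H²(G, J_L) → H²(G, C_L)`. -/
theorem classInv_map [IsCyclic G] (hsum : IsReciprocity L G gInv)
    (x : groupCohomology (ideleRep L G) 2) :
    classInv hsum ((groupCohomology.functor ℤ G 2).map (classRepHom L G) x) = gInv x :=
  classInv_classMap hsum x

/-- `classInv` is the unique additive map compatible with `H²(G, J_L) → H²(G, C_L)`. -/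
theorem classInv_unique [IsCyclic G] (hsum : IsReciprocity L G gInv)
    (f : groupCohomology (ideleClassRep L G) 2 →+ QZ)
    (hf : ∀ x, f ((groupCohomology.functor ℤ G 2).map (classRepHom L G) x) = gInv x) :
    f = classInv hsum := by
  ext c
  obtain ⟨x, rfl⟩ := classMap_surjective L G c
  rw [classInv_classMap]
  exact hf x

/-- The invariants of a cyclic layer are killed by `|G|`. -/
theorem card_nsmul_classInv [IsCyclic G] (hsum : IsReciprocity L G gInv)
    (htors : ∀ x, Nat.card G • gInv x = 0) (c : groupCohomology (ideleClassRep L G) 2) :
    Nat.card G • classInv hsum c = 0 := by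
  obtain ⟨x, rfl⟩ := classMap_surjective L G c
  rw [classInv_classMap]
  exact htors x

/-- Every `|G|`-torsion element of `ℚ/ℤ` is an invariant of the cyclic layer. -/
theorem exists_classInv_eq [IsCyclic G] (hsum : IsReciprocity L G gInv)
    (hsingle : IsSingle T L G gInv) (a : QZ) (ha : Nat.card G • a = 0) :
    ∃ c, classInv hsum c = a := by
  obtain ⟨x, hx⟩ := exists_gInv_eq hsingle a ha
  exact ⟨classMap L G x, by rw [classInv_classMap, hx]⟩

/-- **The invariant map of a cyclic layer is injective**, since `|H²(G, C_L)| = |G|` (the two
inequalities, `SecondIneq/Unconditional.lean`) and every `|G|`-torsion element is an invariant. -/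
theorem classInv_injective [IsCyclic G] (hsum : IsReciprocity L G gInv)
    (hsingle : IsSingle T L G gInv) : Function.Injective (classInv hsum) := by
  have hcard : Nat.card (groupCohomology (ideleClassRep L G) 2) = Nat.card G :=
    ideleClass_card_H2_of_isCyclic L G
  have hfin : Finite (groupCohomology (ideleClassRep L G) 2) := ideleClass_H2_finite L G
  refine injective_of_torsion_le_range (classInv hsum) fun y hy => ?_
  rw [hcard] at hy
  exact exists_classInv_eq hsum hsingle y hy

end Main

/-! ### The global invariant map of `Global/ClassFormation/GlobalInv.lean` -/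

section Final

variable (T : ∀ q : Nat.Primes, LocalInvTheory (pv q))
variable (L : Type) [Field L] [NumberField L]
variable (G : Type) [Group G] [Finite G] [MulSemiringAction G L] [FaithfulSMul G L]

/-- The global invariant `globalInv T L G` as an additive map (every class has finite support,
`CohIdeles.hasFiniteSupport`). -/
noncomputable def globalInvHom : groupCohomology (ideleRep L G) 2 →+ QZ where
  toFun := globalInv T L G
  map_zero' := globalInv_zero T L G
  map_add' c c' := globalInv_add T L G c c' (CohIdeles.hasFiniteSupport L G c)
    (CohIdeles.hasFiniteSupport L G c')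

@[simp] lemma globalInvHom_apply (c : groupCohomology (ideleRep L G) 2) :
    globalInvHom T L G c = globalInv T L G c := rfl

/-- `globalInv` is the local invariant on classes supported at a single orbit of primes. -/
theorem isSingle_globalInvHom : IsSingle T L G (globalInvHom T L G) := by
  intro q₀ ω₀ x h2 h1
  rw [globalInvHom_apply, globalInv_apply]
  show ∑ᶠ (q : Nat.Primes), ∑ᶠ (ω : Orb L G q), locInv T L G q (rep L G q ω) x = _
  rw [finsum_eq_single _ q₀ (fun q hq => finsum_eq_zero_of_forall_eq_zero (h1 q hq))]
  exact finsum_eq_single _ ω₀ h2

/-- The global invariants are killed by `|G|`. -/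
theorem card_nsmul_globalInvHom (x : groupCohomology (ideleRep L G) 2) :
    Nat.card G • globalInvHom T L G x = 0 :=
  card_nsmul_globalInv T L G x

variable {T L G}

/-- The sum formula on the layer `(L, G)`, in the form proved in `SumFormula.lean`, is the
hypothesis `IsReciprocity` for `globalInv`. -/
theorem isReciprocity_globalInvHom
    (hsum : ∀ α : groupCohomology (unitsRep L G) 2,
      globalInv T L G (principalClass L G α) = 0) :
    IsReciprocity L G (globalInvHom T L G) :=
  fun α => hsum α

/-- **The invariant map of a cyclic layer** `inv_{L/K} : H²(G, C_L) →+ ℚ/ℤ` (`K = L^G`), induced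
by the global invariant `globalInv` on `H²(G, J_L)` via the sum formula `hsum`. -/
noncomputable def cyclicInv [IsCyclic G]
    (hsum : ∀ α : groupCohomology (unitsRep L G) 2,
      globalInv T L G (principalClass L G α) = 0) :
    groupCohomology (ideleClassRep L G) 2 →+ QZ :=
  classInv (isReciprocity_globalInvHom hsum)

/-- `H²(G, J_L) → H²(G, C_L)` is surjective on a cyclic layer. -/
theorem surjective_map_classRepHom [IsCyclic G] :
    Function.Surjective (groupCohomology.map (A := ideleRep L G) (B := ideleClassRep L G)
      (MonoidHom.id G) (classRepHom L G) 2) :=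
  classMap_surjective L G

section

variable [IsCyclic G]
  (hsum : ∀ α : groupCohomology (unitsRep L G) 2, globalInv T L G (principalClass L G α) = 0)

include hsum

/-- `cyclicInv` of the class of an idele class is its global invariant. -/
theorem cyclicInv_map (x : groupCohomology (ideleRep L G) 2) :
    cyclicInv hsum ((groupCohomology.functor ℤ G 2).map (classRepHom L G) x) =
      globalInv T L G x :=
  classInv_map (isReciprocity_globalInvHom hsum) x

/-- Same as `cyclicInv_map`, with `groupCohomology.map`. -/
theorem cyclicInv_map' (x : groupCohomology (ideleRep L G) 2) :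
    cyclicInv hsum (groupCohomology.map (A := ideleRep L G) (B := ideleClassRep L G)
      (MonoidHom.id G) (classRepHom L G) 2 x) = globalInv T L G x :=
  cyclicInv_map hsum x

/-- `cyclicInv` is characterised by `cyclicInv_map`. -/
theorem cyclicInv_unique (f : groupCohomology (ideleClassRep L G) 2 →+ QZ)
    (hf : ∀ x, f ((groupCohomology.functor ℤ G 2).map (classRepHom L G) x) =
      globalInv T L G x) : f = cyclicInv hsum :=
  classInv_unique (isReciprocity_globalInvHom hsum) f hf

/-- The invariants of a cyclic layer are killed by the degree. -/
theorem card_nsmul_cyclicInv (c : groupCohomology (ideleClassRep L G) 2) :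
    Nat.card G • cyclicInv hsum c = 0 :=
  card_nsmul_classInv (isReciprocity_globalInvHom hsum) (card_nsmul_globalInvHom T L G) c

/-- Every element of `ℚ/ℤ` killed by the degree is an invariant of the cyclic layer. -/
theorem exists_cyclicInv_eq (a : QZ) (ha : Nat.card G • a = 0) :
    ∃ c, cyclicInv hsum c = a :=
  exists_classInv_eq (isReciprocity_globalInvHom hsum) (isSingle_globalInvHom T L G) a ha

/-- **The invariant map of a cyclic layer is injective.** -/
theorem cyclicInv_injective : Function.Injective (cyclicInv hsum) :=
  classInv_injective (isReciprocity_globalInvHom hsum) (isSingle_globalInvHom T L G)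

/-- **(O4)**: the invariant map of a cyclic layer is an isomorphism of `H²(G, C_L)` onto the
`|G|`-torsion of `ℚ/ℤ`. -/
theorem cyclicInv_bijective_torsion :
    Function.Bijective (fun c : groupCohomology (ideleClassRep L G) 2 =>
      (⟨cyclicInv hsum c, card_nsmul_cyclicInv hsum c⟩ : {y : QZ // Nat.card G • y = 0})) := by
  refine ⟨fun c c' h => cyclicInv_injective hsum (congrArg Subtype.val h), ?_⟩
  rintro ⟨a, ha⟩
  obtain ⟨c, hc⟩ := exists_cyclicInv_eq hsum a ha
  exact ⟨c, Subtype.ext hc⟩

/-- A class of `H²(G, J_L)` with global invariant zero becomes trivial in `H²(G, C_L)`,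
i.e. comes from `H²(G, Lˣ)`. -/
theorem exists_principalClass_eq_of_globalInv_eq_zero (x : groupCohomology (ideleRep L G) 2)
    (hx : globalInv T L G x = 0) :
    ∃ α : groupCohomology (unitsRep L G) 2, principalClass L G α = x := by
  apply exists_of_map_classRepHom_eq_zero L G x
  apply cyclicInv_injective hsum
  rw [cyclicInv_map, hx]
  exact (map_zero (cyclicInv hsum)).symm

end

end Final

end Fermat.Agent.Lib.CFT.Global.ClassFormation.CyclicLayer
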