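import Mathlib
import Fermat.Agent.Lib.CFT.Local.LocalBrauer.Valued

/-!
# Abstract lemmas for the cyclic layer of the global invariant map (P-CFT, (GI-7), helper9)

Pure algebra used by `Global/ClassFormation/CyclicLayer.lean`:

* `card_torsion_QZ`: the `n`-torsion of `ℚ/ℤ` has `n` elements;
* `injective_of_torsion_le_range`: an additive map `f : A →+ ℚ/ℤ` from a finite group whose range
  contains the `|A|`-torsion is injective;
* `descend`, `descend_apply`: factorisation of an additive map through a surjection whose kernel it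
  kills.
-/

set_option autoImplicit false

namespace Fermat.Agent.Lib.CFT.Global.ClassFormation.CyclicLayer

open Fermat.Agent.Lib.CFT.Local.LocalBrauer (QZ)

section QZ

/-- The `n`-torsion of `ℚ/ℤ` is generated by `1/n`. -/
theorem nsmul_eq_zero_iff_mem_zmultiples (n : ℕ) (hn : 0 < n) (y : QZ) :
    n • y = 0 ↔ y ∈ AddSubgroup.zmultiples ((((1 : ℚ) / (n : ℚ) : ℚ)) : QZ) := by
  rw [Fermat.Agent.Lib.CFT.Local.LocalBrauer.QZ.nsmul_eq_zero_iff n hn y,
    AddSubgroup.mem_zmultiples_iff]
  constructor
  · rintro ⟨m, rfl⟩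
    refine ⟨m, ?_⟩
    rw [← AddCircle.coe_zsmul]
    congr 1
    rw [zsmul_eq_mul]
    ring
  · rintro ⟨m, rfl⟩
    refine ⟨m, ?_⟩
    rw [← AddCircle.coe_zsmul]
    congr 1
    rw [zsmul_eq_mul]
    ring

/-- The `n`-torsion of `ℚ/ℤ` has `n` elements. -/
theorem card_torsion_QZ (n : ℕ) (hn : 0 < n) : Nat.card {y : QZ // n • y = 0} = n := by
  have h1 : {y : QZ | n • y = 0} =
      (AddSubgroup.zmultiples ((((1 : ℚ) / (n : ℚ) : ℚ)) : QZ) : Set QZ) := by
    ext y
    exact nsmul_eq_zero_iff_mem_zmultiples n hn y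
  change Nat.card {y : QZ | n • y = 0} = n
  rw [h1]
  change Nat.card (AddSubgroup.zmultiples ((((1 : ℚ) / (n : ℚ) : ℚ)) : QZ)) = n
  rw [Nat.card_zmultiples, Fermat.Agent.Lib.CFT.Local.LocalBrauer.QZ.addOrderOf_one_div n hn]

end QZ

section Counting

variable {A : Type*} [AddCommGroup A] [Finite A]

/-- An additive map from a finite group `A` to `ℚ/ℤ` whose range contains the `|A|`-torsion is
injective. -/
theorem injective_of_torsion_le_range (f : A →+ QZ)
    (hsurj : ∀ y : QZ, Nat.card A • y = 0 → ∃ x, f x = y) : Function.Injective f := by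
  classical
  have hn : 0 < Nat.card A := Nat.card_pos
  have hfin : Finite {y : QZ // Nat.card A • y = 0} :=
    Nat.finite_of_card_ne_zero (by rw [card_torsion_QZ _ hn]; exact hn.ne')
  let g : A → {y : QZ // Nat.card A • y = 0} := fun x =>
    ⟨f x, by rw [← map_nsmul, card_nsmul_eq_zero', map_zero]⟩
  have hg : Function.Surjective g := by
    rintro ⟨y, hy⟩
    obtain ⟨x, hx⟩ := hsurj y hy
    exact ⟨x, Subtype.ext hx⟩
  have hcard : Nat.card A = Nat.card {y : QZ // Nat.card A • y = 0} :=
    (card_torsion_QZ _ hn).symm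
  have hbij : Function.Bijective g :=
    (Function.Surjective.bijective_of_nat_card_le hg (le_of_eq hcard))
  intro x y hxy
  apply hbij.1
  exact Subtype.ext hxy

end Counting

section Descend

variable {B C X : Type*} [AddCommGroup B] [AddCommGroup C] [AddCommGroup X]

/-- Factorisation of an additive map `f` through a surjection `π` whose kernel it kills. -/
noncomputable def descend (π : B →+ C) (hπ : Function.Surjective π) (f : B →+ X)
    (hf : ∀ b, π b = 0 → f b = 0) : C →+ X :=
  AddMonoidHom.liftOfRightInverse π (Function.surjInv hπ) (Function.rightInverse_surjInv hπ)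
    ⟨f, fun b hb => hf b hb⟩

@[simp] theorem descend_apply (π : B →+ C) (hπ : Function.Surjective π) (f : B →+ X)
    (hf : ∀ b, π b = 0 → f b = 0) (b : B) : descend π hπ f hf (π b) = f b :=
  AddMonoidHom.liftOfRightInverse_comp_apply π (Function.surjInv hπ)
    (Function.rightInverse_surjInv hπ) ⟨f, fun b hb => hf b hb⟩ b

end Descend

end Fermat.Agent.Lib.CFT.Global.ClassFormation.CyclicLayer
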