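import Fermat.Agent.Lib.CFT.Global.ClassFormation.CyclicLayer
import Fermat.Agent.Lib.CFT.Coh.ClassFormation.QuotientLayer

/-!
# The invariant map of a cyclic layer of `p`-power degree (P-CFT, (GI-7), helper9)

The sum formula is available in `p`-primary form only
(`∀ α, p ^ k • α = 0 → globalInv T L G (principalClass L G α) = 0`).  On a layer whose group `G` has
order `p ^ k` this is the full sum formula, since `|G|` kills `H²(G, Lˣ)`; so all results of
`CyclicLayer.lean` apply: `cyclicInvP`, and its properties.
-/

set_option autoImplicit false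

namespace Fermat.Agent.Lib.CFT.Global.ClassFormation.CyclicLayer

open CategoryTheory
open Fermat.Agent.Lib.CFT.Global
open Fermat.Agent.Lib.CFT.Local (LocalInvTheory)
open Fermat.Agent.Lib.CFT.Local.LocalBrauer (QZ)

section PPrimary

variable {T : ∀ q : Nat.Primes, LocalInvTheory (pv q)}
variable {L : Type} [Field L] [NumberField L]
variable {G : Type} [Group G] [Finite G] [MulSemiringAction G L] [FaithfulSMul G L]

/-- `|G|` kills `H²(G, M)` (with `Nat.card`). -/
theorem natCard_nsmul_H2 (M : Rep.{0} ℤ G) (x : groupCohomology M 2) : Nat.card G • x = 0 := by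
  classical
  have : Fintype G := Fintype.ofFinite G
  rw [Nat.card_eq_fintype_card]
  exact Fermat.Agent.Lib.CFT.Coh.ClassFormation.QuotientLayer.card_nsmul_H2 M x

/-- On a layer of degree `p ^ k` the `p`-primary sum formula is the full sum formula. -/
theorem hsum_of_pPrimary {p k : ℕ} (hG : Nat.card G = p ^ k)
    (h : ∀ α : groupCohomology (unitsRep L G) 2, p ^ k • α = 0 →
      globalInv T L G (principalClass L G α) = 0)
    (α : groupCohomology (unitsRep L G) 2) :
    globalInv T L G (principalClass L G α) = 0 :=
  h α (by rw [← hG]; exact natCard_nsmul_H2 _ α)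

/-- The invariant map of a cyclic layer of degree `p ^ k`, from the `p`-primary sum formula. -/
noncomputable def cyclicInvP [IsCyclic G] {p k : ℕ} (hG : Nat.card G = p ^ k)
    (h : ∀ α : groupCohomology (unitsRep L G) 2, p ^ k • α = 0 →
      globalInv T L G (principalClass L G α) = 0) :
    groupCohomology (ideleClassRep L G) 2 →+ QZ :=
  cyclicInv (hsum_of_pPrimary hG h)

lemma cyclicInvP_eq [IsCyclic G] {p k : ℕ} (hG : Nat.card G = p ^ k)
    (h : ∀ α : groupCohomology (unitsRep L G) 2, p ^ k • α = 0 →
      globalInv T L G (principalClass L G α) = 0) :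
    cyclicInvP hG h = cyclicInv (hsum_of_pPrimary hG h) := rfl

end PPrimary

end Fermat.Agent.Lib.CFT.Global.ClassFormation.CyclicLayer
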