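import Fermat.Agent.Lib.CFT.Global.ClassFormation.TowerCompare
import Fermat.Agent.Lib.CFT.Global.ArtinCyclotomicNorm

/-!
# The cyclotomic layer `L(ζ_m)/L` and the norm criterion (P-CFT, Global/ClassFormation, helper50)

* `classToH2`, `classToH2_surjective`, `classToH2_eq_zero_iff`, `card_H2_eq_index_norm`: for a cyclic
  extension `M/L` of number fields with generator `s`, `c ↦ [c ∪ δχ_s]` induces
  `C_L / N_{M/L} C_M ≃ H²(Gal(M/L), C_M)`; in particular `|H²| = [C_L : N C_M]`.
* For `M = L(ζ_m)` (`[IsCyclotomicExtension {m} L M]`) and helper70's `ω_L = omega L m`: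
  `omega_ideleNorm_eq_one` (`ω_L` kills `N_{M/L} J_M`), `card_cycloRange`
  (`|cycloRange L M m| = [M:L]`), and **Artin reciprocity** `ker_omegaClass_eq_range_norm`:
  if `Gal(M/L)` is cyclic, `|H²(Gal(M/L), C_M)| = [M:L]` and `ω_L` is onto `cycloRange L M m`
  then `ker ω_L = N_{M/L} C_M`; `isAddCyclic_H2_cyclotomic`: then `H²(Gal(M/L), C_M)` is cyclic.
* `normCriterion_of_cyclotomic`: the norm criterion of `TowerCompare.lean` for `Z = K(ζ_m)`,
  `M = L'(ζ_m)` (base change `omega_ideleMap` of helper70).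
* `card_H2_and_isAddCyclic_of_cyclotomic`: `H²(Gal(L'/K), C_{L'})` is cyclic of order `[L':K]` for
  every Galois `L'/K` with `[L':K] ∣ [K(ζ_m):K]`, `(ℤ/m)ˣ` cyclic — from the first and second
  inequalities (as hypotheses) and the surjectivity of `ω` (as hypothesis).
-/

set_option autoImplicit false

open CategoryTheory Rep groupCohomology

namespace Fermat.Agent.Lib.CFT.Global.ClassFormation

open Fermat.Agent.Lib.CFT.Global Fermat.Agent.Lib.CFT.Coh.CyclicExplicit
  Fermat.Agent.Lib.CFT.Coh.TateLow

section CyclicLayer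

variable (L M : Type) [Field L] [NumberField L] [Field M] [NumberField M] [Algebra L M]
  [IsGalois L M]

/-- The image of an idele class of `L` in the invariants `(C_M)^{Gal(M/L)}`. -/
noncomputable def classInvariant :
    Additive (IdeleClass L) →+ (ideleClassRep M (M ≃ₐ[L] M)).ρ.invariants where
  toFun c := ⟨Additive.ofMul (ideleClassMap (algebraMap L M) (Additive.toMul c)), fun g => by
    induction c using QuotientGroup.induction_on with
    | H a =>
      change Additive.ofMul (g • ideleClassMap (algebraMap L M) (QuotientGroup.mk a)) = _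
      rw [ideleClassMap_mk, smul_mk_ideleClass, smul_ideleMap_algebraMap]
      rfl⟩
  map_zero' := by
    apply Subtype.ext
    change Additive.ofMul (ideleClassMap (algebraMap L M) 1) = 0
    rw [map_one]
    rfl
  map_add' c d := by
    apply Subtype.ext
    change Additive.ofMul (ideleClassMap (algebraMap L M) (Additive.toMul c * Additive.toMul d)) = _
    rw [map_mul]
    rfl

omit [IsGalois L M] in
lemma classInvariant_coe (c : Additive (IdeleClass L)) :
    (classInvariant L M c).1 = Additive.ofMul (ideleClassMap (algebraMap L M) (Additive.toMul c)) :=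
  rfl

lemma classInvariant_surjective : Function.Surjective (classInvariant L M) := by
  intro b
  have hbfix : ∀ g : M ≃ₐ[L] M, g • Additive.toMul (α := IdeleClass M) b.1 = Additive.toMul b.1 :=
    fun g => congrArg Additive.toMul (b.2 g)
  obtain ⟨a, ha⟩ := FirstIneq.exists_ideleClassMap_eq_of_fixed
    (exists_ideleMap_eq_of_fixed L M) _ hbfix
  exact ⟨Additive.ofMul a, Subtype.ext (congrArg Additive.ofMul ha)⟩

variable (s : M ≃ₐ[L] M) (hs : ∀ x, x ∈ Subgroup.zpowers s)

/-- The map `C_L → H²(Gal(M/L), C_M)`, `c ↦ [c ∪ δχ_s]`, for a cyclic extension `M/L` with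
generator `s` of the Galois group. -/
noncomputable def classToH2 :
    Additive (IdeleClass L) →+ H2 (ideleClassRep M (M ≃ₐ[L] M)) :=
  (toH2 (ideleClassRep M (M ≃ₐ[L] M)) s hs).toAddMonoidHom.comp (classInvariant L M)

lemma classToH2_surjective : Function.Surjective (classToH2 L M s hs) :=
  (toH2_surjective _ s hs).comp (classInvariant_surjective L M)

lemma classToH2_eq_zero_iff (c : Additive (IdeleClass L)) :
    classToH2 L M s hs c = 0 ↔ Additive.toMul c ∈ (ideleClassNorm L M).range := by
  change toH2 _ s hs (classInvariant L M c) = 0 ↔ _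
  rw [toH2_eq_zero_iff, mem_normRange_ofMul]
  constructor
  · rintro ⟨t, ht⟩
    refine ⟨t, ?_⟩
    apply FirstIneq.ideleClassMap_injective (K := L) (L := M)
    rw [← prod_smul_ideleClass, ht]
    rfl
  · rintro ⟨t, ht⟩
    refine ⟨t, ?_⟩
    rw [prod_smul_ideleClass, ht]
    rfl

include s hs in
/-- For a cyclic extension `M/L`: `|H²(Gal(M/L), C_M)| = [C_L : N_{M/L} C_M]`. -/
theorem card_H2_eq_index_norm :
    Nat.card (H2 (ideleClassRep M (M ≃ₐ[L] M))) = (ideleClassNorm L M).range.index := by
  let ψ : IdeleClass L →* Multiplicative (H2 (ideleClassRep M (M ≃ₐ[L] M))) :=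
    AddMonoidHom.toMultiplicativeRight (classToH2 L M s hs)
  have hker : ψ.ker = (ideleClassNorm L M).range := by
    ext c
    rw [MonoidHom.mem_ker]
    exact classToH2_eq_zero_iff L M s hs (Additive.ofMul c)
  have hsurj : Function.Surjective ψ := classToH2_surjective L M s hs
  rw [← hker, Subgroup.index_ker, MonoidHom.range_eq_top.2 hsurj, Subgroup.card_top]
  rfl

end CyclicLayer


section Cyclotomic

open ArtinCyc

variable (L M : Type) [Field L] [NumberField L] [Field M] [NumberField M] [Algebra L M]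
  (m : ℕ) [NeZero m] [IsCyclotomicExtension {m} L M]

omit [NumberField L] [NumberField M] in
/-- `cycloRange L M m` is the image of the cyclotomic character `Gal(M/L) → (ℤ/m)ˣ`. -/
lemma cycloRange_eq_range_autToPow :
    cycloRange L M m = ((IsCyclotomicExtension.zeta_spec m L M).autToPow L).range := by
  have hz := IsCyclotomicExtension.zeta_spec m L M
  set μ := IsCyclotomicExtension.zeta m L M
  ext u
  rw [mem_cycloRange, MonoidHom.mem_range]
  constructor
  · rintro ⟨σ, hσ⟩
    refine ⟨σ, ?_⟩
    have h1 : μ ^ ((hz.autToPow L σ : (ZMod m)ˣ) : ZMod m).val = σ μ := hz.autToPow_spec L σ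
    have h2 : σ μ = μ ^ ((u : (ZMod m)ˣ) : ZMod m).val := hσ μ hz.pow_eq_one
    rw [h2] at h1
    have h3 := hz.pow_inj (ZMod.val_lt _) (ZMod.val_lt _) h1
    exact Units.ext (ZMod.val_injective m h3)
  · rintro ⟨σ, rfl⟩
    refine ⟨σ, fun ζ hζ => ?_⟩
    obtain ⟨k, -, rfl⟩ := hz.eq_pow_of_pow_eq_one hζ
    rw [map_pow, ← hz.autToPow_spec L σ, ← pow_mul, ← pow_mul, mul_comm]

omit [NumberField L] [NumberField M] in
/-- The cyclotomic character identifies `Gal(M/L)` with `cycloRange L M m`. -/
theorem card_cycloRange : Nat.card (cycloRange L M m) = Module.finrank L M := by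
  have : IsGalois L M := IsCyclotomicExtension.isGalois {m} L M
  have : FiniteDimensional L M := IsCyclotomicExtension.finiteDimensional {m} L M
  rw [cycloRange_eq_range_autToPow, ← IsGalois.card_aut_eq_finrank L M]
  exact Nat.card_congr
    (Equiv.ofInjective _ ((IsCyclotomicExtension.zeta_spec m L M).autToPow_injective L)).symm

omit [NumberField M] [NumberField L] [Algebra L M] [IsCyclotomicExtension {m} L M] in
/-- `cycloRange M M m` is trivial as soon as `M` contains a primitive `m`-th root of unity. -/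
lemma cycloRange_self {ζ : M} (hz : IsPrimitiveRoot ζ m) : cycloRange M M m = ⊥ := by
  rw [eq_bot_iff]
  intro u hu
  obtain ⟨σ, hσ⟩ := mem_cycloRange.1 hu
  have h1 := hσ _ hz.pow_eq_one
  have hσ1 : σ = 1 := Subsingleton.elim _ _
  rw [hσ1, AlgEquiv.one_apply] at h1
  have h2 : ζ ^ 1 = ζ ^ ((u : (ZMod m)ˣ) : ZMod m).val := by
    rw [pow_one]
    exact h1
  rw [Subgroup.mem_bot]
  by_cases hm1 : m = 1
  · subst hm1
    exact Subsingleton.elim _ _
  · have hm2 : 1 < m := by
      have := NeZero.ne m
      omega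
    have h3 := hz.pow_inj hm2 (ZMod.val_lt _) h2
    apply Units.ext
    apply ZMod.val_injective m
    rw [← h3, Units.val_one, ZMod.val_one'' hm1]

/-- `ω_L` kills the idele norms from `M = L(ζ_m)`. -/
theorem omega_ideleNorm_eq_one (b : Idele M) : omega L m (ideleNorm L M b) = 1 := by
  rw [omega_ideleNorm L M m b]
  have : IsCyclotomicExtension {m} M M := isCyclotomicExtension_tower_top L M M m
  have h := omega_mem_cycloRange M M m b
  rw [cycloRange_self M m (IsCyclotomicExtension.zeta_spec m L M)] at h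
  exact h

/-- `ω_L` on idele classes kills the norms from `M = L(ζ_m)`. -/
theorem range_ideleClassNorm_le_ker_omegaClass :
    (ideleClassNorm L M).range ≤ (omegaClass L m).ker := by
  rintro _ ⟨c, rfl⟩
  induction c using QuotientGroup.induction_on with
  | H b =>
    rw [MonoidHom.mem_ker, ideleClassNorm_mk, omegaClass_mk]
    exact omega_ideleNorm_eq_one L M m b

/-- The range of `ω_L` on idele classes is the range of `ω_L` on ideles. -/
lemma range_omegaClass : (omegaClass L m).range = (omega L m).range := by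
  ext u
  constructor
  · rintro ⟨c, rfl⟩
    induction c using QuotientGroup.induction_on with
    | H a => exact ⟨a, rfl⟩
  · rintro ⟨a, rfl⟩
    exact ⟨QuotientGroup.mk a, rfl⟩

omit [NumberField M] in
/-- If `ω_L` is onto `cycloRange L M m`, its range is `cycloRange L M m`. -/
lemma range_omega_eq (hsurj : cycloRange L M m ≤ (omega L m).range) :
    (omega L m).range = cycloRange L M m := by
  refine le_antisymm ?_ hsurj
  rintro _ ⟨a, rfl⟩
  exact omega_mem_cycloRange L M m a

/-- **Artin reciprocity for the cyclic cyclotomic layer `M = L(ζ_m)`**: if `Gal(M/L)` is cyclic,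
`|H²(Gal(M/L), C_M)| = [M:L]` (first and second inequality) and `ω_L` is onto `cycloRange L M m`,
then the kernel of `ω_L` on `C_L` is the norm group `N_{M/L} C_M`. -/
theorem ker_omegaClass_eq_range_norm (hsurj : cycloRange L M m ≤ (omega L m).range)
    (hcyc : IsCyclic (M ≃ₐ[L] M))
    (hH2 : Nat.card (H2 (ideleClassRep M (M ≃ₐ[L] M))) = Module.finrank L M) :
    (omegaClass L m).ker = (ideleClassNorm L M).range := by
  have : IsGalois L M := IsCyclotomicExtension.isGalois {m} L M
  obtain ⟨s, hs⟩ := hcyc.exists_generator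
  have hle := range_ideleClassNorm_le_ker_omegaClass L M m
  have h1 : (ideleClassNorm L M).range.index = Module.finrank L M := by
    rw [← card_H2_eq_index_norm L M s hs, hH2]
  have h2 : (omegaClass L m).ker.index = Module.finrank L M := by
    rw [Subgroup.index_ker, range_omegaClass, range_omega_eq L M m hsurj, card_cycloRange]
  have h3 := Subgroup.relIndex_mul_index hle
  rw [h1, h2] at h3
  have hpos : 0 < Module.finrank L M := Module.finrank_pos
  have h4 : (ideleClassNorm L M).range.relIndex (omegaClass L m).ker = 1 := by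
    have := Nat.eq_of_mul_eq_mul_right hpos (h3.trans (one_mul _).symm)
    exact this
  exact le_antisymm (Subgroup.relIndex_eq_one.1 h4) hle

omit [NumberField L] [NumberField M] in
/-- If `(ℤ/m)ˣ` is cyclic then so is `Gal(L(ζ_m)/L)`. -/
lemma isCyclic_gal_of_isCyclic_units [IsCyclic (ZMod m)ˣ] : IsCyclic (M ≃ₐ[L] M) :=
  isCyclic_of_injective ((IsCyclotomicExtension.zeta_spec m L M).autToPow L)
    ((IsCyclotomicExtension.zeta_spec m L M).autToPow_injective L)

/-- For the cyclic cyclotomic layer `M = L(ζ_m)`: `H²(Gal(M/L), C_M)` is cyclic, generated by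
`c₀ ∪ δχ_s` for any `c₀` whose image under `ω_L` generates `cycloRange L M m`. -/
theorem isAddCyclic_H2_cyclotomic (hsurj : cycloRange L M m ≤ (omega L m).range)
    (hcyc : IsCyclic (M ≃ₐ[L] M))
    (hH2 : Nat.card (H2 (ideleClassRep M (M ≃ₐ[L] M))) = Module.finrank L M) :
    IsAddCyclic (H2 (ideleClassRep M (M ≃ₐ[L] M))) := by
  have : IsGalois L M := IsCyclotomicExtension.isGalois {m} L M
  have hker := ker_omegaClass_eq_range_norm L M m hsurj hcyc hH2
  obtain ⟨s, hs⟩ := hcyc.exists_generator
  set χ := (IsCyclotomicExtension.zeta_spec m L M).autToPow L with hχ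
  -- an idele class `c₀` with `ω(c₀) = χ(s)`
  have hr₀ : χ s ∈ (omega L m).range := by
    apply hsurj
    rw [cycloRange_eq_range_autToPow]
    exact ⟨s, rfl⟩
  obtain ⟨a₀, ha₀⟩ := hr₀
  refine ⟨⟨classToH2 L M s hs (Additive.ofMul (QuotientGroup.mk a₀)), fun x => ?_⟩⟩
  obtain ⟨c, rfl⟩ := classToH2_surjective L M s hs x
  -- `ω(c)` is a power of `χ(s)`
  have hc : omegaClass L m (Additive.toMul c) ∈ cycloRange L M m := by
    induction c using QuotientGroup.induction_on with
    | H a => exact omega_mem_cycloRange L M m a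
  rw [cycloRange_eq_range_autToPow] at hc
  obtain ⟨σ, hσ⟩ := hc
  obtain ⟨k, rfl⟩ := Subgroup.mem_zpowers_iff.1 (hs σ)
  refine AddSubgroup.mem_zmultiples_iff.2 ⟨k, ?_⟩
  -- the difference lies in the kernel of `ω` = norms
  have hmem : Additive.toMul c / (QuotientGroup.mk a₀ : IdeleClass L) ^ k ∈
      (ideleClassNorm L M).range := by
    rw [← hker, MonoidHom.mem_ker, map_div, map_zpow, omegaClass_mk, ha₀, ← hσ, map_zpow,
      div_self']
  have h0 := (classToH2_eq_zero_iff L M s hs
    (c - k • Additive.ofMul (QuotientGroup.mk a₀ : IdeleClass L))).2 hmem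
  have h1 := (classToH2 L M s hs).map_sub c
    (k • Additive.ofMul (QuotientGroup.mk a₀ : IdeleClass L))
  have h2 := map_zsmul (classToH2 L M s hs) k
    (Additive.ofMul (QuotientGroup.mk a₀ : IdeleClass L))
  rw [h2] at h1
  exact (sub_eq_zero.1 (h1.symm.trans h0)).symm

end Cyclotomic

section NormCrit

open ArtinCyc

variable (K Z L' M : Type) [Field K] [NumberField K] [Field Z] [NumberField Z]
  [Field L'] [NumberField L'] [Field M] [NumberField M]
  [Algebra K Z] [Algebra Z M] [Algebra K L'] [Algebra L' M] [Algebra K M]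
  [IsScalarTower K Z M] [IsScalarTower K L' M]
  (m : ℕ) [NeZero m] [IsCyclotomicExtension {m} K Z] [IsCyclotomicExtension {m} L' M]

/-- Base change of `ω` on idele classes. -/
lemma omegaClass_ideleClassMap (a : IdeleClass K) :
    omegaClass L' m (ideleClassMap (algebraMap K L') a) =
      omegaClass K m a ^ Module.finrank K L' := by
  induction a using QuotientGroup.induction_on with
  | H a => exact omega_ideleMap K L' m a

omit [Algebra Z M] [Algebra K M] [IsScalarTower K Z M] [IsScalarTower K L' M] in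
/-- **The norm criterion for the cyclotomic layer** `Z = K(ζ_m)`, `M = L'(ζ_m)`, from Artin
reciprocity for the cyclic cyclotomic extension `M/L'`. -/
theorem normCriterion_of_cyclotomic (hsurj : cycloRange L' M m ≤ (omega L' m).range)
    (hcyc : IsCyclic (M ≃ₐ[L'] M))
    (hH2 : Nat.card (H2 (ideleClassRep M (M ≃ₐ[L'] M))) = Module.finrank L' M) :
    NormCriterion K Z L' M := by
  intro a ha
  rw [← ker_omegaClass_eq_range_norm L' M m hsurj hcyc hH2, MonoidHom.mem_ker,
    omegaClass_ideleClassMap, ← map_pow]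
  exact range_ideleClassNorm_le_ker_omegaClass K Z m ha

end NormCrit

section Final

open ArtinCyc

variable (K Z L' M : Type) [Field K] [NumberField K] [Field Z] [NumberField Z]
  [Field L'] [NumberField L'] [Field M] [NumberField M]
  [Algebra K Z] [Algebra Z M] [Algebra K L'] [Algebra L' M] [Algebra K M]
  [IsScalarTower K Z M] [IsScalarTower K L' M]
  [IsGalois K Z] [IsGalois K L'] [IsGalois K M]
  (m : ℕ) [NeZero m] [IsCyclotomicExtension {m} K Z] [IsCyclotomicExtension {m} L' M]

/-- **`H²` of an arbitrary Galois layer via the cyclotomic layer.**  Let `(ℤ/m)ˣ` be cyclic (e.g.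
`m = p^j`, `p` odd), `Z = K(ζ_m)`, `L'/K` a Galois extension with `[L':K] ∣ [Z:K]`, `M = L'(ζ_m)`.
Assume the Artin maps `ω_K`, `ω_{L'}` are onto `Gal(Z/K)`, `Gal(M/L')`; the first and second
inequality for the cyclic layers `Z/K` and `M/L'` (`|H²| = degree`); `H¹(Gal(M/Z), C_M) = 0`,
`H¹(Gal(M/L'), C_M) = 0` and `|H²(Gal(L'/K), C_{L'})| ≤ [L':K]`.  Then `H²(Gal(L'/K), C_{L'})` is
cyclic of order `[L':K]`. -/
theorem card_H2_and_isAddCyclic_of_cyclotomic [IsCyclic (ZMod m)ˣ]
    (hdiv : Module.finrank K L' ∣ Module.finrank K Z)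
    (hsurjK : cycloRange K Z m ≤ (omega K m).range)
    (hsurjL' : cycloRange L' M m ≤ (omega L' m).range)
    (hH2Z : Nat.card (H2 (ideleClassRep Z (Z ≃ₐ[K] Z))) = Module.finrank K Z)
    (hH2M : Nat.card (H2 (ideleClassRep M (M ≃ₐ[L'] M))) = Module.finrank L' M)
    (h1 : Limits.IsZero (groupCohomology
      (res (AlgEquiv.restrictNormalHom Z : (M ≃ₐ[K] M) →* (Z ≃ₐ[K] Z)).ker.subtype
        (ideleClassRep M (M ≃ₐ[K] M))) 1))
    (h1' : Limits.IsZero (groupCohomology
      (res (AlgEquiv.restrictNormalHom L' : (M ≃ₐ[K] M) →* (L' ≃ₐ[K] L')).ker.subtype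
        (ideleClassRep M (M ≃ₐ[K] M))) 1))
    [Finite (H2 (ideleClassRep L' (L' ≃ₐ[K] L')))]
    (hle : Nat.card (H2 (ideleClassRep L' (L' ≃ₐ[K] L'))) ≤ Module.finrank K L') :
    Nat.card (H2 (ideleClassRep L' (L' ≃ₐ[K] L'))) = Module.finrank K L' ∧
      IsAddCyclic (H2 (ideleClassRep L' (L' ≃ₐ[K] L'))) := by
  have hcycZ : IsCyclic (Z ≃ₐ[K] Z) := isCyclic_gal_of_isCyclic_units K Z m
  have hcycM : IsCyclic (M ≃ₐ[L'] M) := isCyclic_gal_of_isCyclic_units L' M m
  have hfin : Finite (H2 (ideleClassRep Z (Z ≃ₐ[K] Z))) := by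
    apply Nat.finite_of_card_ne_zero
    rw [hH2Z]
    exact Module.finrank_pos.ne'
  exact card_H2_and_isAddCyclic_of_normCriterion
    (normCriterion_of_cyclotomic K Z L' M m hsurjL' hcycM hH2M) hcycZ hdiv h1 h1'
    (isAddCyclic_H2_cyclotomic K Z m hsurjK hcycZ hH2Z) hH2Z hle

end Final

end Fermat.Agent.Lib.CFT.Global.ClassFormation
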