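import Fermat.Agent.Lib.CFT.Global.ClassFormation.CycloSymbolLocInv
import Fermat.Agent.Lib.CFT.Global.ClassFormation.SumFormula

/-!
# The sum formula on cyclic cyclotomic layers of odd degree, for all classes (P-CFT (GI-5)/(O2a),
helper93)

`K` a number field, `M = K(ζ_m)` (cyclotomic polynomial irreducible over `K`), `L₁` an intermediate
field of `M / K`, Galois and cyclic of odd degree over `K`.

* `exists_baseUnit_eq`: the Galois-invariant units of `L` are the units of `K`;
* `exists_symbolClass_eq`: every class of `H²(Gal(L/K), Lˣ)` is a symbol `x ∪ δχ_s`, `x ∈ Kˣ`;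
* `cyclo_hO2a`, `cyclo_hO2a_finrank`: every class `β ∈ H²(Gal(L₁/K), L₁ˣ)` whose local components
  above the primes dividing `m` vanish has global invariant zero.
-/

set_option autoImplicit false
set_option linter.unusedSectionVars false
open scoped NumberField Pointwise

namespace Fermat.Agent.Lib.CFT.Global.ClassFormation.CycloSymbol

open Fermat.Agent.Lib.CFT.Coh.CyclicExplicit
open Fermat.Agent.Lib.CFT.Global Fermat.Agent.Lib.CFT.Global.EtaleAlg
open Fermat.Agent.Lib.CFT.Global.ClassFormation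
open Fermat.Agent.Lib.CFT.Local (LocalInvTheory)
open Fermat.Agent.Lib.CFT.Local.LocalBrauer (QZ)

attribute [local instance] Units.mulDistribMulActionRight

section AllClasses

variable (K L : Type) [Field K] [NumberField K] [Field L] [NumberField L] [Algebra K L]
  [IsGalois K L]

/-- Every Galois-invariant unit of `L` comes from `Kˣ`. -/
theorem exists_baseUnit_eq (a : (unitsRep L (L ≃ₐ[K] L)).ρ.invariants) :
    ∃ x : Kˣ, baseUnit K L x = a := by
  set u : Lˣ := Additive.toMul (α := Lˣ) a.1 with hu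
  have hfix : ∀ g : L ≃ₐ[K] L, g (u : L) = (u : L) := by
    intro g
    have h := a.2 g
    have h2 : g • u = u := congrArg (Additive.toMul (α := Lˣ)) h
    exact congrArg Units.val h2
  obtain ⟨x0, hx0⟩ := (IsGalois.mem_range_algebraMap_iff_fixed (F := K) (E := L) (u : L)).2 hfix
  have hx0ne : x0 ≠ 0 := by
    rintro rfl
    rw [map_zero] at hx0
    exact u.ne_zero hx0.symm
  refine ⟨Units.mk0 x0 hx0ne, ?_⟩
  apply Subtype.ext
  rw [baseUnit_val]
  show Additive.ofMul _ = Additive.ofMul u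
  congr 1
  exact Units.ext hx0

/-- Every class of `H²(Gal(L/K), Lˣ)`, `L / K` cyclic with generator `s`, is a symbol
`x ∪ δχ_s`, `x ∈ Kˣ`. -/
theorem exists_symbolClass_eq (s : L ≃ₐ[K] L) (hs : ∀ g, g ∈ Subgroup.zpowers s)
    (β : groupCohomology (unitsRep L (L ≃ₐ[K] L)) 2) :
    ∃ x : Kˣ, symbolClass K L s hs x = β := by
  obtain ⟨a, ha⟩ := exists_scalarClass_carry_eq (unitsRep L (L ≃ₐ[K] L)) s hs β
  obtain ⟨x, hx⟩ := exists_baseUnit_eq K L a
  exact ⟨x, by rw [symbolClass, hx, ha]⟩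

end AllClasses

section Final

variable (T : ∀ q : Nat.Primes, LocalInvTheory (pv q))
variable (K : Type) [Field K] [NumberField K] (M : Type) [Field M] [NumberField M] [Algebra K M]
  (m : ℕ) [NeZero m] [IsCyclotomicExtension {m} K M] (hirr : Irreducible (Polynomial.cyclotomic m K))
  (L₁ : IntermediateField K M) [IsGalois K L₁]

include hirr in
/-- **(O2a)** The sum formula on a cyclic cyclotomic layer of odd degree: a class of
`H²(Gal(L₁/K), L₁ˣ)` whose local components above the primes dividing `m` vanish has global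
invariant zero. -/
theorem cyclo_hO2a (hcyc : IsCyclic (L₁ ≃ₐ[K] L₁)) (hodd : Odd (Nat.card (L₁ ≃ₐ[K] L₁)))
    (β : groupCohomology (unitsRep L₁ (L₁ ≃ₐ[K] L₁)) 2)
    (hβ : ∀ q : Nat.Primes, pv q ∣ m → ∀ mm : MaximalSpectrum (LocAlg L₁ q),
      locComp L₁ (L₁ ≃ₐ[K] L₁) q mm 2 (principalClass L₁ (L₁ ≃ₐ[K] L₁) β) = 0) :
    globalInv T L₁ (L₁ ≃ₐ[K] L₁) (principalClass L₁ (L₁ ≃ₐ[K] L₁) β) = 0 := by
  obtain ⟨s, hs⟩ := hcyc.exists_generator
  obtain ⟨x, rfl⟩ := exists_symbolClass_eq K L₁ s hs β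
  exact globalInv_symbolIdeleClass_eq_zero' T K M m hirr L₁ hodd s hs x hβ

include hirr in
/-- `cyclo_hO2a` with the degree instead of the order of the Galois group. -/
theorem cyclo_hO2a_finrank (hcyc : IsCyclic (L₁ ≃ₐ[K] L₁)) (hodd : Odd (Module.finrank K L₁))
    (β : groupCohomology (unitsRep L₁ (L₁ ≃ₐ[K] L₁)) 2)
    (hβ : ∀ q : Nat.Primes, pv q ∣ m → ∀ mm : MaximalSpectrum (LocAlg L₁ q),
      locComp L₁ (L₁ ≃ₐ[K] L₁) q mm 2 (principalClass L₁ (L₁ ≃ₐ[K] L₁) β) = 0) :
    globalInv T L₁ (L₁ ≃ₐ[K] L₁) (principalClass L₁ (L₁ ≃ₐ[K] L₁) β) = 0 := by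
  refine cyclo_hO2a T K M m hirr L₁ hcyc ?_ β hβ
  rw [IsGalois.card_aut_eq_finrank]
  exact hodd

end Final

end Fermat.Agent.Lib.CFT.Global.ClassFormation.CycloSymbol
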