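import Fermat.Agent.Lib.CFT.Global.ArtinCyclotomicNorm

/-!
# Reciprocity for symbols on cyclic cyclotomic layers, idele part (P-CFT (GI-5), helper93)

Pure idele theory, no cohomology.  For a number field `K`, a modulus `m`, `M = K(ζ_m)` and an
intermediate field `L` of `M / K` of odd degree over `K`, and an idele `a` of `K` on which the
cyclotomic Artin map vanishes (e.g. a principal idele), we split
`a = finPart S a * finPart Sᶜ a * archPart a` with `S = {q | q ∣ m}` and show

* `omega_archPart_sq`: the archimedean part has order at most `2` under `omega`;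
* `finPart_eq_ideleNorm`: if every component of `a` at the primes of a finite set `S` is, viewed in
  `ℚ_q ⊗ L`, the product of the conjugates of some unit `y q`, then `finPart S a` is an idele norm
  from `L`;
* `artinCyc_goodPart_eq_one`: under these assumptions the Artin map of `L / K` kills the part of `a`
  away from `m`;
* `omega_goodPart`: the explicit formula `omega (finPart Sᶜ a) = ∏_{q ∤ m} (q mod m)^{v_q(N a_q)}`.
-/

set_option autoImplicit false

namespace Fermat.Agent.Lib.CFT.Global.ClassFormation.CycloSymbol

open Fermat.Agent.Lib.CFT.Global Fermat.Agent.Lib.CFT.Global.ArtinCyc Polynomial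

section Parts

variable (K : Type) [Field K] [NumberField K]

open Classical in
/-- The idele with the components of `a` at the primes in `S`, and `1` at the other primes and at
infinity. -/
noncomputable def finPart (S : Set Nat.Primes) : Idele K →* Idele K where
  toFun a := ⟨(fun q => if q ∈ S then (a : IdeleProd K).1 q else 1, 1), by
    refine a.2.subset ?_
    intro q hq h
    apply hq
    show (if q ∈ S then (a : IdeleProd K).1 q else 1) ∈ locIntUnits K q
    split_ifs
    · exact h
    · exact one_mem _⟩
  map_one' := by
    apply Subtype.ext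
    ext : 1
    · funext q
      show (if q ∈ S then (1 : (LocAlg K q)ˣ) else 1) = 1
      split_ifs <;> rfl
    · rfl
  map_mul' a b := by
    apply Subtype.ext
    ext : 1
    · funext q
      show (if q ∈ S then (a : IdeleProd K).1 q * (b : IdeleProd K).1 q else 1) =
        (if q ∈ S then (a : IdeleProd K).1 q else 1) * (if q ∈ S then (b : IdeleProd K).1 q else 1)
      split_ifs
      · rfl
      · rw [one_mul]
    · show (1 : (ArchAlg K)ˣ) = 1 * 1
      rw [one_mul]

/-- The idele with the archimedean component of `a` and `1` at all primes. -/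
noncomputable def archPart : Idele K →* Idele K where
  toFun a := ⟨(fun _ => 1, (a : IdeleProd K).2), by
    have : {q : Nat.Primes | (1 : (LocAlg K q)ˣ) ∉ locIntUnits K q} = ∅ := by
      ext q; simp [one_mem]
    show {q : Nat.Primes | (1 : (LocAlg K q)ˣ) ∉ locIntUnits K q}.Finite
    rw [this]
    exact Set.finite_empty⟩
  map_one' := rfl
  map_mul' a b := by
    apply Subtype.ext
    ext : 1
    · funext q
      show (1 : (LocAlg K q)ˣ) = 1 * 1
      rw [one_mul]
    · rfl

variable {K}

lemma finPart_fst_of_mem {S : Set Nat.Primes} (a : Idele K) {q : Nat.Primes} (hq : q ∈ S) :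
    (finPart K S a : IdeleProd K).1 q = (a : IdeleProd K).1 q := by
  classical
  show (if q ∈ S then (a : IdeleProd K).1 q else 1) = _
  rw [if_pos hq]

lemma finPart_fst_of_not_mem {S : Set Nat.Primes} (a : Idele K) {q : Nat.Primes} (hq : q ∉ S) :
    (finPart K S a : IdeleProd K).1 q = 1 := by
  classical
  show (if q ∈ S then (a : IdeleProd K).1 q else 1) = _
  rw [if_neg hq]

@[simp] lemma finPart_snd (S : Set Nat.Primes) (a : Idele K) :
    (finPart K S a : IdeleProd K).2 = 1 := rfl

@[simp] lemma archPart_fst (a : Idele K) (q : Nat.Primes) :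
    (archPart K a : IdeleProd K).1 q = 1 := rfl

@[simp] lemma archPart_snd (a : Idele K) : (archPart K a : IdeleProd K).2 = (a : IdeleProd K).2 :=
  rfl

/-- An idele is the product of its part at `S`, its part away from `S` and its archimedean part. -/
theorem finPart_mul_finPart_compl_mul_archPart (S : Set Nat.Primes) (a : Idele K) :
    finPart K S a * finPart K Sᶜ a * archPart K a = a := by
  apply Subtype.ext
  ext : 1
  · funext q
    show (finPart K S a : IdeleProd K).1 q * (finPart K Sᶜ a : IdeleProd K).1 q *
      (archPart K a : IdeleProd K).1 q = (a : IdeleProd K).1 q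
    rw [archPart_fst, mul_one]
    by_cases hq : q ∈ S
    · rw [finPart_fst_of_mem a hq, finPart_fst_of_not_mem (S := Sᶜ) a (Set.notMem_compl_iff.2 hq),
        mul_one]
    · rw [finPart_fst_of_not_mem a hq, finPart_fst_of_mem a (show q ∈ Sᶜ from hq), one_mul]
  · show (1 : (ArchAlg K)ˣ) * 1 * (a : IdeleProd K).2 = (a : IdeleProd K).2
    rw [one_mul, one_mul]

end Parts

section Omega

variable (K : Type) [Field K] [NumberField K] (m : ℕ) [NeZero m]

/-- The set of primes dividing the modulus. -/
def badSet : Set Nat.Primes := {q | pv q ∣ m}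

lemma finite_badSet : (badSet m).Finite := finite_setOf_dvd (NeZero.ne m)

omit [NeZero m] in
lemma mem_badSet (q : Nat.Primes) : q ∈ badSet m ↔ pv q ∣ m := Iff.rfl

/-- The archimedean part of an idele has order at most `2` under the cyclotomic character. -/
theorem omega_archPart_sq (a : Idele K) : omega K m (archPart K a) ^ 2 = 1 := by
  rw [← map_pow, omega_eq_fsPow K m]
  · have h1 : qValFinsupp (ideleNormQ K (archPart K a ^ 2)) = 1 := by
      apply Multiplicative.toAdd.injective
      ext q
      rw [qValFinsupp_apply, ideleNormQ_fst, val_locNorm]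
      have : ((archPart K a ^ 2 : Idele K) : IdeleProd K).1 q = 1 := by
        show ((archPart K a : IdeleProd K).1 q) ^ 2 = 1
        rw [archPart_fst, one_pow]
      rw [this, Units.val_one, map_one, Padic.valuation_one]
      rfl
    rw [h1, map_one]
  · have h2 : ((archPart K a ^ 2 : Idele K) : IdeleProd K).2 = ((a : IdeleProd K).2) ^ 2 := rfl
    rw [h2, Units.val_pow_eq_pow_val, map_pow]
    have hne : Algebra.norm ℝ (((a : IdeleProd K).2 : (ArchAlg K)ˣ) : ArchAlg K) ≠ 0 :=
      (archNorm K (a : IdeleProd K).2).ne_zero
    positivity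
  · intro q _
    have : ((archPart K a ^ 2 : Idele K) : IdeleProd K).1 q = 1 := by
      show ((archPart K a : IdeleProd K).1 q) ^ 2 = 1
      rw [archPart_fst, one_pow]
    rw [this, Units.val_one, map_one, sub_self, norm_zero]
    exact norm_nonneg _

/-- Explicit formula for the cyclotomic character on the part of an idele away from the modulus. -/
theorem omega_goodPart (a : Idele K) :
    omega K m (finPart K (badSet m)ᶜ a) =
      fsPow (primeRes m) (qValFinsupp (ideleNormQ K (finPart K (badSet m)ᶜ a))) := by
  apply omega_eq_fsPow K m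
  · rw [finPart_snd, Units.val_one, map_one]
    exact one_pos
  · intro q hq
    rw [finPart_fst_of_not_mem (S := (badSet m)ᶜ) a (Set.notMem_compl_iff.2 hq), Units.val_one,
      map_one, sub_self, norm_zero]
    exact norm_nonneg _

omit [NeZero m] in
/-- The valuations of the norm of the part away from the modulus. -/
theorem toAdd_qValFinsupp_goodPart (a : Idele K) (q : Nat.Primes) :
    Multiplicative.toAdd (qValFinsupp (ideleNormQ K (finPart K (badSet m)ᶜ a))) q =
      if pv q ∣ m then 0
      else (Algebra.norm ℚ_[pv q] (((a : IdeleProd K).1 q : (LocAlg K q)ˣ) : LocAlg K q)).valuation := by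
  rw [qValFinsupp_apply, ideleNormQ_fst, val_locNorm]
  split_ifs with hq
  · rw [finPart_fst_of_not_mem (S := (badSet m)ᶜ) a (Set.notMem_compl_iff.2 hq), Units.val_one,
      map_one, Padic.valuation_one]
  · rw [finPart_fst_of_mem a (show q ∈ (badSet m)ᶜ from hq)]

end Omega

section Norm

variable (K L : Type) [Field K] [NumberField K] [Field L] [NumberField L] [Algebra K L]
  [IsGalois K L]

open Classical in
/-- If every component of `a` at the primes of the finite set `S` is, in `ℚ_q ⊗ L`, the product of
the conjugates of a unit, then the `S`-part of `a` is an idele norm from `L`. -/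
theorem finPart_eq_ideleNorm {S : Set Nat.Primes} (hS : S.Finite) (a : Idele K)
    (y : ∀ q : Nat.Primes, (LocAlg L q)ˣ)
    (hy : ∀ q ∈ S, ∏ g : L ≃ₐ[K] L, g • y q =
      locUnitsMap (algebraMap K L) q ((a : IdeleProd K).1 q)) :
    ∃ b : Idele L, ideleNorm K L b = finPart K S a := by
  have hb : ((fun q => if q ∈ S then y q else 1, 1) : IdeleProd L) ∈ ideleSubgroup L := by
    refine hS.subset ?_
    intro q hq
    by_contra h
    apply hq
    show (if q ∈ S then y q else 1) ∈ locIntUnits L q
    rw [if_neg h]
    exact one_mem _
  refine ⟨⟨_, hb⟩, ?_⟩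
  apply ideleMap_injective (algebraMap K L)
  rw [ideleMap_ideleNorm]
  apply Subtype.ext
  ext : 1
  · funext q
    rw [ideleMap_fst, Subgroup.val_finsetProd, Prod.fst_prod, Finset.prod_apply]
    by_cases hq : q ∈ S
    · rw [finPart_fst_of_mem a hq, ← hy q hq]
      refine Finset.prod_congr rfl fun g _ => ?_
      show g • (if q ∈ S then y q else 1) = g • y q
      rw [if_pos hq]
    · rw [finPart_fst_of_not_mem a hq, map_one]
      refine Finset.prod_eq_one fun g _ => ?_
      show g • (if q ∈ S then y q else 1) = 1
      rw [if_neg hq, smul_one]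
  · rw [ideleMap_snd, Subgroup.val_finsetProd, Prod.snd_prod, finPart_snd, map_one]
    refine Finset.prod_eq_one fun g _ => ?_
    show g • (1 : (ArchAlg L)ˣ) = 1
    rw [smul_one]

end Norm

section Reciprocity

variable (K : Type) [Field K] [NumberField K] (M : Type) [Field M] [NumberField M] [Algebra K M]
  (m : ℕ) [NeZero m] [IsCyclotomicExtension {m} K M] (hirr : Irreducible (cyclotomic m K))
  (L : IntermediateField K M) [IsGalois K L]

/-- **Idele reciprocity on a cyclotomic layer of odd degree.**  Let `a` be an idele of `K` killed by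
the Artin map of `L / K` (for instance a principal idele), such that every component of `a` at a
prime dividing `m` is a product of conjugates of a unit of `ℚ_q ⊗ L`.  Then the Artin map kills the
part of `a` away from `m`. -/
theorem artinCyc_goodPart_eq_one (hodd : Odd (Nat.card (L ≃ₐ[K] L))) (a : Idele K)
    (ha : artinCyc K M m hirr L a = 1)
    (y : ∀ q : Nat.Primes, (LocAlg L q)ˣ)
    (hy : ∀ q : Nat.Primes, pv q ∣ m → ∏ g : L ≃ₐ[K] L, g • y q =
      locUnitsMap (algebraMap K L) q ((a : IdeleProd K).1 q)) :
    artinCyc K M m hirr L (finPart K (badSet m)ᶜ a) = 1 := by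
  obtain ⟨b, hb⟩ := finPart_eq_ideleNorm K L (finite_badSet m) a y hy
  have h1 : artinCyc K M m hirr L (finPart K (badSet m) a) = 1 := by
    rw [← hb]
    exact artinCyc_ideleNorm K M m hirr L b
  have h2 : artinCyc K M m hirr L (archPart K a) ^ 2 = 1 := by
    have : artinCycTop K M m hirr (archPart K a) ^ 2 = 1 := by
      apply (IsCyclotomicExtension.autEquivPow M hirr).injective
      rw [map_pow, autEquivPow_artinCycTop, map_one]
      exact omega_archPart_sq K m a
    rw [artinCyc_apply, ← map_pow, this, map_one]
  have h3 : artinCyc K M m hirr L (archPart K a) = 1 := by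
    have hcard : artinCyc K M m hirr L (archPart K a) ^ Nat.card (L ≃ₐ[K] L) = 1 :=
      pow_card_eq_one'
    obtain ⟨k, hk⟩ := hodd
    rw [hk, pow_succ, pow_mul, h2, one_pow, one_mul] at hcard
    exact hcard
  have h4 := congrArg (artinCyc K M m hirr L)
    (finPart_mul_finPart_compl_mul_archPart (badSet m) a)
  rw [map_mul, map_mul, h1, h3, one_mul, mul_one, ha] at h4
  exact h4

end Reciprocity

end Fermat.Agent.Lib.CFT.Global.ClassFormation.CycloSymbol
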