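import Fermat.Agent.Lib.CFT.Global.ClassFormation.Carry
import Fermat.Agent.Lib.CFT.Global.ClassFormation.CycloSymbolIdele
import Fermat.Agent.Lib.CFT.Global.LocalComponents
import Fermat.Agent.Lib.CFT.Global.Places.LocAlgDecomp

/-!
# From vanishing local components to norms (P-CFT (GI-5), helper93)

For a number field `L` with an action of a finite cyclic group `G = ⟨s⟩` and a `G`-invariant unit
`a` of `L`, let `β = [carry • a] ∈ H²(G, Lˣ)` (the symbol `a ∪ δχ_s`).  If the local components at
all primes of `L` above the rational prime `q` of the image of `β` in `H²(G, J_L)` vanish, then `a`,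
viewed in `ℚ_q ⊗ L`, is the product of the `G`-conjugates of a unit of `ℚ_q ⊗ L`
(`exists_prod_smul_eq_of_locComp_eq_zero`).

Proof: semi-local Shapiro (`EtaleAlg.bijective_unitsProj`) shows that the image of `β` in
`H²(G, (ℚ_q ⊗ L)ˣ)` vanishes; this image is again a carry class, and a carry class of a cyclic group
vanishes iff the element is a norm.
-/

set_option autoImplicit false
set_option linter.unusedSectionVars false

namespace Fermat.Agent.Lib.CFT.Global.ClassFormation.CycloSymbol

open CategoryTheory groupCohomology Rep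
open Fermat.Agent.Lib.CFT.Global Fermat.Agent.Lib.CFT.Global.EtaleAlg

open scoped Pointwise

attribute [local instance] Units.mulDistribMulActionRight

section Injective

variable (L : Type) [Field L] [NumberField L]
variable (G : Type) [Group G] [Finite G] [MulSemiringAction G L]

/-- Joint injectivity of the local projections on `Hⁿ(G, (ℚ_q ⊗ L)ˣ)`. -/
theorem eq_zero_of_forall_unitsProj (q : Nat.Primes) (n : ℕ)
    (γ : groupCohomology (Rep.ofMulDistribMulAction G (LocAlg L q)ˣ) n)
    (h : ∀ m : MaximalSpectrum (LocAlg L q), unitsProj G m n γ = 0) : γ = 0 := by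
  classical
  let _ : Fintype (MulAction.orbitRel.Quotient G (MaximalSpectrum (LocAlg L q))) :=
    Fintype.ofFinite _
  have hb := bijective_unitsProj G (orbitRep G (LocAlg L q)) (orbitRep_cov G (LocAlg L q))
    (orbitRep_sep G (LocAlg L q)) n
  apply hb.1
  funext i
  change unitsProj G (orbitRep G (LocAlg L q) i) n γ = unitsProj G (orbitRep G (LocAlg L q) i) n 0
  rw [h, map_zero]

end Injective

section Bridge

variable (L : Type) [Field L] [NumberField L]
variable (G : Type) [Group G] [Fintype G] [MulSemiringAction G L]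

/-- The `q`-component of the principal embedding, as a morphism of representations. -/
noncomputable def principalLocAlgHom (q : Nat.Primes) :
    unitsRep L G ⟶ Rep.ofMulDistribMulAction G (LocAlg L q)ˣ :=
  principalRepHom L G ≫ ideleLocProjRep L G q

omit [Fintype G] in
lemma principalLocAlgHom_apply (q : Nat.Primes) (x : Additive Lˣ) :
    (principalLocAlgHom L G q).hom x = Additive.ofMul (locUnit L q x.toMul) := rfl

omit [Fintype G] in
/-- The local component at `m` of the image in `Hⁿ(G, J_L)` of a class of `Hⁿ(G, Lˣ)` is the local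
projection of its image in `Hⁿ(G, (ℚ_q ⊗ L)ˣ)`. -/
lemma unitsProj_map_principalLocAlgHom (q : Nat.Primes) (m : MaximalSpectrum (LocAlg L q)) (n : ℕ)
    (y : groupCohomology (unitsRep L G) n) :
    unitsProj G m n (groupCohomology.map (A := unitsRep L G) (MonoidHom.id G)
        (principalLocAlgHom L G q) n y) =
      locComp L G q m n (groupCohomology.map (A := unitsRep L G) (MonoidHom.id G)
        (principalRepHom L G) n y) := by
  have h1 : groupCohomology.map (A := unitsRep L G) (MonoidHom.id G)
        (principalLocAlgHom L G q) n ≫ unitsProj G m n =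
      groupCohomology.map (A := unitsRep L G) (MonoidHom.id G) (principalRepHom L G) n ≫
        locComp L G q m n := by
    rw [locComp, unitsProj, ← groupCohomology.map_comp, ← groupCohomology.map_comp]
    exact groupCohomology.map_congr rfl rfl n
  exact ConcreteCategory.congr_hom h1 y

variable (s : G) (hs : ∀ x, x ∈ Subgroup.zpowers s)

/-- **Bridge**: if all local components above `q` of the image in `H²(G, J_L)` of the symbol
`[carry • a]` vanish, then `a` is a product of conjugates in `(ℚ_q ⊗ L)ˣ`. -/
theorem exists_prod_smul_eq_of_locComp_eq_zero (a : (unitsRep L G).ρ.invariants) (q : Nat.Primes)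
    (h : ∀ m : MaximalSpectrum (LocAlg L q),
      locComp L G q m 2 (groupCohomology.map (A := unitsRep L G) (MonoidHom.id G)
        (principalRepHom L G) 2
        (scalarClass (unitsRep L G) (isScalarCocycle_carry ℤ s hs) a)) = 0) :
    ∃ y : (LocAlg L q)ˣ, ∏ g : G, g • y = locUnit L q (Additive.toMul a.1) := by
  set B : Rep ℤ G := Rep.ofMulDistribMulAction G (LocAlg L q)ˣ with hB
  have hinv : (principalLocAlgHom L G q).hom a.1 ∈ B.ρ.invariants := by
    intro g
    rw [← Rep.hom_comm_apply, a.2 g]
  set b : B.ρ.invariants := ⟨(principalLocAlgHom L G q).hom a.1, hinv⟩ with hb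
  set β := scalarClass (unitsRep L G) (isScalarCocycle_carry ℤ s hs) a with hβ
  have h1 : groupCohomology.map (A := unitsRep L G) (MonoidHom.id G)
      (principalLocAlgHom L G q) 2 β =
      scalarClass B (isScalarCocycle_carry ℤ s hs) b := by
    rw [hβ, map_scalarClass (MonoidHom.id G) (principalLocAlgHom L G q)
      (isScalarCocycle_carry ℤ s hs) a b rfl]
  have h2 : scalarClass B (isScalarCocycle_carry ℤ s hs) b = 0 := by
    rw [← h1]
    refine eq_zero_of_forall_unitsProj L G q 2 _ (fun m => ?_)
    rw [unitsProj_map_principalLocAlgHom]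
    exact h m
  obtain ⟨t, ht⟩ := (scalarClass_carry_eq_zero_iff B s hs b).1 h2
  let t' : Additive (LocAlg L q)ˣ := t
  refine ⟨Additive.toMul t', ?_⟩
  have h3 : B.ρ.norm t = Additive.ofMul (∏ g : G, g • Additive.toMul t') := by
    rw [Representation.norm, LinearMap.sum_apply, ofMul_prod]
    rfl
  rw [h3] at ht
  exact Additive.ofMul.injective ht

end Bridge

section Galois

variable (K L : Type) [Field K] [NumberField K] [Field L] [NumberField L] [Algebra K L]

/-- An element of `Kˣ` as a Galois-invariant element of `Lˣ`. -/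
def baseUnit (x : Kˣ) : (unitsRep L (L ≃ₐ[K] L)).ρ.invariants :=
  ⟨Additive.ofMul (Units.map (algebraMap K L : K →* L) x), fun g => by
    apply congrArg Additive.ofMul
    apply Units.ext
    exact g.commutes (x : K)⟩

lemma baseUnit_val (x : Kˣ) :
    (baseUnit K L x).1 = Additive.ofMul (Units.map (algebraMap K L : K →* L) x) := rfl

/-- The symbol `x ∪ δχ_s ∈ H²(Gal(L/K), Lˣ)` of `x ∈ Kˣ`, for a generator `s` of the cyclic group
`Gal(L/K)`. -/
noncomputable def symbolClass [FiniteDimensional K L] (s : L ≃ₐ[K] L)
    (hs : ∀ g, g ∈ Subgroup.zpowers s) (x : Kˣ) : H2 (unitsRep L (L ≃ₐ[K] L)) :=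
  scalarClass (unitsRep L (L ≃ₐ[K] L)) (isScalarCocycle_carry ℤ s hs) (baseUnit K L x)

/-- The image of the symbol in `H²(Gal(L/K), J_L)`. -/
noncomputable def symbolIdeleClass [FiniteDimensional K L] (s : L ≃ₐ[K] L)
    (hs : ∀ g, g ∈ Subgroup.zpowers s) (x : Kˣ) :
    groupCohomology (ideleRep L (L ≃ₐ[K] L)) 2 :=
  groupCohomology.map (A := unitsRep L (L ≃ₐ[K] L)) (MonoidHom.id (L ≃ₐ[K] L))
    (principalRepHom L (L ≃ₐ[K] L)) 2 (symbolClass K L s hs x)

/-- If the local components above `q` of the symbol of `x` vanish, then `x` is a product of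
conjugates in `(ℚ_q ⊗ L)ˣ`. -/
theorem exists_prod_smul_eq_locUnitsMap [FiniteDimensional K L] (s : L ≃ₐ[K] L)
    (hs : ∀ g, g ∈ Subgroup.zpowers s) (x : Kˣ) (q : Nat.Primes)
    (h : ∀ mm : MaximalSpectrum (LocAlg L q),
      locComp L (L ≃ₐ[K] L) q mm 2 (symbolIdeleClass K L s hs x) = 0) :
    ∃ y : (LocAlg L q)ˣ, ∏ g : L ≃ₐ[K] L, g • y =
      locUnitsMap (algebraMap K L) q (locUnit K q x) := by
  obtain ⟨y, hy⟩ := exists_prod_smul_eq_of_locComp_eq_zero L (L ≃ₐ[K] L) s hs (baseUnit K L x) q h
  refine ⟨y, ?_⟩
  rw [hy, locUnitsMap_locUnit]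
  rfl

end Galois

section Reciprocity

variable (K : Type) [Field K] [NumberField K] (M : Type) [Field M] [NumberField M] [Algebra K M]
  (m : ℕ) [NeZero m] [IsCyclotomicExtension {m} K M] (hirr : Irreducible (Polynomial.cyclotomic m K))
  (L : IntermediateField K M) [IsGalois K L]

/-- **Reciprocity for symbols, Artin-map form.**  Let `L / K` be a cyclic layer of odd degree inside
`K(ζ_m) / K` with generator `s`, and `x ∈ Kˣ`.  If the local components of the symbol `x ∪ δχ_s`
vanish at all primes above the primes dividing `m`, then the Artin map of `L / K` kills the idele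
with components `x` at the primes not dividing `m` and `1` elsewhere. -/
theorem artinCyc_goodPart_principal_eq_one (hodd : Odd (Nat.card (L ≃ₐ[K] L)))
    (s : L ≃ₐ[K] L) (hs : ∀ g, g ∈ Subgroup.zpowers s) (x : Kˣ)
    (hbad : ∀ q : Nat.Primes, pv q ∣ m → ∀ mm : MaximalSpectrum (LocAlg L q),
      locComp L (L ≃ₐ[K] L) q mm 2 (symbolIdeleClass K L s hs x) = 0) :
    ArtinCyc.artinCyc K M m hirr L (finPart K (badSet m)ᶜ (principal K x)) = 1 := by
  classical
  have hex : ∀ q : Nat.Primes, pv q ∣ m → ∃ y : (LocAlg L q)ˣ, ∏ g : L ≃ₐ[K] L, g • y =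
      locUnitsMap (algebraMap K L) q (locUnit K q x) :=
    fun q hq => exists_prod_smul_eq_locUnitsMap K L s hs x q (hbad q hq)
  refine artinCyc_goodPart_eq_one K M m hirr L hodd (principal K x)
    (ArtinCyc.artinCyc_principal K M m hirr L x)
    (fun q => if hq : pv q ∣ m then (hex q hq).choose else 1) (fun q hq => ?_)
  rw [dif_pos hq]
  exact (hex q hq).choose_spec

end Reciprocity

end Fermat.Agent.Lib.CFT.Global.ClassFormation.CycloSymbol
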