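/-
helper70 (P-CFT, (GI-5) part (C): the Frobenius / valuation dictionary for the cyclotomic Artin
map at the primes not dividing `m₀`).

Setting: `K` a number field, `M₀ = K(ζ_{m₀})` with `Φ_{m₀}` irreducible over `K`, `L₁` a Galois
intermediate field.

* `absNorm_eq_pow_padicValNat`, `padicValNat_absNorm_eq_zero` : absolute norms of primes;
* `resDeg K q v`, `absNorm_eq_pow_resDeg` : residue degrees of the primes above `q`;
* `padicValNat_absNorm_eq_sum`, `padicValRat_norm_eq_sum` :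
  `v_q(N_{K/ℚ} x) = ∑_{v ∣ q} f_v · ord_v(x)`;
* `absNormUnit K m₀ v : (ZMod m₀)ˣ`, `frobCycTop`, `frobCyc K M₀ m₀ hirr L₁ v : Gal(L₁/K)` :
  the Frobenius at `v ∌ m₀`; `isArithFrobAt_frobCycTop`, `isArithFrobAt_frobCyc` : it IS an
  arithmetic Frobenius at every prime above `v`; `artinCyc_eq_frobCyc`;
* `omega_of_support_single_locUnit`, `map_artinCyc_of_support_single(_add)` : the Artin symbol of
  the idele `x` at `q` (`1` elsewhere) is `∏_{v ∣ q} Frob_v^{ord_v x}` (in character form, the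
  Galois group not being a `CommGroup` instance);
* `omega_of_good_locUnit`, `map_artinCyc_of_good_locUnit(_add)` : the same for the whole
  prime-to-`m₀` part of a principal idele (all good primes at once).
-/
import Mathlib
import Fermat.Agent.Lib.CFT.Global.ArtinCyclotomicAbsNorm
import Fermat.Agent.Lib.CFT.Global.Places.OrdAt
import Fermat.Agent.Lib.CFT.Global.SUnitsClass
import Fermat.Agent.Lib.CFT.Unram.CycloFrob

set_option autoImplicit false
set_option linter.unusedSectionVars false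

open scoped NumberField TensorProduct

namespace Fermat.Agent.Lib.CFT.Global.ArtinCyc

open Fermat.Agent.Lib.CFT.Global Polynomial IsDedekindDomain

section NormValuation

variable (K : Type) [Field K] [NumberField K]

/-- The absolute norm of a nonzero prime `P` over the rational prime `p` is a power of `p`. -/
theorem absNorm_eq_pow_padicValNat (P : Ideal (𝓞 K)) [P.IsPrime] (hP0 : P ≠ ⊥) (p : ℕ)
    [Fact p.Prime] (hp : (p : 𝓞 K) ∈ P) :
    Ideal.absNorm P = p ^ padicValNat p (Ideal.absNorm P) := by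
  have hmax : P.IsMaximal := Ideal.IsPrime.isMaximal inferInstance hP0
  let _ := Ideal.Quotient.field P
  have hfin : Finite (𝓞 K ⧸ P) := Ideal.finiteQuotientOfFreeOfNeBot P hP0
  let _ := Fintype.ofFinite (𝓞 K ⧸ P)
  have hpp : IsPrimePow (Ideal.absNorm P) := by
    rw [Ideal.absNorm_apply, Submodule.cardQuot_apply, Nat.card_eq_fintype_card]
    exact FiniteField.isPrimePow_card (𝓞 K ⧸ P)
  obtain ⟨p', k, hp', hk, hpk⟩ := hpp
  have hp'' : p'.Prime := Nat.prime_iff.2 hp'
  have hp'P : (p' : 𝓞 K) ∈ P := by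
    have h1 : ((Ideal.absNorm P : ℕ) : 𝓞 K) ∈ P := by
      have := Ideal.absNorm_mem P
      exact_mod_cast this
    rw [← hpk] at h1
    push_cast at h1
    exact Ideal.IsPrime.mem_of_pow_mem inferInstance k h1
  have hpp' : p = p' := by
    by_contra hne
    have hcop : Nat.Coprime p p' := (Nat.coprime_primes Fact.out hp'').2 hne
    obtain ⟨a, b, hab⟩ := Nat.isCoprime_iff_coprime.2 hcop
    have h2 : ((a : ℤ) : 𝓞 K) * ((p : ℕ) : 𝓞 K) + ((b : ℤ) : 𝓞 K) * ((p' : ℕ) : 𝓞 K) = 1 := by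
      have := congrArg (fun z : ℤ => (z : 𝓞 K)) hab
      push_cast at this ⊢
      exact this
    have h3 : (1 : 𝓞 K) ∈ P := by
      rw [← h2]
      exact P.add_mem (P.mul_mem_left _ hp) (P.mul_mem_left _ hp'P)
    exact (Ideal.IsPrime.ne_top inferInstance) ((Ideal.eq_top_iff_one P).2 h3)
  subst hpp'
  rw [← hpk, padicValNat.prime_pow]

/-- The absolute norm of a nonzero prime `P` not containing the rational prime `p` is prime to
`p`. -/
theorem padicValNat_absNorm_eq_zero (P : Ideal (𝓞 K)) [P.IsPrime] (hP0 : P ≠ ⊥) (p : ℕ)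
    [Fact p.Prime] (hp : (p : 𝓞 K) ∉ P) : padicValNat p (Ideal.absNorm P) = 0 := by
  apply padicValNat.eq_zero_of_not_dvd
  intro hd
  apply hp
  have h1 : ((Ideal.absNorm P : ℕ) : 𝓞 K) ∈ P := by
    have := Ideal.absNorm_mem P
    exact_mod_cast this
  obtain ⟨c, hc⟩ := hd
  rw [hc] at h1
  push_cast at h1
  rcases Ideal.IsPrime.mem_or_mem inferInstance h1 with h | h
  · exact h
  · exfalso
    -- `c ∈ P` and `absNorm P = p * c`: then `c` is a smaller positive multiple... use primality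
    have hmax : P.IsMaximal := Ideal.IsPrime.isMaximal inferInstance hP0
    let _ := Ideal.Quotient.field P
    have hfin : Finite (𝓞 K ⧸ P) := Ideal.finiteQuotientOfFreeOfNeBot P hP0
    let _ := Fintype.ofFinite (𝓞 K ⧸ P)
    have hpp : IsPrimePow (Ideal.absNorm P) := by
      rw [Ideal.absNorm_apply, Submodule.cardQuot_apply, Nat.card_eq_fintype_card]
      exact FiniteField.isPrimePow_card (𝓞 K ⧸ P)
    obtain ⟨p', k, hp', hk, hpk⟩ := hpp
    have hp'' : p'.Prime := Nat.prime_iff.2 hp'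
    have hdvd : p ∣ p' ^ k := by rw [hpk, hc]; exact dvd_mul_right _ _
    have hpp' : p = p' := (Nat.prime_dvd_prime_iff_eq Fact.out hp'').1
      ((Fact.out : p.Prime).dvd_of_dvd_pow hdvd)
    subst hpp'
    have h1' : ((Ideal.absNorm P : ℕ) : 𝓞 K) ∈ P := by
      have := Ideal.absNorm_mem P
      exact_mod_cast this
    rw [← hpk] at h1'
    push_cast at h1'
    exact hp (Ideal.IsPrime.mem_of_pow_mem inferInstance k h1')

end NormValuation

section SumFormula

variable (K : Type) [Field K] [NumberField K] (q : Nat.Primes)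

/-- The residue degree of a prime `v` of `K` over the rational prime `q`. -/
noncomputable def resDeg (v : Places.PrimesOver K q) : ℕ :=
  padicValNat (pv q) (Ideal.absNorm v.1.asIdeal)

theorem absNorm_eq_pow_resDeg (v : Places.PrimesOver K q) :
    Ideal.absNorm v.1.asIdeal = pv q ^ resDeg K q v :=
  absNorm_eq_pow_padicValNat K v.1.asIdeal v.1.ne_bot (pv q) v.2

theorem multiplicity_asIdeal_prime (v : HeightOneSpectrum (𝓞 K)) (P : Ideal (𝓞 K)) (hP : Prime P) :
    multiplicity v.asIdeal P = if v.asIdeal = P then 1 else 0 := by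
  split_ifs with h
  · rw [h, multiplicity_self]
  · rw [multiplicity_eq_zero, Ideal.dvd_iff_le]
    intro hle
    apply h
    have hP0 : P ≠ ⊥ := hP.ne_zero
    have : P.IsPrime := (Ideal.prime_iff_isPrime hP0).1 hP
    have hmax : P.IsMaximal := Ideal.IsPrime.isMaximal inferInstance hP0
    exact (hmax.eq_of_le v.isPrime.ne_top hle).symm

/-- The `q`-adic valuation of the absolute norm of a nonzero ideal. -/
theorem padicValNat_absNorm_eq_sum (I : Ideal (𝓞 K)) (hI : I ≠ ⊥) :
    padicValNat (pv q) (Ideal.absNorm I) =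
      ∑ v : Places.PrimesOver K q, resDeg K q v * multiplicity v.1.asIdeal I := by
  classical
  induction I using UniqueFactorizationMonoid.induction_on_prime with
  | h₁ => exact absurd rfl hI
  | h₂ I hI' =>
    rw [Ideal.isUnit_iff] at hI'
    rw [hI', Ideal.absNorm_top, padicValNat_one_right]
    symm
    apply Finset.sum_eq_zero
    intro v _
    have : multiplicity v.1.asIdeal (⊤ : Ideal (𝓞 K)) = 0 := by
      rw [multiplicity_eq_zero, Ideal.dvd_iff_le, top_le_iff]
      exact v.1.isPrime.ne_top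
    rw [this, mul_zero]
  | h₃ I P hI0 hP ih =>
    have hP0 : P ≠ ⊥ := hP.ne_zero
    have hPprime : P.IsPrime := (Ideal.prime_iff_isPrime hP0).1 hP
    have h1 : Ideal.absNorm P ≠ 0 := by rw [Ne, Ideal.absNorm_eq_zero_iff]; exact hP0
    have h2 : Ideal.absNorm I ≠ 0 := by rw [Ne, Ideal.absNorm_eq_zero_iff]; exact hI0
    have hmul : ∀ v : Places.PrimesOver K q, multiplicity v.1.asIdeal (P * I) =
        multiplicity v.1.asIdeal P + multiplicity v.1.asIdeal I := by
      intro v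
      apply multiplicity_mul v.1.prime
      apply FiniteMultiplicity.of_not_isUnit v.1.prime.not_isUnit
      exact mul_ne_zero hP0 hI0
    rw [map_mul, padicValNat.mul h1 h2, ih hI0]
    simp only [hmul, mul_add, Finset.sum_add_distrib]
    congr 1
    simp only [multiplicity_asIdeal_prime K _ P hP]
    by_cases hq : ((pv q : ℕ) : 𝓞 K) ∈ P
    · set v₀ : Places.PrimesOver K q := ⟨⟨P, hPprime, hP0⟩, hq⟩ with hv₀
      rw [Finset.sum_eq_single v₀]
      · rw [if_pos rfl, mul_one]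
        rfl
      · intro v _ hv
        rw [if_neg, mul_zero]
        intro h
        apply hv
        apply Subtype.ext
        apply HeightOneSpectrum.ext
        exact h
      · intro h
        exact absurd (Finset.mem_univ _) h
    · rw [padicValNat_absNorm_eq_zero K P hP0 (pv q) hq]
      symm
      apply Finset.sum_eq_zero
      intro v _
      rw [if_neg, mul_zero]
      intro h
      apply hq
      rw [← h]
      exact v.2

/-- The `q`-adic valuation of the norm of a nonzero algebraic integer. -/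
theorem padicValRat_norm_eq_sum_of_integer (a : 𝓞 K) (ha : (a : K) ≠ 0) :
    padicValRat (pv q) (Algebra.norm ℚ (a : K)) =
      ∑ v : Places.PrimesOver K q, (resDeg K q v : ℤ) * SUnits.ordAt v.1 (Units.mk0 (a : K) ha) := by
  have ha0 : a ≠ 0 := by rintro rfl; simp at ha
  have h1 : Algebra.norm ℚ (a : K) = ((Algebra.norm ℤ a : ℤ) : ℚ) := (Algebra.coe_norm_int a).symm
  rw [h1, padicValRat.of_int, padicValInt, ← Ideal.absNorm_span_singleton,
    padicValNat_absNorm_eq_sum K q _ (by rw [Ne, Ideal.span_singleton_eq_bot]; exact ha0)]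
  push_cast
  refine Finset.sum_congr rfl fun v _ => ?_
  rw [SUnits.ordAt_mk0_eq_multiplicity]

/-- **The `q`-adic valuation of the norm** of a nonzero element of `K` is the sum over the primes
`v` of `K` above `q` of `f_v · ord_v(x)`. -/
theorem padicValRat_norm_eq_sum (x : Kˣ) :
    padicValRat (pv q) (Algebra.norm ℚ (x : K)) =
      ∑ v : Places.PrimesOver K q, (resDeg K q v : ℤ) * SUnits.ordAt v.1 x := by
  obtain ⟨a, b, hb, hab⟩ : ∃ a b : 𝓞 K, b ≠ 0 ∧ (x : K) = (a : K) / (b : K) := by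
    obtain ⟨⟨a, b⟩, h⟩ := IsLocalization.surj (nonZeroDivisors (𝓞 K)) (x : K)
    refine ⟨a, b, nonZeroDivisors.ne_zero b.2, ?_⟩
    have hb0 : ((b : 𝓞 K) : K) ≠ 0 := by simp
    rw [eq_div_iff hb0]
    simpa using h
  have hb0 : ((b : 𝓞 K) : K) ≠ 0 := by simpa using hb
  have ha0 : ((a : 𝓞 K) : K) ≠ 0 := by
    intro h0
    rw [h0, zero_div] at hab
    exact x.ne_zero hab
  have hxb : x * Units.mk0 (b : K) hb0 = Units.mk0 (a : K) ha0 := by
    apply Units.ext
    rw [Units.val_mul, Units.val_mk0, Units.val_mk0, hab, div_mul_cancel₀ _ hb0]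
  have hNb : Algebra.norm ℚ (b : K) ≠ 0 := by rw [Ne, Algebra.norm_eq_zero_iff]; exact hb0
  have hNx : Algebra.norm ℚ (x : K) ≠ 0 := by rw [Ne, Algebra.norm_eq_zero_iff]; exact x.ne_zero
  have hmul : Algebra.norm ℚ (x : K) * Algebra.norm ℚ (b : K) = Algebra.norm ℚ (a : K) := by
    rw [← map_mul, hab, div_mul_cancel₀ _ hb0]
  have h1 := padicValRat_norm_eq_sum_of_integer K q a ha0
  have h2 := padicValRat_norm_eq_sum_of_integer K q b hb0
  rw [← hmul, padicValRat.mul hNx hNb, h2] at h1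
  have h3 : ∑ v : Places.PrimesOver K q, (resDeg K q v : ℤ) *
      SUnits.ordAt v.1 (Units.mk0 (a : K) ha0) =
      ∑ v : Places.PrimesOver K q, (resDeg K q v : ℤ) * SUnits.ordAt v.1 x +
      ∑ v : Places.PrimesOver K q, (resDeg K q v : ℤ) *
        SUnits.ordAt v.1 (Units.mk0 (b : K) hb0) := by
    rw [← Finset.sum_add_distrib]
    refine Finset.sum_congr rfl fun v _ => ?_
    rw [← hxb, SUnits.ordAt_mul, mul_add]
  rw [h3] at h1
  linarith

end SumFormula

section FrobCyc

variable (K : Type) [Field K] [NumberField K] (M₀ : Type) [Field M₀] [NumberField M₀] [Algebra K M₀]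
  (m₀ : ℕ) [NeZero m₀] [IsCyclotomicExtension {m₀} K M₀] (hirr : Irreducible (cyclotomic m₀ K))

/-- The class modulo `m₀` of the absolute norm of a prime `v ∌ m₀` of `K`, as a unit (junk value
`1` if it is not a unit). -/
noncomputable def absNormUnit (v : HeightOneSpectrum (𝓞 K)) : (ZMod m₀)ˣ :=
  if h : IsUnit ((Ideal.absNorm v.asIdeal : ℕ) : ZMod m₀) then h.unit else 1

theorem coe_absNormUnit (v : HeightOneSpectrum (𝓞 K)) (hv : (m₀ : 𝓞 K) ∉ v.asIdeal) :
    ((absNormUnit K m₀ v : (ZMod m₀)ˣ) : ZMod m₀) = (Ideal.absNorm v.asIdeal : ZMod m₀) := by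
  have := v.isPrime
  obtain ⟨a, ha⟩ := exists_omega_eq_absNorm K m₀ v.asIdeal v.ne_bot hv
  have hu : IsUnit ((Ideal.absNorm v.asIdeal : ℕ) : ZMod m₀) := by
    rw [← ha]; exact Units.isUnit _
  rw [absNormUnit, dif_pos hu]
  rfl

/-- The Frobenius automorphism of `K(ζ_{m₀})/K` at a prime `v ∌ m₀` of `K`: it raises the roots of
unity to the power `N(v)`. -/
noncomputable def frobCycTop (v : HeightOneSpectrum (𝓞 K)) : Gal(M₀/K) :=
  (IsCyclotomicExtension.autEquivPow M₀ hirr).symm (absNormUnit K m₀ v)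

theorem frobCycTop_apply_of_pow_eq_one (v : HeightOneSpectrum (𝓞 K))
    (hv : (m₀ : 𝓞 K) ∉ v.asIdeal) {ζ : M₀} (hζ : ζ ^ m₀ = 1) :
    frobCycTop K M₀ m₀ hirr v ζ = ζ ^ Ideal.absNorm v.asIdeal := by
  rw [CyclotomicAux.autEquivPow_spec m₀ M₀ hirr _ hζ, frobCycTop, MulEquiv.apply_symm_apply,
    coe_absNormUnit K m₀ v hv, pow_val_natCast hζ]

/-- The Artin map of an idele whose cyclotomic character is `N(v) mod m₀` is the Frobenius
at `v`. -/
theorem artinCycTop_eq_frobCycTop (v : HeightOneSpectrum (𝓞 K)) (hv : (m₀ : 𝓞 K) ∉ v.asIdeal)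
    (a : Idele K)
    (h : ((omega K m₀ a : (ZMod m₀)ˣ) : ZMod m₀) = (Ideal.absNorm v.asIdeal : ZMod m₀)) :
    artinCycTop K M₀ m₀ hirr a = frobCycTop K M₀ m₀ hirr v := by
  have : omega K m₀ a = absNormUnit K m₀ v := by
    apply Units.ext
    rw [h, coe_absNormUnit K m₀ v hv]
  show (IsCyclotomicExtension.autEquivPow M₀ hirr).symm (omega K m₀ a) = _
  rw [this]
  rfl

/-- `frobCycTop v` is an arithmetic Frobenius at every prime of `K(ζ_{m₀})` above `v`. -/
theorem isArithFrobAt_frobCycTop [IsGalois K M₀] (v : HeightOneSpectrum (𝓞 K))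
    (hv : (m₀ : 𝓞 K) ∉ v.asIdeal)
    (W : Ideal (𝓞 M₀)) [W.IsPrime] (hW : W.under (𝓞 K) = v.asIdeal) :
    IsArithFrobAt (𝓞 K) (frobCycTop K M₀ m₀ hirr v) W := by
  have hW0 : W ≠ ⊥ := by
    rintro rfl
    apply v.ne_bot
    rw [← hW, Ideal.under_def,
      Ideal.comap_bot_of_injective _ (FaithfulSMul.algebraMap_injective (𝓞 K) (𝓞 M₀))]
  have hfin : Finite (𝓞 M₀ ⧸ W) := Ideal.finiteQuotientOfFreeOfNeBot W hW0
  obtain ⟨τ, hτ⟩ := IsArithFrobAt.exists_of_isInvariant (𝓞 K) Gal(M₀/K) W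
  have hmW : (m₀ : 𝓞 M₀) ∉ W := by
    intro h
    apply hv
    rw [← hW, Ideal.under_def, Ideal.mem_comap, map_natCast]
    exact h
  have hz := IsCyclotomicExtension.zeta_spec m₀ K M₀
  have hcard : Nat.card (𝓞 K ⧸ W.under (𝓞 K)) = Ideal.absNorm v.asIdeal := by
    rw [hW, Ideal.absNorm_apply, Submodule.cardQuot_apply]
  have hτeq : τ = frobCycTop K M₀ m₀ hirr v := by
    apply Unram.CycloFrob.eq_of_apply_zeta_eq hz
    rw [CyclotomicAux.apply_eq_pow_card_of_isArithFrobAt m₀ M₀ hmW hτ hz.pow_eq_one, hcard,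
      frobCycTop_apply_of_pow_eq_one K M₀ m₀ hirr v hv hz.pow_eq_one]
  rw [← hτeq]
  exact hτ

variable (L₁ : IntermediateField K M₀) [IsGalois K L₁]

/-- The Frobenius automorphism at `v ∌ m₀` of a subextension `L₁/K` of `K(ζ_{m₀})/K`. -/
noncomputable def frobCyc (v : HeightOneSpectrum (𝓞 K)) : Gal(L₁/K) :=
  AlgEquiv.restrictNormalHom L₁ (frobCycTop K M₀ m₀ hirr v)

theorem artinCyc_eq_frobCyc (v : HeightOneSpectrum (𝓞 K)) (hv : (m₀ : 𝓞 K) ∉ v.asIdeal)
    (a : Idele K)
    (h : ((omega K m₀ a : (ZMod m₀)ˣ) : ZMod m₀) = (Ideal.absNorm v.asIdeal : ZMod m₀)) :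
    artinCyc K M₀ m₀ hirr L₁ a = frobCyc K M₀ m₀ hirr L₁ v := by
  rw [artinCyc_apply, artinCycTop_eq_frobCycTop K M₀ m₀ hirr v hv a h]
  rfl

/-- `frobCyc v` is an arithmetic Frobenius at every prime of `L₁` above `v`. -/
theorem isArithFrobAt_frobCyc (v : HeightOneSpectrum (𝓞 K)) (hv : (m₀ : 𝓞 K) ∉ v.asIdeal)
    (w : Ideal (𝓞 L₁)) [w.IsPrime] (hw : w.under (𝓞 K) = v.asIdeal) :
    IsArithFrobAt (𝓞 K) (frobCyc K M₀ m₀ hirr L₁ v) w := by
  have : IsGalois K M₀ := IsCyclotomicExtension.isGalois {m₀} K M₀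
  obtain ⟨W, -, hWp, hW⟩ := Ideal.exists_ideal_over_prime_of_isIntegral w (⊥ : Ideal (𝓞 M₀))
    (by
      rw [Ideal.comap_bot_of_injective _ (FaithfulSMul.algebraMap_injective (𝓞 L₁) (𝓞 M₀))]
      exact bot_le)
  have hWv : W.under (𝓞 K) = v.asIdeal := by
    rw [← hw, ← Ideal.under_under (B := 𝓞 L₁) W]
    congr 1
  have h1 := isArithFrobAt_frobCycTop K M₀ m₀ hirr v hv W hWv
  have h2 := Unram.CycloFrob.isArithFrobAt_restrictNormalHom (E := L₁) h1
  have hWw : W.under (𝓞 L₁) = w := hW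
  rw [hWw] at h2
  exact h2

end FrobCyc

section SupportSingle

variable (K : Type) [Field K] [NumberField K] (M₀ : Type) [Field M₀] [NumberField M₀] [Algebra K M₀]
  (m₀ : ℕ) [NeZero m₀] [IsCyclotomicExtension {m₀} K M₀] (hirr : Irreducible (cyclotomic m₀ K))

theorem zpow_finset_sum {G ι : Type*} [CommGroup G] (g : G) (s : Finset ι) (f : ι → ℤ) :
    g ^ (∑ i ∈ s, f i) = ∏ i ∈ s, g ^ f i := by
  classical
  induction s using Finset.induction_on with
  | empty => simp
  | insert i s hi ih =>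
    rw [Finset.sum_insert hi, zpow_add, ih, Finset.prod_insert hi]

/-- A prime above a rational prime `q ∤ m₀` does not contain `m₀`. -/
theorem natCast_notMem_of_not_dvd (q : Nat.Primes) (hq : ¬ pv q ∣ m₀) (v : Places.PrimesOver K q) :
    (m₀ : 𝓞 K) ∉ v.1.asIdeal := by
  intro hmem
  have hcop : Nat.Coprime (pv q) m₀ := (pv_prime q).coprime_iff_not_dvd.2 hq
  obtain ⟨a, b, hab⟩ := Nat.isCoprime_iff_coprime.2 hcop
  have h2 : ((a : ℤ) : 𝓞 K) * ((pv q : ℕ) : 𝓞 K) + ((b : ℤ) : 𝓞 K) * ((m₀ : ℕ) : 𝓞 K) = 1 := by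
    have := congrArg (fun z : ℤ => (z : 𝓞 K)) hab
    push_cast at this ⊢
    exact this
  have h3 : (1 : 𝓞 K) ∈ v.1.asIdeal := by
    rw [← h2]
    exact v.1.asIdeal.add_mem (v.1.asIdeal.mul_mem_left _ v.2) (v.1.asIdeal.mul_mem_left _ hmem)
  exact v.1.isPrime.ne_top ((Ideal.eq_top_iff_one _).2 h3)

theorem absNormUnit_eq_primeRes_pow (q : Nat.Primes) (hq : ¬ pv q ∣ m₀)
    (v : Places.PrimesOver K q) :
    absNormUnit K m₀ v.1 = primeRes m₀ q ^ resDeg K q v := by
  apply Units.ext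
  rw [coe_absNormUnit K m₀ v.1 (natCast_notMem_of_not_dvd K m₀ q hq v), Units.val_pow_eq_pow_val,
    primeRes_of_not_dvd m₀ hq, absNorm_eq_pow_resDeg K q v]
  push_cast
  rfl

/-- **The cyclotomic character of the idele `x` at `q`, `1` elsewhere** (`q ∤ m₀`, `x ∈ Kˣ`) is the
product over the primes `v` of `K` above `q` of `N(v)^{ord_v x}`. -/
theorem omega_of_support_single_locUnit (q : Nat.Primes) (hq : ¬ pv q ∣ m₀) (x : Kˣ) (a : Idele K)
    (h1 : ∀ q' : Nat.Primes, q' ≠ q → a.1.1 q' = 1) (h2 : a.1.2 = 1)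
    (h3 : a.1.1 q = locUnit K q x) :
    omega K m₀ a = ∏ v : Places.PrimesOver K q, absNormUnit K m₀ v.1 ^ SUnits.ordAt v.1 x := by
  rw [omega_of_support_single K m₀ a q hq h1 h2, h3, ← val_locNorm, locNorm_locUnit,
    val_ratToPadic, val_fieldNorm, Padic.valuation_ratCast, padicValRat_norm_eq_sum K q x,
    zpow_finset_sum]
  refine Finset.prod_congr rfl fun v _ => ?_
  rw [absNormUnit_eq_primeRes_pow K m₀ q hq v, zpow_mul, zpow_natCast]

variable (L₁ : IntermediateField K M₀) [IsGalois K L₁]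

/-- **Reciprocity at an unramified prime, in character form**: for a character `χ` of `Gal(L₁/K)`
with values in a commutative group, the value of `χ` on the Artin symbol of the idele `x` at `q`
(`1` elsewhere), `q ∤ m₀`, is `∏_{v ∣ q} χ(Frob_v)^{ord_v x}`. -/
theorem map_artinCyc_of_support_single {A : Type*} [CommGroup A] (χ : Gal(L₁/K) →* A)
    (q : Nat.Primes) (hq : ¬ pv q ∣ m₀) (x : Kˣ) (a : Idele K)
    (h1 : ∀ q' : Nat.Primes, q' ≠ q → a.1.1 q' = 1) (h2 : a.1.2 = 1)
    (h3 : a.1.1 q = locUnit K q x) :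
    χ (artinCyc K M₀ m₀ hirr L₁ a) =
      ∏ v : Places.PrimesOver K q, χ (frobCyc K M₀ m₀ hirr L₁ v.1) ^ SUnits.ordAt v.1 x := by
  set φ : (ZMod m₀)ˣ →* A := (χ.comp (AlgEquiv.restrictNormalHom L₁)).comp
    (IsCyclotomicExtension.autEquivPow M₀ hirr).symm.toMonoidHom with hφ
  have h4 : χ (artinCyc K M₀ m₀ hirr L₁ a) = φ (omega K m₀ a) := rfl
  rw [h4, omega_of_support_single_locUnit K m₀ q hq x a h1 h2 h3, map_prod]
  refine Finset.prod_congr rfl fun v _ => ?_
  rw [map_zpow]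
  rfl

/-- Additive form of `map_artinCyc_of_support_single`: for an additive character `χ` of
`Gal(L₁/K)`, `χ(artinCyc a) = ∑_{v ∣ q} ord_v(x) • χ(Frob_v)`. -/
theorem map_artinCyc_of_support_single_add {A : Type*} [AddCommGroup A]
    (χ : Additive Gal(L₁/K) →+ A)
    (q : Nat.Primes) (hq : ¬ pv q ∣ m₀) (x : Kˣ) (a : Idele K)
    (h1 : ∀ q' : Nat.Primes, q' ≠ q → a.1.1 q' = 1) (h2 : a.1.2 = 1)
    (h3 : a.1.1 q = locUnit K q x) :
    χ (Additive.ofMul (artinCyc K M₀ m₀ hirr L₁ a)) =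
      ∑ v : Places.PrimesOver K q,
        SUnits.ordAt v.1 x • χ (Additive.ofMul (frobCyc K M₀ m₀ hirr L₁ v.1)) := by
  have h := map_artinCyc_of_support_single K M₀ m₀ hirr L₁ (AddMonoidHom.toMultiplicativeRight χ)
    q hq x a h1 h2 h3
  have h' := congrArg Multiplicative.toAdd h
  rw [toAdd_prod] at h'
  simp only [toAdd_zpow] at h'
  exact h'

end SupportSingle

section AllGood

variable (K : Type) [Field K] [NumberField K] (M₀ : Type) [Field M₀] [NumberField M₀] [Algebra K M₀]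
  (m₀ : ℕ) [NeZero m₀] [IsCyclotomicExtension {m₀} K M₀] (hirr : Irreducible (cyclotomic m₀ K))

/-- **The cyclotomic character of the prime-to-`m₀` part of a principal idele**: for an idele `a`
with components `x ∈ Kˣ` at the primes `q ∤ m₀`, and `1` at the primes dividing `m₀` and at
infinity, `omega K m₀ a = ∏_{q ∈ T} ∏_{v ∣ q} N(v)^{ord_v x}` for every finite set `T` of primes
not dividing `m₀` containing all the `q ∤ m₀` above which `x` is not a unit. -/
theorem omega_of_good_locUnit (x : Kˣ) (a : Idele K)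
    (hbad : ∀ q : Nat.Primes, pv q ∣ m₀ → a.1.1 q = 1) (harch : a.1.2 = 1)
    (hgood : ∀ q : Nat.Primes, ¬ pv q ∣ m₀ → a.1.1 q = locUnit K q x)
    (T : Finset Nat.Primes) (hT : ∀ q ∈ T, ¬ pv q ∣ m₀)
    (hT' : ∀ q : Nat.Primes, ¬ pv q ∣ m₀ → q ∉ T →
      ∀ v : Places.PrimesOver K q, SUnits.ordAt v.1 x = 0) :
    omega K m₀ a =
      ∏ q ∈ T, ∏ v : Places.PrimesOver K q, absNormUnit K m₀ v.1 ^ SUnits.ordAt v.1 x := by
  classical
  have hF : ∀ q : Nat.Primes, Multiplicative.toAdd (qValFinsupp (ideleNormQ K a)) q =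
      if pv q ∣ m₀ then 0 else
        ∑ v : Places.PrimesOver K q, (resDeg K q v : ℤ) * SUnits.ordAt v.1 x := by
    intro q
    rw [qValFinsupp_apply, ideleNormQ_fst, val_locNorm]
    split_ifs with h
    · rw [hbad q h, Units.val_one, map_one, Padic.valuation_one]
    · rw [hgood q h, ← val_locNorm, locNorm_locUnit, val_ratToPadic, val_fieldNorm,
        Padic.valuation_ratCast, padicValRat_norm_eq_sum K q x]
  rw [omega_eq_fsPow K m₀ a, fsPow_apply]
  · rw [Finsupp.prod_of_support_subset _ _ _ (fun q _ => zpow_zero _)]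
    · refine Finset.prod_congr rfl fun q hq => ?_
      rw [hF q, if_neg (hT q hq), zpow_finset_sum]
      refine Finset.prod_congr rfl fun v _ => ?_
      rw [absNormUnit_eq_primeRes_pow K m₀ q (hT q hq) v, zpow_mul, zpow_natCast]
    · intro q hq
      by_contra hqT
      rw [Finsupp.mem_support_iff, hF q] at hq
      apply hq
      split_ifs with h
      · rfl
      · apply Finset.sum_eq_zero
        intro v _
        rw [hT' q h hqT v, mul_zero]
  · rw [harch, Units.val_one, map_one]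
    exact one_pos
  · intro q hq
    rw [hbad q hq, Units.val_one, map_one, sub_self, norm_zero]
    exact norm_nonneg _

variable (L₁ : IntermediateField K M₀) [IsGalois K L₁]

/-- Character form of `omega_of_good_locUnit` for the Artin map of a subextension. -/
theorem map_artinCyc_of_good_locUnit {A : Type*} [CommGroup A] (χ : Gal(L₁/K) →* A)
    (x : Kˣ) (a : Idele K)
    (hbad : ∀ q : Nat.Primes, pv q ∣ m₀ → a.1.1 q = 1) (harch : a.1.2 = 1)
    (hgood : ∀ q : Nat.Primes, ¬ pv q ∣ m₀ → a.1.1 q = locUnit K q x)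
    (T : Finset Nat.Primes) (hT : ∀ q ∈ T, ¬ pv q ∣ m₀)
    (hT' : ∀ q : Nat.Primes, ¬ pv q ∣ m₀ → q ∉ T →
      ∀ v : Places.PrimesOver K q, SUnits.ordAt v.1 x = 0) :
    χ (artinCyc K M₀ m₀ hirr L₁ a) =
      ∏ q ∈ T, ∏ v : Places.PrimesOver K q,
        χ (frobCyc K M₀ m₀ hirr L₁ v.1) ^ SUnits.ordAt v.1 x := by
  set φ : (ZMod m₀)ˣ →* A := (χ.comp (AlgEquiv.restrictNormalHom L₁)).comp
    (IsCyclotomicExtension.autEquivPow M₀ hirr).symm.toMonoidHom with hφ
  have h4 : χ (artinCyc K M₀ m₀ hirr L₁ a) = φ (omega K m₀ a) := rfl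
  rw [h4, omega_of_good_locUnit K m₀ x a hbad harch hgood T hT hT', map_prod]
  refine Finset.prod_congr rfl fun q _ => ?_
  rw [map_prod]
  refine Finset.prod_congr rfl fun v _ => ?_
  rw [map_zpow]
  rfl

/-- Additive character form of `omega_of_good_locUnit`. -/
theorem map_artinCyc_of_good_locUnit_add {A : Type*} [AddCommGroup A]
    (χ : Additive Gal(L₁/K) →+ A) (x : Kˣ) (a : Idele K)
    (hbad : ∀ q : Nat.Primes, pv q ∣ m₀ → a.1.1 q = 1) (harch : a.1.2 = 1)
    (hgood : ∀ q : Nat.Primes, ¬ pv q ∣ m₀ → a.1.1 q = locUnit K q x)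
    (T : Finset Nat.Primes) (hT : ∀ q ∈ T, ¬ pv q ∣ m₀)
    (hT' : ∀ q : Nat.Primes, ¬ pv q ∣ m₀ → q ∉ T →
      ∀ v : Places.PrimesOver K q, SUnits.ordAt v.1 x = 0) :
    χ (Additive.ofMul (artinCyc K M₀ m₀ hirr L₁ a)) =
      ∑ q ∈ T, ∑ v : Places.PrimesOver K q,
        SUnits.ordAt v.1 x • χ (Additive.ofMul (frobCyc K M₀ m₀ hirr L₁ v.1)) := by
  have h := map_artinCyc_of_good_locUnit K M₀ m₀ hirr L₁ (AddMonoidHom.toMultiplicativeRight χ)
    x a hbad harch hgood T hT hT'
  have h' := congrArg Multiplicative.toAdd h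
  rw [toAdd_prod] at h'
  simp only [toAdd_prod, toAdd_zpow] at h'
  exact h'

end AllGood

end Fermat.Agent.Lib.CFT.Global.ArtinCyc
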