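/-
helper70 (P-CFT, (GI-5) part (C), complement): the finite set `goodSupport K m₀ x` of the rational
primes `q ∤ m₀` above which `x ∈ Kˣ` is not a unit, and the reciprocity formulas of
`CycloSymbolFrob.lean` summed over it (`omega_of_good_locUnit_goodSupport`,
`map_artinCyc_goodSupport`, `map_artinCyc_goodSupport_add`).
-/
import Mathlib
import Fermat.Agent.Lib.CFT.Global.ClassFormation.CycloSymbolFrob
import Fermat.Agent.Lib.CFT.Global.IdeleIdeal

set_option autoImplicit false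
set_option linter.unusedSectionVars false

open scoped NumberField TensorProduct

namespace Fermat.Agent.Lib.CFT.Global.ArtinCyc

open Fermat.Agent.Lib.CFT.Global Polynomial IsDedekindDomain

section GoodSet

variable (K : Type) [Field K] [NumberField K] (m₀ : ℕ) [NeZero m₀]

/-- The primes of `K` at which `x ∈ Kˣ` is not a unit are finitely many. -/
theorem finite_setOf_ordAt_ne_zero' (x : Kˣ) :
    {v : HeightOneSpectrum (𝓞 K) | SUnits.ordAt v x ≠ 0}.Finite := by
  have h1 := HeightOneSpectrum.Support.finite (𝓞 K) (x : K)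
  have h2 := HeightOneSpectrum.Support.finite (𝓞 K) ((x⁻¹ : Kˣ) : K)
  refine (h1.union h2).subset ?_
  intro v hv
  rw [Set.mem_ofPred_eq] at hv
  by_contra hnot
  simp only [Set.mem_union, HeightOneSpectrum.Support, Set.mem_ofPred_eq, not_or, not_lt] at hnot
  apply hv
  have h3 := (SUnits.valuation_le_one_iff_ordAt v x).1 hnot.1
  have h4 := (SUnits.valuation_le_one_iff_ordAt v x⁻¹).1 hnot.2
  rw [SUnits.ordAt_inv] at h4
  omega

/-- The finite set of the rational primes `q ∤ m₀` above which `x` is not a unit. -/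
noncomputable def goodSupport (x : Kˣ) : Finset Nat.Primes := by
  classical
  exact ((finite_setOf_ordAt_ne_zero' K x).toFinset.image (IdeleIdeal.primeBelow K)).filter
    (fun q => ¬ pv q ∣ m₀)

theorem not_dvd_of_mem_goodSupport (x : Kˣ) {q : Nat.Primes} (hq : q ∈ goodSupport K m₀ x) :
    ¬ pv q ∣ m₀ := by
  classical
  rw [goodSupport, Finset.mem_filter] at hq
  exact hq.2

theorem ordAt_eq_zero_of_notMem_goodSupport (x : Kˣ) {q : Nat.Primes} (hq : ¬ pv q ∣ m₀)
    (hqT : q ∉ goodSupport K m₀ x) (v : Places.PrimesOver K q) : SUnits.ordAt v.1 x = 0 := by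
  classical
  by_contra hne
  apply hqT
  rw [goodSupport, Finset.mem_filter, Finset.mem_image]
  refine ⟨⟨v.1, ?_, IdeleIdeal.primeBelow_eq K v.1 q v.2⟩, hq⟩
  rw [Set.Finite.mem_toFinset]
  exact hne

end GoodSet

section GoodSupportCor

variable (K : Type) [Field K] [NumberField K] (M₀ : Type) [Field M₀] [NumberField M₀] [Algebra K M₀]
  (m₀ : ℕ) [NeZero m₀] [IsCyclotomicExtension {m₀} K M₀] (hirr : Irreducible (cyclotomic m₀ K))

theorem omega_of_good_locUnit_goodSupport (x : Kˣ) (a : Idele K)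
    (hbad : ∀ q : Nat.Primes, pv q ∣ m₀ → a.1.1 q = 1) (harch : a.1.2 = 1)
    (hgood : ∀ q : Nat.Primes, ¬ pv q ∣ m₀ → a.1.1 q = locUnit K q x) :
    omega K m₀ a = ∏ q ∈ goodSupport K m₀ x, ∏ v : Places.PrimesOver K q,
      absNormUnit K m₀ v.1 ^ SUnits.ordAt v.1 x :=
  omega_of_good_locUnit K m₀ x a hbad harch hgood (goodSupport K m₀ x)
    (fun _ hq => not_dvd_of_mem_goodSupport K m₀ x hq)
    (fun _ hq hqT v => ordAt_eq_zero_of_notMem_goodSupport K m₀ x hq hqT v)

variable (L₁ : IntermediateField K M₀) [IsGalois K L₁]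

theorem map_artinCyc_goodSupport {A : Type*} [CommGroup A] (χ : Gal(L₁/K) →* A)
    (x : Kˣ) (a : Idele K)
    (hbad : ∀ q : Nat.Primes, pv q ∣ m₀ → a.1.1 q = 1) (harch : a.1.2 = 1)
    (hgood : ∀ q : Nat.Primes, ¬ pv q ∣ m₀ → a.1.1 q = locUnit K q x) :
    χ (artinCyc K M₀ m₀ hirr L₁ a) =
      ∏ q ∈ goodSupport K m₀ x, ∏ v : Places.PrimesOver K q,
        χ (frobCyc K M₀ m₀ hirr L₁ v.1) ^ SUnits.ordAt v.1 x :=
  map_artinCyc_of_good_locUnit K M₀ m₀ hirr L₁ χ x a hbad harch hgood (goodSupport K m₀ x)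
    (fun _ hq => not_dvd_of_mem_goodSupport K m₀ x hq)
    (fun _ hq hqT v => ordAt_eq_zero_of_notMem_goodSupport K m₀ x hq hqT v)

theorem map_artinCyc_goodSupport_add {A : Type*} [AddCommGroup A]
    (χ : Additive Gal(L₁/K) →+ A) (x : Kˣ) (a : Idele K)
    (hbad : ∀ q : Nat.Primes, pv q ∣ m₀ → a.1.1 q = 1) (harch : a.1.2 = 1)
    (hgood : ∀ q : Nat.Primes, ¬ pv q ∣ m₀ → a.1.1 q = locUnit K q x) :
    χ (Additive.ofMul (artinCyc K M₀ m₀ hirr L₁ a)) =
      ∑ q ∈ goodSupport K m₀ x, ∑ v : Places.PrimesOver K q,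
        SUnits.ordAt v.1 x • χ (Additive.ofMul (frobCyc K M₀ m₀ hirr L₁ v.1)) :=
  map_artinCyc_of_good_locUnit_add K M₀ m₀ hirr L₁ χ x a hbad harch hgood (goodSupport K m₀ x)
    (fun _ hq => not_dvd_of_mem_goodSupport K m₀ x hq)
    (fun _ hq hqT v => ordAt_eq_zero_of_notMem_goodSupport K m₀ x hq hqT v)

end GoodSupportCor

end Fermat.Agent.Lib.CFT.Global.ArtinCyc
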