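/-
helper70 (P-CFT, (GI-5) part (C4) in the terms of helper93's `CycloSymbolIdele.lean`): the Artin
symbol of the prime-to-`m₀` part `finPart K (badSet m₀)ᶜ (principal K x)` of a principal idele is
`∏_{q ∈ goodSupport} ∏_{v ∣ q} Frob_v^{ord_v x}` (`omega_goodPart_principal`,
`map_artinCyc_goodPart_principal`, `map_artinCyc_goodPart_principal_add`).
-/
import Mathlib
import Fermat.Agent.Lib.CFT.Global.ClassFormation.CycloSymbolFrobSupp
import Fermat.Agent.Lib.CFT.Global.ClassFormation.CycloSymbolIdele

set_option autoImplicit false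
set_option linter.unusedSectionVars false

open scoped NumberField TensorProduct

namespace Fermat.Agent.Lib.CFT.Global.ArtinCyc

open Fermat.Agent.Lib.CFT.Global Polynomial IsDedekindDomain
open Fermat.Agent.Lib.CFT.Global.ClassFormation.CycloSymbol

section GoodPart

variable (K : Type) [Field K] [NumberField K] (M₀ : Type) [Field M₀] [NumberField M₀] [Algebra K M₀]
  (m₀ : ℕ) [NeZero m₀] [IsCyclotomicExtension {m₀} K M₀] (hirr : Irreducible (cyclotomic m₀ K))

theorem omega_goodPart_principal (x : Kˣ) :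
    omega K m₀ (finPart K (badSet m₀)ᶜ (principal K x)) =
      ∏ q ∈ goodSupport K m₀ x, ∏ v : Places.PrimesOver K q,
        absNormUnit K m₀ v.1 ^ SUnits.ordAt v.1 x := by
  apply omega_of_good_locUnit_goodSupport
  · intro q hq
    rw [finPart_fst_of_not_mem]
    simpa [mem_badSet] using hq
  · exact finPart_snd _ _
  · intro q hq
    rw [finPart_fst_of_mem]
    · rfl
    · simpa [mem_badSet] using hq

variable (L₁ : IntermediateField K M₀) [IsGalois K L₁]

theorem map_artinCyc_goodPart_principal {A : Type*} [CommGroup A] (χ : Gal(L₁/K) →* A)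
    (x : Kˣ) :
    χ (artinCyc K M₀ m₀ hirr L₁ (finPart K (badSet m₀)ᶜ (principal K x))) =
      ∏ q ∈ goodSupport K m₀ x, ∏ v : Places.PrimesOver K q,
        χ (frobCyc K M₀ m₀ hirr L₁ v.1) ^ SUnits.ordAt v.1 x := by
  apply map_artinCyc_goodSupport
  · intro q hq
    rw [finPart_fst_of_not_mem]
    simpa [mem_badSet] using hq
  · exact finPart_snd _ _
  · intro q hq
    rw [finPart_fst_of_mem]
    · rfl
    · simpa [mem_badSet] using hq

theorem map_artinCyc_goodPart_principal_add {A : Type*} [AddCommGroup A]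
    (χ : Additive Gal(L₁/K) →+ A) (x : Kˣ) :
    χ (Additive.ofMul (artinCyc K M₀ m₀ hirr L₁ (finPart K (badSet m₀)ᶜ (principal K x)))) =
      ∑ q ∈ goodSupport K m₀ x, ∑ v : Places.PrimesOver K q,
        SUnits.ordAt v.1 x • χ (Additive.ofMul (frobCyc K M₀ m₀ hirr L₁ v.1)) := by
  apply map_artinCyc_goodSupport_add
  · intro q hq
    rw [finPart_fst_of_not_mem]
    simpa [mem_badSet] using hq
  · exact finPart_snd _ _
  · intro q hq
    rw [finPart_fst_of_mem]
    · rfl
    · simpa [mem_badSet] using hq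

end GoodPart

end Fermat.Agent.Lib.CFT.Global.ArtinCyc
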