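import Fermat.Agent.Lib.CFT.Global.LocalComponents
import Fermat.Agent.Lib.CFT.Global.LocalFieldAt
import Fermat.Agent.Lib.CFT.Local.LocalInvContract

/-!
# Local invariants of idele cohomology classes (P-CFT, helper55)

Relative to a system `T : ∀ q, LocalInvTheory (pv q)` of canonical local invariants (the contract
`Local/LocalInvContract.lean`), we define for a number field `L` with a faithful action of a finite
group `G`, a rational prime `q` and a prime `m` of `L` above `q` (a maximal ideal of `ℚ_q ⊗ L`):

* `invAtPrime T L G q m : H²(G_m, F_mˣ) →+ ℚ/ℤ`, the canonical invariant of the local layer;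
* `locInv T L G q m : H²(G, J_L) →+ ℚ/ℤ`, the local invariant at `m` of an idele class
  (`invAtPrime ∘ locComp`);

and prove the termwise compatibilities with inflation (`locInv_map_of_surjective`) and restriction
(`locInv_map_of_injective`) from the naturality of `locComp` and the contract.
-/

set_option autoImplicit false

namespace Fermat.Agent.Lib.CFT.Global.ClassFormation

open CategoryTheory
open Fermat.Agent.Lib.CFT.Global Fermat.Agent.Lib.CFT.Global.EtaleAlg
open Fermat.Agent.Lib.CFT.Global.LocalFieldAt
open Fermat.Agent.Lib.CFT.Local (LocalInvTheory)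
open Fermat.Agent.Lib.CFT.Local.LocalBrauer (QZ)

open scoped Pointwise

attribute [local instance] Units.mulDistribMulActionRight

section LocInv

variable (T : ∀ q : Nat.Primes, LocalInvTheory (pv q))
variable (L : Type) [Field L] [NumberField L]
variable (G : Type) [Group G] [Finite G] [MulSemiringAction G L] [FaithfulSMul G L]

/-- The canonical local invariant on `H²(G_m, F_mˣ)` at a prime `m` of `L` above `q`. -/
noncomputable def invAtPrime (q : Nat.Primes) (m : MaximalSpectrum (LocAlg L q)) :
    groupCohomology (Rep.ofMulDistribMulAction (MulAction.stabilizer G m) (FieldAt L q m)ˣ) 2 →+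
      QZ :=
  (T q).inv (FieldAt L q m) (MulAction.stabilizer G m)

/-- The local invariant at `m` of a class of `H²(G, J_L)`. -/
noncomputable def locInv (q : Nat.Primes) (m : MaximalSpectrum (LocAlg L q)) :
    groupCohomology (ideleRep L G) 2 →+ QZ :=
  (invAtPrime T L G q m).comp (locComp L G q m 2).hom.toAddMonoidHom

lemma locInv_apply (q : Nat.Primes) (m : MaximalSpectrum (LocAlg L q))
    (c : groupCohomology (ideleRep L G) 2) :
    locInv T L G q m c = invAtPrime T L G q m (locComp L G q m 2 c) := rfl

lemma locInv_eq_zero_iff (q : Nat.Primes) (m : MaximalSpectrum (LocAlg L q))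
    (c : groupCohomology (ideleRep L G) 2) :
    locInv T L G q m c = 0 ↔ locComp L G q m 2 c = 0 := by
  rw [locInv_apply]
  constructor
  · intro h
    exact (T q).inv_injective (FieldAt L q m) (MulAction.stabilizer G m)
      (h.trans (map_zero _).symm)
  · intro h
    rw [h, map_zero]

lemma card_nsmul_locInv (q : Nat.Primes) (m : MaximalSpectrum (LocAlg L q))
    (c : groupCohomology (ideleRep L G) 2) :
    Nat.card (MulAction.stabilizer G m) • locInv T L G q m c = 0 :=
  (T q).card_nsmul_inv (FieldAt L q m) (MulAction.stabilizer G m) _

end LocInv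

section Natural

variable (T : ∀ q : Nat.Primes, LocalInvTheory (pv q))
variable {L L' : Type} [Field L] [NumberField L] [Field L'] [NumberField L']
variable {G G' : Type} [Group G] [Finite G] [Group G'] [Finite G']
  [MulSemiringAction G L] [FaithfulSMul G L] [MulSemiringAction G' L'] [FaithfulSMul G' L']
  (f : G' →* G) (ι : L →+* L') (hι : ∀ (g : G') (x : L), ι (f g • x) = g • ι x)
  (q : Nat.Primes) (m : MaximalSpectrum (LocAlg L q)) (m' : MaximalSpectrum (LocAlg L' q))
  (hm : m.asIdeal = m'.asIdeal.comap ((locMap ι q : LocAlg L q →ₐ[ℚ_[pv q]] LocAlg L' q) :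
    LocAlg L q →+* LocAlg L' q))

/-- The `ℚ_q`-algebra homomorphism between the local fields at `m` and at a prime `m'` above it. -/
noncomputable def fieldAtMap : FieldAt L q m →ₐ[ℚ_[pv q]] FieldAt L' q m' :=
  Ideal.quotientMapₐ m'.asIdeal (locMap ι q) (le_of_eq hm)

lemma coe_fieldAtMap :
    ((fieldAtMap ι q m m' hm : FieldAt L q m →ₐ[ℚ_[pv q]] FieldAt L' q m') :
      FieldAt L q m →+* FieldAt L' q m') =
    residueMapAlong ((locMap ι q : LocAlg L q →ₐ[ℚ_[pv q]] LocAlg L' q) :
      LocAlg L q →+* LocAlg L' q) m m' hm := rfl

/-- The decomposition group homomorphism `G'_{m'} → G_m`. -/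
noncomputable abbrev decompMap : MulAction.stabilizer G' m' →* MulAction.stabilizer G m :=
  stabilizerMapAlong f _ (locMap_smul_along f ι hι q) m m' hm

/-- **Inflation**: if the decomposition group at `m'` surjects onto the one at `m` and the two
local layers have the same base field, the local invariant at `m'` of the image of a class under
`(f, ideleMap ι)` is its local invariant at `m`. -/
theorem locInv_map_of_surjective
    (hsurj : Function.Surjective (decompMap f ι hι q m m' hm))
    (hfix : ∀ y : FieldAt L' q m', (∀ d : MulAction.stabilizer G' m', d • y = y) →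
      ∃ x : FieldAt L q m, fieldAtMap ι q m m' hm x = y)
    (c : groupCohomology (ideleRep L G) 2) :
    locInv T L' G' q m' (groupCohomology.map f (ideleMapRepHom f ι hι) 2 c) =
      locInv T L G q m c := by
  rw [locInv_apply, locInv_apply]
  have h1 := ConcreteCategory.congr_hom (locComp_natural f ι hι q m m' hm 2) c
  rw [ConcreteCategory.comp_apply, ConcreteCategory.comp_apply] at h1
  rw [h1]
  exact (T q).inv_infl (FieldAt L q m) (MulAction.stabilizer G m) (FieldAt L' q m')
    (MulAction.stabilizer G' m') (decompMap f ι hι q m m' hm) hsurj (fieldAtMap ι q m m' hm)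
    (residueMapAlong_smul f _ (locMap_smul_along f ι hι q) m m' hm) hfix _

/-- **Restriction**: if the decomposition group at `m'` injects into the one at `m` and the local
fields coincide, the local invariant at `m'` of the image of a class under `(f, ideleMap ι)` is
`|G_m| / |G'_{m'}|` times its local invariant at `m`. -/
theorem locInv_map_of_injective
    (hinj : Function.Injective (decompMap f ι hι q m m' hm))
    (hbij : Function.Bijective (fieldAtMap ι q m m' hm))
    (c : groupCohomology (ideleRep L G) 2) :
    locInv T L' G' q m' (groupCohomology.map f (ideleMapRepHom f ι hι) 2 c) =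
      (Nat.card (MulAction.stabilizer G m) / Nat.card (MulAction.stabilizer G' m')) •
        locInv T L G q m c := by
  rw [locInv_apply, locInv_apply]
  have h1 := ConcreteCategory.congr_hom (locComp_natural f ι hι q m m' hm 2) c
  rw [ConcreteCategory.comp_apply, ConcreteCategory.comp_apply] at h1
  rw [h1]
  exact (T q).inv_res (FieldAt L q m) (MulAction.stabilizer G m) (FieldAt L' q m')
    (MulAction.stabilizer G' m') (decompMap f ι hι q m m' hm) hinj (fieldAtMap ι q m m' hm)
    (residueMapAlong_smul f _ (locMap_smul_along f ι hι q) m m' hm) hbij _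

end Natural

end Fermat.Agent.Lib.CFT.Global.ClassFormation
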