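import Fermat.Agent.Lib.CFT.Global.ClassFormation.Carry
import Fermat.Agent.Lib.CFT.Global.ClassFormation.LocalInv

/-!
# Symbols on cyclic layers: the local components (P-CFT (GI-5)(B), helper77)

The cohomological, per-place side of the reciprocity law for the symbols `x ∪ δχ_s`
(`scalarClass (carry s) x`) on a cyclic layer.

* (B1) carry combinatorics: for a finite cyclic group `G = ⟨s⟩` of order `n` and a subgroup `D` of
  order `d`, the element `s ^ (n / d)` generates `D` (`genSub`), the restriction of `carry s` to `D`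
  is `carry (genSub s D)` (`carry_subgroup`), `∑ τ, carry t σ τ = dlog t σ` (`sum_carry`) and hence
  `(∑ τ : D, carry s σ τ) * n = dlog s σ * d` (`sum_carry_subgroup`).
* (B2) the local component at a prime `m` of the image in `H²(G, J_L)` of a class
  `scalarClass z x`, `x` an invariant unit of `L`, is `scalarClass (z restricted to G_m) x`
  (`locComp_scalarClass`).
* (B3) given the explicit formula for the unramified local invariant on scalar classes
  (hypothesis `hunr`, the shape of (GI-4)(e)), the local invariant of the symbol is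
  `dlog s (Frob) * ord x / n` (`locInv_scalarClass_carry`).
-/

set_option autoImplicit false
set_option linter.unusedSectionVars false

universe u

namespace Fermat.Agent.Lib.CFT.Global.ClassFormation.CycloSymbol

open Fermat.Agent.Lib.CFT.Coh.CyclicExplicit Fermat.Agent.Lib.CFT.Global.ClassFormation

/-! ### (B1) Carry combinatorics -/

section CarrySubgroup

variable {G : Type u} [Group G] [Fintype G] (s : G) (hs : ∀ x, x ∈ Subgroup.zpowers s)
  (D : Subgroup G) [Fintype D]

theorem div_card_mul_card :
    Fintype.card G / Fintype.card D * Fintype.card D = Fintype.card G := by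
  apply Nat.div_mul_cancel
  have h := Subgroup.card_subgroup_dvd_card D
  rwa [Nat.card_eq_fintype_card, Nat.card_eq_fintype_card] at h

theorem div_card_pos : 0 < Fintype.card G / Fintype.card D := by
  have h := div_card_mul_card D
  have hG : 0 < Fintype.card G := Fintype.card_pos
  rcases Nat.eq_zero_or_pos (Fintype.card G / Fintype.card D) with h0 | h0
  · rw [h0, zero_mul] at h
    omega
  · exact h0

/-- The discrete logarithm of an element of `D` is divisible by `n / d`. -/
theorem div_card_dvd_dlog (τ : D) :
    Fintype.card G / Fintype.card D ∣ dlog s hs (τ : G) := by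
  have hd : 0 < Fintype.card D := Fintype.card_pos
  have h1 : (τ : G) ^ Fintype.card D = 1 := by
    rw [← Subgroup.coe_pow, pow_card_eq_one, Subgroup.coe_one]
  rw [← pow_dlog s hs (τ : G), ← pow_mul] at h1
  have h2 := orderOf_dvd_of_pow_eq_one h1
  rw [orderOf_eq_card s hs] at h2
  conv_lhs at h2 => rw [← div_card_mul_card D]
  exact Nat.dvd_of_mul_dvd_mul_right hd h2

/-- The discrete logarithm of an element of `D` with respect to `s ^ (n / d)`. -/
noncomputable def dlogSub (τ : D) : ℕ := dlog s hs (τ : G) / (Fintype.card G / Fintype.card D)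

theorem div_card_mul_dlogSub (τ : D) :
    Fintype.card G / Fintype.card D * dlogSub s hs D τ = dlog s hs (τ : G) :=
  Nat.mul_div_cancel' (div_card_dvd_dlog s hs D τ)

theorem dlogSub_lt (τ : D) : dlogSub s hs D τ < Fintype.card D := by
  have h1 := dlog_lt s hs (τ : G)
  rw [← div_card_mul_dlogSub s hs D τ] at h1
  conv_rhs at h1 => rw [← div_card_mul_card D]
  exact Nat.lt_of_mul_lt_mul_left h1

theorem dlogSub_injective : Function.Injective (dlogSub s hs D) := by
  intro τ τ' h
  apply Subtype.ext
  rw [← pow_dlog s hs (τ : G), ← pow_dlog s hs (τ' : G), ← div_card_mul_dlogSub s hs D τ,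
    ← div_card_mul_dlogSub s hs D τ', h]

theorem exists_dlogSub_eq {j : ℕ} (hj : j < Fintype.card D) : ∃ τ : D, dlogSub s hs D τ = j := by
  let f : D → Fin (Fintype.card D) := fun τ => ⟨dlogSub s hs D τ, dlogSub_lt s hs D τ⟩
  have hf : Function.Injective f := fun τ τ' h =>
    dlogSub_injective s hs D (congrArg Fin.val h)
  have hb : Function.Bijective f :=
    (Fintype.bijective_iff_injective_and_card f).2 ⟨hf, (Fintype.card_fin _).symm⟩
  obtain ⟨τ, hτ⟩ := hb.2 ⟨j, hj⟩
  exact ⟨τ, congrArg Fin.val hτ⟩

include hs in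
/-- `s ^ (n / d)` lies in the subgroup `D` of order `d` of the cyclic group `G = ⟨s⟩` of order
`n`. -/
theorem pow_div_card_mem : s ^ (Fintype.card G / Fintype.card D) ∈ D := by
  have hd : 0 < Fintype.card D := Fintype.card_pos
  rcases Nat.lt_or_ge 1 (Fintype.card D) with h1 | h1
  · obtain ⟨τ, hτ⟩ := exists_dlogSub_eq s hs D h1
    have h2 := div_card_mul_dlogSub s hs D τ
    rw [hτ, mul_one] at h2
    rw [h2, pow_dlog]
    exact τ.2
  · have h2 : Fintype.card D = 1 := by omega
    rw [h2, Nat.div_one, pow_card_eq_one]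
    exact one_mem D

/-- The generator `s ^ (n / d)` of the subgroup `D`. -/
noncomputable def genSub : D := ⟨s ^ (Fintype.card G / Fintype.card D), pow_div_card_mem s hs D⟩

@[simp]
theorem coe_genSub : ((genSub s hs D : D) : G) = s ^ (Fintype.card G / Fintype.card D) := rfl

theorem genSub_pow_dlogSub (τ : D) : genSub s hs D ^ dlogSub s hs D τ = τ := by
  apply Subtype.ext
  rw [Subgroup.coe_pow, coe_genSub, ← pow_mul, div_card_mul_dlogSub, pow_dlog]

theorem genSub_generates (x : D) : x ∈ Subgroup.zpowers (genSub s hs D) := by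
  rw [← genSub_pow_dlogSub s hs D x]
  exact Subgroup.npow_mem_zpowers _ _

theorem dlog_genSub_eq (τ : D) :
    dlog (genSub s hs D) (genSub_generates s hs D) τ = dlogSub s hs D τ :=
  dlog_unique _ _ (dlogSub_lt s hs D τ) (genSub_pow_dlogSub s hs D τ)

theorem dlog_genSub (τ : D) :
    Fintype.card G / Fintype.card D * dlog (genSub s hs D) (genSub_generates s hs D) τ =
      dlog s hs (τ : G) := by
  rw [dlog_genSub_eq, div_card_mul_dlogSub]

/-- The restriction to `D` of the carry cocycle of `s` is the carry cocycle of the generator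
`s ^ (n / d)` of `D`. -/
theorem carry_subgroup (k : Type u) [CommRing k] (σ τ : D) :
    carry k s hs (σ : G) (τ : G) =
      carry k (genSub s hs D) (genSub_generates s hs D) σ τ := by
  rw [carry_apply, carry_apply, ← dlog_genSub s hs D σ, ← dlog_genSub s hs D τ, ← mul_add]
  have he := div_card_pos (G := G) D
  have h : Fintype.card G ≤ Fintype.card G / Fintype.card D *
      (dlog (genSub s hs D) (genSub_generates s hs D) σ +
        dlog (genSub s hs D) (genSub_generates s hs D) τ) ↔
      Fintype.card D ≤ dlog (genSub s hs D) (genSub_generates s hs D) σ +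
        dlog (genSub s hs D) (genSub_generates s hs D) τ := by
    have hn := div_card_mul_card (G := G) D
    generalize Fintype.card G / Fintype.card D = e at he hn ⊢
    rw [← hn]
    exact Nat.mul_le_mul_left_iff he
  simp only [h]

end CarrySubgroup

section SumCarry

variable {D : Type u} [Group D] [Fintype D] (t : D) (ht : ∀ x, x ∈ Subgroup.zpowers t)

/-- The sum over the second variable of the carry cocycle is the discrete logarithm. -/
theorem sum_carry (k : Type u) [CommRing k] (σ : D) :
    ∑ τ : D, carry k t ht σ τ = (dlog t ht σ : k) := by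
  have hi := dlog_lt t ht σ
  rw [sum_eq_sum_range t ht]
  have h1 : ∀ j ∈ Finset.range (Fintype.card D), carry k t ht σ (t ^ j) =
      if Fintype.card D - dlog t ht σ ≤ j then 1 else 0 := by
    intro j hj
    rw [carry_apply, dlog_pow t ht (Finset.mem_range.1 hj)]
    have : Fintype.card D ≤ dlog t ht σ + j ↔ Fintype.card D - dlog t ht σ ≤ j := by omega
    simp only [this]
  rw [Finset.sum_congr rfl h1, Finset.sum_boole]
  congr 1
  have h2 : (Finset.range (Fintype.card D)).filter (fun j => Fintype.card D - dlog t ht σ ≤ j) =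
      Finset.Ico (Fintype.card D - dlog t ht σ) (Fintype.card D) := by
    ext j
    simp only [Finset.mem_filter, Finset.mem_range, Finset.mem_Ico]
    omega
  rw [h2, Nat.card_Ico]
  omega

end SumCarry

section SumCarrySubgroup

variable {G : Type} [Group G] [Fintype G] (s : G) (hs : ∀ x, x ∈ Subgroup.zpowers s)
  (D : Subgroup G) [Fintype D]

/-- `(∑_{τ ∈ D} carry s σ τ) * |G| = dlog s σ * |D|` for `σ ∈ D`. -/
theorem sum_carry_subgroup (σ : D) :
    (∑ τ : D, carry ℤ s hs (σ : G) (τ : G)) * (Fintype.card G : ℤ) =
      (dlog s hs (σ : G) : ℤ) * (Fintype.card D : ℤ) := by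
  rw [Finset.sum_congr rfl fun τ _ => carry_subgroup s hs D ℤ σ τ, sum_carry,
    ← dlog_genSub s hs D σ]
  conv_lhs => rw [← div_card_mul_card D]
  push_cast
  ring

/-- The same in `ℚ`, with an extra integer factor: the shape of the unramified local invariant of
the symbol. -/
theorem sum_carry_subgroup_div (σ : D) (o : ℤ) :
    ((((∑ τ : D, carry ℤ s hs (σ : G) (τ : G)) * o : ℤ) : ℚ) / (Fintype.card D : ℚ)) =
      ((((dlog s hs (σ : G) : ℤ) * o : ℤ) : ℚ) / (Fintype.card G : ℚ)) := by
  have hd : (Fintype.card D : ℚ) ≠ 0 := Nat.cast_ne_zero.2 Fintype.card_ne_zero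
  have hn : (Fintype.card G : ℚ) ≠ 0 := Nat.cast_ne_zero.2 Fintype.card_ne_zero
  rw [div_eq_div_iff hd hn]
  have h : (((∑ τ : D, carry ℤ s hs (σ : G) (τ : G)) * (Fintype.card G : ℤ) : ℤ) : ℚ) =
      (((dlog s hs (σ : G) : ℤ) * (Fintype.card D : ℤ) : ℤ) : ℚ) := by
    rw [sum_carry_subgroup]
  push_cast at h ⊢
  linear_combination (o : ℚ) * h

end SumCarrySubgroup

/-! ### (B2) The local components of a scalar class -/

open CategoryTheory groupCohomology
open Fermat.Agent.Lib.CFT.Global Fermat.Agent.Lib.CFT.Global.EtaleAlg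
open Fermat.Agent.Lib.CFT.Global.LocalFieldAt
open Fermat.Agent.Lib.CFT.Local (LocalInvTheory)
open Fermat.Agent.Lib.CFT.Local.LocalBrauer (QZ)

open scoped Pointwise

attribute [local instance] Units.mulDistribMulActionRight

section LocComp

variable (L : Type) [Field L] [NumberField L]
variable (G : Type) [Group G] [Finite G] [MulSemiringAction G L] [FaithfulSMul G L]

/-- A `G`-invariant unit of `L` as an invariant element of `unitsRep L G`. -/
def unitsInv (x : Lˣ) (hx : ∀ g : G, g • x = x) : (unitsRep L G).ρ.invariants :=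
  ⟨Additive.ofMul x, fun g => congrArg Additive.ofMul (hx g)⟩

@[simp]
lemma coe_unitsInv (x : Lˣ) (hx : ∀ g : G, g • x = x) :
    ((unitsInv L G x hx : (unitsRep L G).ρ.invariants) : unitsRep L G) = Additive.ofMul x := rfl

/-- The image of a unit of `L` in the local field at `m`. -/
noncomputable def fieldAtUnit (q : Nat.Primes) (m : MaximalSpectrum (LocAlg L q)) :
    Lˣ →* (FieldAt L q m)ˣ :=
  Units.map (toFieldAt L q m : L →* FieldAt L q m)

@[simp]
lemma coe_fieldAtUnit (q : Nat.Primes) (m : MaximalSpectrum (LocAlg L q)) (x : Lˣ) :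
    ((fieldAtUnit L q m x : (FieldAt L q m)ˣ) : FieldAt L q m) = toFieldAt L q m (x : L) := rfl

lemma redUnits_locUnit (q : Nat.Primes) (m : MaximalSpectrum (LocAlg L q)) (x : Lˣ) :
    redUnits m (locUnit L q x) = fieldAtUnit L q m x :=
  Units.ext rfl

lemma principalLocHom_ofMul (q : Nat.Primes) (m : MaximalSpectrum (LocAlg L q)) (x : Lˣ) :
    (principalLocHom L G q m).hom (Additive.ofMul x) = Additive.ofMul (fieldAtUnit L q m x) :=
  congrArg Additive.ofMul (redUnits_locUnit L q m x)

lemma stab_smul_fieldAtUnit (q : Nat.Primes) (m : MaximalSpectrum (LocAlg L q)) (x : Lˣ)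
    (hx : ∀ g : G, g • x = x) (d : MulAction.stabilizer G m) :
    d • fieldAtUnit L q m x = fieldAtUnit L q m x := by
  apply Units.ext
  change d • toFieldAt L q m (x : L) = toFieldAt L q m (x : L)
  rw [← toFieldAt_smul]
  exact congrArg (toFieldAt L q m) (congrArg Units.val (hx (d : G)))

/-- The image of a `G`-invariant unit of `L` in the local field at `m`, as an invariant element
for the decomposition group. -/
noncomputable def fieldAtInv (q : Nat.Primes) (m : MaximalSpectrum (LocAlg L q)) (x : Lˣ)
    (hx : ∀ g : G, g • x = x) :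
    (Rep.ofMulDistribMulAction (MulAction.stabilizer G m) (FieldAt L q m)ˣ).ρ.invariants :=
  ⟨Additive.ofMul (fieldAtUnit L q m x), fun d =>
    congrArg Additive.ofMul (stab_smul_fieldAtUnit L G q m x hx d)⟩

@[simp]
lemma coe_fieldAtInv (q : Nat.Primes) (m : MaximalSpectrum (LocAlg L q)) (x : Lˣ)
    (hx : ∀ g : G, g • x = x) :
    ((fieldAtInv L G q m x hx :
      (Rep.ofMulDistribMulAction (MulAction.stabilizer G m) (FieldAt L q m)ˣ).ρ.invariants) :
      Rep.ofMulDistribMulAction (MulAction.stabilizer G m) (FieldAt L q m)ˣ) =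
      Additive.ofMul (fieldAtUnit L q m x) := rfl

/-- **(B2)** The local component at `m` of the image in `H²(G, J_L)` of the class `[z • x]`
(`x` a `G`-invariant unit of `L`) is the class `[z|_{G_m} • x]` in `H²(G_m, F_mˣ)`. -/
theorem locComp_scalarClass (q : Nat.Primes) (m : MaximalSpectrum (LocAlg L q))
    {z : G → G → ℤ} (hz : IsScalarCocycle z) (x : Lˣ) (hx : ∀ g : G, g • x = x) :
    locComp L G q m 2 (groupCohomology.map (MonoidHom.id G) (principalRepHom L G) 2
      (scalarClass (unitsRep L G) hz (unitsInv L G x hx))) =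
    scalarClass (Rep.ofMulDistribMulAction (MulAction.stabilizer G m) (FieldAt L q m)ˣ)
      (hz.comp (MulAction.stabilizer G m).subtype) (fieldAtInv L G q m x hx) := by
  have h1 := ConcreteCategory.congr_hom (map_principalRepHom_comp_locComp L G q m 2)
    (scalarClass (unitsRep L G) hz (unitsInv L G x hx))
  rw [ConcreteCategory.comp_apply] at h1
  rw [h1]
  exact map_scalarClass (MulAction.stabilizer G m).subtype (principalLocHom L G q m) hz
    (unitsInv L G x hx) (fieldAtInv L G q m x hx) (principalLocHom_ofMul L G q m x)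

/-- The functorial spelling of `locComp_scalarClass`. -/
theorem locComp_functor_map_scalarClass (q : Nat.Primes) (m : MaximalSpectrum (LocAlg L q))
    {z : G → G → ℤ} (hz : IsScalarCocycle z) (x : Lˣ) (hx : ∀ g : G, g • x = x) :
    locComp L G q m 2 ((groupCohomology.functor ℤ G 2).map (principalRepHom L G)
      (scalarClass (unitsRep L G) hz (unitsInv L G x hx))) =
    scalarClass (Rep.ofMulDistribMulAction (MulAction.stabilizer G m) (FieldAt L q m)ˣ)
      (hz.comp (MulAction.stabilizer G m).subtype) (fieldAtInv L G q m x hx) :=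
  locComp_scalarClass L G q m hz x hx

end LocComp

/-! ### (B2') The cyclic case: local triviality of the symbol and local norms -/

section Cyclic

variable (L : Type) [Field L] [NumberField L]
variable (G : Type) [Group G] [Fintype G] [MulSemiringAction G L] [FaithfulSMul G L]
variable (s : G) (hs : ∀ x, x ∈ Subgroup.zpowers s)

/-- The local component of the symbol `[carry s • x]` is the symbol `[carry s_m • x]` of the
decomposition group `G_m`, with respect to its generator `s_m = s ^ (|G| / |G_m|)`. -/
theorem locComp_scalarClass_carry (q : Nat.Primes) (m : MaximalSpectrum (LocAlg L q))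
    [Fintype (MulAction.stabilizer G m)] (x : Lˣ) (hx : ∀ g : G, g • x = x) :
    locComp L G q m 2 (groupCohomology.map (MonoidHom.id G) (principalRepHom L G) 2
      (scalarClass (unitsRep L G) (isScalarCocycle_carry ℤ s hs) (unitsInv L G x hx))) =
    scalarClass (Rep.ofMulDistribMulAction (MulAction.stabilizer G m) (FieldAt L q m)ˣ)
      (isScalarCocycle_carry ℤ (genSub s hs (MulAction.stabilizer G m))
        (genSub_generates s hs (MulAction.stabilizer G m))) (fieldAtInv L G q m x hx) := by
  rw [locComp_scalarClass]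
  exact scalarClass_congr _ _ _ (fun σ τ => carry_subgroup s hs (MulAction.stabilizer G m) ℤ σ τ) _

/-- The local component at `m` of the symbol `[carry s • x]` vanishes iff `x` is a norm from the
local field at `m` for the decomposition group. -/
theorem locComp_scalarClass_carry_eq_zero_iff (q : Nat.Primes)
    (m : MaximalSpectrum (LocAlg L q)) [Fintype (MulAction.stabilizer G m)] (x : Lˣ)
    (hx : ∀ g : G, g • x = x) :
    locComp L G q m 2 (groupCohomology.map (MonoidHom.id G) (principalRepHom L G) 2
      (scalarClass (unitsRep L G) (isScalarCocycle_carry ℤ s hs) (unitsInv L G x hx))) = 0 ↔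
    ∃ t : (FieldAt L q m)ˣ, ∏ d : MulAction.stabilizer G m, d • t = fieldAtUnit L q m x := by
  rw [locComp_scalarClass_carry, scalarClass_carry_eq_zero_iff]
  have key : ∀ t : (FieldAt L q m)ˣ,
      (Rep.ofMulDistribMulAction (MulAction.stabilizer G m) (FieldAt L q m)ˣ).ρ.norm
        (Additive.ofMul t) = Additive.ofMul (∏ d : MulAction.stabilizer G m, d • t) := by
    intro t
    rw [ofMul_prod]
    exact LinearMap.sum_apply _ _ _
  constructor
  · rintro ⟨t, ht⟩
    refine ⟨Additive.toMul (α := (FieldAt L q m)ˣ) t, ?_⟩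
    have h : (Rep.ofMulDistribMulAction (MulAction.stabilizer G m) (FieldAt L q m)ˣ).ρ.norm t =
        Additive.ofMul (∏ d : MulAction.stabilizer G m,
          d • Additive.toMul (α := (FieldAt L q m)ˣ) t) :=
      key (Additive.toMul (α := (FieldAt L q m)ˣ) t)
    exact Additive.ofMul.injective (h.symm.trans ht)
  · rintro ⟨t, ht⟩
    exact ⟨Additive.ofMul t, (key t).trans (congrArg Additive.ofMul ht)⟩

end Cyclic

/-! ### (B3) The local invariant of the symbol at an unramified prime -/

section LocInv

variable (T : ∀ q : Nat.Primes, LocalInvTheory (pv q))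
variable (L : Type) [Field L] [NumberField L]
variable (G : Type) [Group G] [Fintype G] [MulSemiringAction G L] [FaithfulSMul G L]
variable (s : G) (hs : ∀ x, x ∈ Subgroup.zpowers s)

/-- **(B3)** Given the explicit formula `hunr` for the local invariant at `m` on scalar classes
(the unramified formula (GI-4)(e): `σ` the Frobenius of the decomposition group, `o` the valuation
of `x` at `m`), the local invariant at `m` of the symbol `[carry s • x]` is
`dlog s σ * o / |G|`, i.e. `χ_s(σ) * o`. -/
theorem locInv_scalarClass_carry (q : Nat.Primes) (m : MaximalSpectrum (LocAlg L q))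
    [Fintype (MulAction.stabilizer G m)] (x : Lˣ) (hx : ∀ g : G, g • x = x)
    (σ : MulAction.stabilizer G m) (o : ℤ)
    (hunr : ∀ (z : MulAction.stabilizer G m → MulAction.stabilizer G m → ℤ)
      (hz : IsScalarCocycle z),
      invAtPrime T L G q m (scalarClass
        (Rep.ofMulDistribMulAction (MulAction.stabilizer G m) (FieldAt L q m)ˣ) hz
        (fieldAtInv L G q m x hx)) =
      (((((∑ τ : MulAction.stabilizer G m, z σ τ) * o : ℤ) : ℚ) /
        (Nat.card (MulAction.stabilizer G m) : ℚ) : ℚ) : QZ)) :
    locInv T L G q m (groupCohomology.map (MonoidHom.id G) (principalRepHom L G) 2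
      (scalarClass (unitsRep L G) (isScalarCocycle_carry ℤ s hs) (unitsInv L G x hx))) =
    (((((dlog s hs (σ : G) : ℤ) * o : ℤ) : ℚ) / (Fintype.card G : ℚ) : ℚ) : QZ) := by
  rw [locInv_apply, locComp_scalarClass, hunr, Nat.card_eq_fintype_card]
  exact congrArg _ (sum_carry_subgroup_div s hs (MulAction.stabilizer G m) σ o)

/-- From a formula for the local invariant on classes of `2`-cocycles (the shape of
`LocalDict.invUnr_unitsCohomologyIso_H2π`) to the formula on scalar classes. -/
theorem invAtPrime_scalarClass_of_cocycle_formula (q : Nat.Primes)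
    (m : MaximalSpectrum (LocAlg L q)) [Fintype (MulAction.stabilizer G m)]
    (σ : MulAction.stabilizer G m) (ord : (FieldAt L q m)ˣ → ℤ)
    (hord : ∀ (u : (FieldAt L q m)ˣ) (k : ℤ), ord (u ^ k) = k * ord u)
    (hcoc : ∀ c : cocycles₂
        (Rep.ofMulDistribMulAction (MulAction.stabilizer G m) (FieldAt L q m)ˣ),
      invAtPrime T L G q m (H2π _ c) =
        ((((∑ τ : MulAction.stabilizer G m,
          ord (Additive.toMul (α := (FieldAt L q m)ˣ) (c (σ, τ))) : ℤ) : ℚ) /
          (Nat.card (MulAction.stabilizer G m) : ℚ) : ℚ) : QZ))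
    {z : MulAction.stabilizer G m → MulAction.stabilizer G m → ℤ} (hz : IsScalarCocycle z)
    (b : (Rep.ofMulDistribMulAction (MulAction.stabilizer G m) (FieldAt L q m)ˣ).ρ.invariants) :
    invAtPrime T L G q m (scalarClass
      (Rep.ofMulDistribMulAction (MulAction.stabilizer G m) (FieldAt L q m)ˣ) hz b) =
    (((((∑ τ : MulAction.stabilizer G m, z σ τ) *
      ord (Additive.toMul (α := (FieldAt L q m)ˣ) b.1) : ℤ) : ℚ) /
      (Nat.card (MulAction.stabilizer G m) : ℚ) : ℚ) : QZ) := by
  rw [scalarClass_apply, hcoc]
  congr 3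
  rw [Finset.sum_mul]
  refine Finset.sum_congr rfl fun τ _ => ?_
  change ord ((Additive.toMul (α := (FieldAt L q m)ˣ) b.1) ^ (z σ τ)) = _
  rw [hord]

/-- **(B3)**, from the cocycle-level formula for the unramified local invariant. -/
theorem locInv_scalarClass_carry_of_cocycle_formula (q : Nat.Primes)
    (m : MaximalSpectrum (LocAlg L q)) [Fintype (MulAction.stabilizer G m)]
    (x : Lˣ) (hx : ∀ g : G, g • x = x)
    (σ : MulAction.stabilizer G m) (ord : (FieldAt L q m)ˣ → ℤ)
    (hord : ∀ (u : (FieldAt L q m)ˣ) (k : ℤ), ord (u ^ k) = k * ord u)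
    (hcoc : ∀ c : cocycles₂
        (Rep.ofMulDistribMulAction (MulAction.stabilizer G m) (FieldAt L q m)ˣ),
      invAtPrime T L G q m (H2π _ c) =
        ((((∑ τ : MulAction.stabilizer G m,
          ord (Additive.toMul (α := (FieldAt L q m)ˣ) (c (σ, τ))) : ℤ) : ℚ) /
          (Nat.card (MulAction.stabilizer G m) : ℚ) : ℚ) : QZ)) :
    locInv T L G q m (groupCohomology.map (MonoidHom.id G) (principalRepHom L G) 2
      (scalarClass (unitsRep L G) (isScalarCocycle_carry ℤ s hs) (unitsInv L G x hx))) =
    (((((dlog s hs (σ : G) : ℤ) * ord (fieldAtUnit L q m x) : ℤ) : ℚ) /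
      (Fintype.card G : ℚ) : ℚ) : QZ) :=
  locInv_scalarClass_carry T L G s hs q m x hx σ (ord (fieldAtUnit L q m x))
    (fun _ hz => invAtPrime_scalarClass_of_cocycle_formula T L G q m σ ord hord hcoc hz
      (fieldAtInv L G q m x hx))

end LocInv

/-! ### Variants for a general invariant element of `unitsRep L G` -/

section OfInvariants

variable (T : ∀ q : Nat.Primes, LocalInvTheory (pv q))
variable (L : Type) [Field L] [NumberField L]
variable (G : Type) [Group G] [Fintype G] [MulSemiringAction G L] [FaithfulSMul G L]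
variable (s : G) (hs : ∀ x, x ∈ Subgroup.zpowers s)

lemma smul_toMul_invariants (a : (unitsRep L G).ρ.invariants) (g : G) :
    g • Additive.toMul (α := Lˣ) a.1 = Additive.toMul (α := Lˣ) a.1 :=
  congrArg (Additive.toMul (α := Lˣ)) (a.2 g)

lemma unitsInv_toMul (a : (unitsRep L G).ρ.invariants) :
    unitsInv L G (Additive.toMul (α := Lˣ) a.1) (smul_toMul_invariants L G a) = a := rfl

/-- The image in the local field at `m` of an invariant element of `unitsRep L G`. -/
noncomputable def fieldAtInvOf (q : Nat.Primes) (m : MaximalSpectrum (LocAlg L q))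
    (a : (unitsRep L G).ρ.invariants) :
    (Rep.ofMulDistribMulAction (MulAction.stabilizer G m) (FieldAt L q m)ˣ).ρ.invariants :=
  fieldAtInv L G q m (Additive.toMul (α := Lˣ) a.1) (smul_toMul_invariants L G a)

lemma coe_fieldAtInvOf (q : Nat.Primes) (m : MaximalSpectrum (LocAlg L q))
    (a : (unitsRep L G).ρ.invariants) :
    ((fieldAtInvOf L G q m a :
      (Rep.ofMulDistribMulAction (MulAction.stabilizer G m) (FieldAt L q m)ˣ).ρ.invariants) :
      Rep.ofMulDistribMulAction (MulAction.stabilizer G m) (FieldAt L q m)ˣ) =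
      Additive.ofMul (fieldAtUnit L q m (Additive.toMul (α := Lˣ) a.1)) := rfl

/-- (B2) for a general invariant element. -/
theorem locComp_scalarClass_of_invariants (q : Nat.Primes) (m : MaximalSpectrum (LocAlg L q))
    {z : G → G → ℤ} (hz : IsScalarCocycle z) (a : (unitsRep L G).ρ.invariants) :
    locComp L G q m 2 (groupCohomology.map (MonoidHom.id G) (principalRepHom L G) 2
      (scalarClass (unitsRep L G) hz a)) =
    scalarClass (Rep.ofMulDistribMulAction (MulAction.stabilizer G m) (FieldAt L q m)ˣ)
      (hz.comp (MulAction.stabilizer G m).subtype) (fieldAtInvOf L G q m a) :=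
  locComp_scalarClass L G q m hz _ (smul_toMul_invariants L G a)

/-- Local triviality of the symbol and local norms, for a general invariant element. -/
theorem locComp_scalarClass_carry_eq_zero_iff_of_invariants (q : Nat.Primes)
    (m : MaximalSpectrum (LocAlg L q)) [Fintype (MulAction.stabilizer G m)]
    (a : (unitsRep L G).ρ.invariants) :
    locComp L G q m 2 (groupCohomology.map (MonoidHom.id G) (principalRepHom L G) 2
      (scalarClass (unitsRep L G) (isScalarCocycle_carry ℤ s hs) a)) = 0 ↔
    ∃ t : (FieldAt L q m)ˣ, ∏ d : MulAction.stabilizer G m, d • t =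
      fieldAtUnit L q m (Additive.toMul (α := Lˣ) a.1) :=
  locComp_scalarClass_carry_eq_zero_iff L G s hs q m _ (smul_toMul_invariants L G a)

/-- (B3) for a general invariant element. -/
theorem locInv_scalarClass_carry_of_invariants (q : Nat.Primes)
    (m : MaximalSpectrum (LocAlg L q)) [Fintype (MulAction.stabilizer G m)]
    (a : (unitsRep L G).ρ.invariants) (σ : MulAction.stabilizer G m) (o : ℤ)
    (hunr : ∀ (z : MulAction.stabilizer G m → MulAction.stabilizer G m → ℤ)
      (hz : IsScalarCocycle z),
      invAtPrime T L G q m (scalarClass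
        (Rep.ofMulDistribMulAction (MulAction.stabilizer G m) (FieldAt L q m)ˣ) hz
        (fieldAtInvOf L G q m a)) =
      (((((∑ τ : MulAction.stabilizer G m, z σ τ) * o : ℤ) : ℚ) /
        (Nat.card (MulAction.stabilizer G m) : ℚ) : ℚ) : QZ)) :
    locInv T L G q m (groupCohomology.map (MonoidHom.id G) (principalRepHom L G) 2
      (scalarClass (unitsRep L G) (isScalarCocycle_carry ℤ s hs) a)) =
    (((((dlog s hs (σ : G) : ℤ) * o : ℤ) : ℚ) / (Fintype.card G : ℚ) : ℚ) : QZ) :=
  locInv_scalarClass_carry T L G s hs q m _ (smul_toMul_invariants L G a) σ o hunr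

/-- (B3) for a general invariant element, from the cocycle-level formula. -/
theorem locInv_scalarClass_carry_of_invariants_of_cocycle_formula (q : Nat.Primes)
    (m : MaximalSpectrum (LocAlg L q)) [Fintype (MulAction.stabilizer G m)]
    (a : (unitsRep L G).ρ.invariants)
    (σ : MulAction.stabilizer G m) (ord : (FieldAt L q m)ˣ → ℤ)
    (hord : ∀ (u : (FieldAt L q m)ˣ) (k : ℤ), ord (u ^ k) = k * ord u)
    (hcoc : ∀ c : cocycles₂
        (Rep.ofMulDistribMulAction (MulAction.stabilizer G m) (FieldAt L q m)ˣ),
      invAtPrime T L G q m (H2π _ c) =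
        ((((∑ τ : MulAction.stabilizer G m,
          ord (Additive.toMul (α := (FieldAt L q m)ˣ) (c (σ, τ))) : ℤ) : ℚ) /
          (Nat.card (MulAction.stabilizer G m) : ℚ) : ℚ) : QZ)) :
    locInv T L G q m (groupCohomology.map (MonoidHom.id G) (principalRepHom L G) 2
      (scalarClass (unitsRep L G) (isScalarCocycle_carry ℤ s hs) a)) =
    (((((dlog s hs (σ : G) : ℤ) *
      ord (fieldAtUnit L q m (Additive.toMul (α := Lˣ) a.1)) : ℤ) : ℚ) /
      (Fintype.card G : ℚ) : ℚ) : QZ) :=
  locInv_scalarClass_carry_of_cocycle_formula T L G s hs q m _ (smul_toMul_invariants L G a) σ ord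
    hord hcoc

end OfInvariants

end Fermat.Agent.Lib.CFT.Global.ClassFormation.CycloSymbol
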