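import Fermat.Agent.Lib.CFT.Global.Places.GaloisLocalField
import Fermat.Agent.Lib.CFT.Global.Places.LocAlgGalois

/-!
# Orbit sums over the primes above `q` (P-CFT (GI-5), helper93)

For a Galois extension `L / K` of number fields with group `G`, the `G`-orbits of the maximal ideals
of `ℚ_q ⊗ L` correspond to the primes of `K` above `q` (`primeBelowMaxSpec`).  Hence a sum over
orbit representatives of a function which only depends on the prime of `K` below is a sum over the
primes of `K` above `q` (`finsum_orbit_out_eq_finsum_primesOver`).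
-/

set_option autoImplicit false
set_option linter.unusedSectionVars false

open scoped NumberField Pointwise

namespace Fermat.Agent.Lib.CFT.Global.ClassFormation.CycloSymbol

open Fermat.Agent.Lib.CFT.Global Fermat.Agent.Lib.CFT.Global.Places
open Fermat.Agent.Lib.CFT.Global.Places.Galois Fermat.Agent.Lib.CFT.Global.EtaleAlg

section Orbit

variable (K : Type) {L : Type} [Field K] [NumberField K] [Field L] [NumberField L] [Algebra K L]
  {G : Type} [Group G] [MulSemiringAction G L] {q : Nat.Primes}

/-- The prime of `K` below a maximal ideal of `ℚ_q ⊗ L`. -/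
noncomputable def primeBelowMaxSpec (m : MaximalSpectrum (LocAlg L q)) : PrimesOver K q :=
  primeBelow K ((primesEquivMaximalSpectrum L q).symm m)

theorem primeBelowMaxSpec_primesEquiv (w : PrimesOver L q) :
    primeBelowMaxSpec K (primesEquivMaximalSpectrum L q w) = primeBelow K w := by
  rw [primeBelowMaxSpec, Equiv.symm_apply_apply]

/-- Every prime of `K` above `q` lies below a prime of `L`. -/
theorem primeBelow_surjective :
    Function.Surjective (primeBelow K : PrimesOver L q → PrimesOver K q) := by
  intro v
  have : v.1.asIdeal.IsMaximal := v.1.isMaximal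
  obtain ⟨P, hPmax, hP⟩ := Ideal.exists_ideal_over_maximal_of_isIntegral (S := 𝓞 L)
    v.1.asIdeal (by
      have hinj : Function.Injective (algebraMap (𝓞 K) (𝓞 L)) :=
        FaithfulSMul.algebraMap_injective (𝓞 K) (𝓞 L)
      rw [(RingHom.injective_iff_ker_eq_bot _).1 hinj]
      exact bot_le)
  have hP0 : P ≠ ⊥ := by
    intro h0
    have h1 : v.1.asIdeal = ⊥ := by
      rw [← hP, h0]
      exact Ideal.comap_bot_of_injective _ (FaithfulSMul.algebraMap_injective (𝓞 K) (𝓞 L))
    exact v.1.ne_bot h1
  have hq : ((pv q : ℕ) : 𝓞 L) ∈ P := by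
    have h1 : ((pv q : ℕ) : 𝓞 K) ∈ P.comap (algebraMap (𝓞 K) (𝓞 L)) := by
      rw [hP]
      exact v.2
    rw [Ideal.mem_comap, map_natCast] at h1
    exact h1
  let w : PrimesOver L q := ⟨⟨P, hPmax.isPrime, hP0⟩, hq⟩
  refine ⟨w, ?_⟩
  have hvw : LiesOverAlong (algebraMap (𝓞 K) (𝓞 L)) v w := by
    rw [liesOverAlong_iff_comap_eq]
    exact hP
  exact (eq_primeBelow_of_liesOverAlong hvw).symm

theorem primeBelowMaxSpec_surjective :
    Function.Surjective (primeBelowMaxSpec K : MaximalSpectrum (LocAlg L q) → PrimesOver K q) := by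
  intro v
  obtain ⟨w, hw⟩ := primeBelow_surjective K (L := L) v
  exact ⟨primesEquivMaximalSpectrum L q w, by rw [primeBelowMaxSpec_primesEquiv, hw]⟩

variable [SMulCommClass G K L]

/-- The prime below is constant on `G`-orbits. -/
theorem primeBelowMaxSpec_smul (g : G) (m : MaximalSpectrum (LocAlg L q)) :
    primeBelowMaxSpec K (g • m) = primeBelowMaxSpec K m := by
  unfold primeBelowMaxSpec
  rw [Places.primesEquivMaximalSpectrum_symm_smul]
  exact (eq_primeBelow_of_liesOverAlong
    (liesOverAlong_smul_of_liesOverAlong g (liesOverAlong_primeBelow _))).symm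

variable [Finite G] [IsGaloisGroup G K L]

/-- Two maximal ideals over the same prime of `K` are conjugate. -/
theorem exists_smul_eq_of_primeBelowMaxSpec_eq {m m' : MaximalSpectrum (LocAlg L q)}
    (h : primeBelowMaxSpec K m = primeBelowMaxSpec K m') : ∃ g : G, g • m = m' := by
  have h' : primeBelow K ((primesEquivMaximalSpectrum L q).symm m) =
      primeBelow K ((primesEquivMaximalSpectrum L q).symm m') := h
  have h2 : LiesOverAlong (algebraMap (𝓞 K) (𝓞 L))
      (primeBelow K ((primesEquivMaximalSpectrum L q).symm m))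
      ((primesEquivMaximalSpectrum L q).symm m') := by
    rw [h']
    exact liesOverAlong_primeBelow _
  obtain ⟨g, hg⟩ := exists_smul_eq_of_liesOverAlong (G := G)
    (liesOverAlong_primeBelow (K := K) ((primesEquivMaximalSpectrum L q).symm m)) h2
  refine ⟨g, ?_⟩
  apply (primesEquivMaximalSpectrum L q).symm.injective
  rw [Places.primesEquivMaximalSpectrum_symm_smul]
  exact hg

/-- The bijection between `G`-orbits of maximal ideals of `ℚ_q ⊗ L` and primes of `K` above `q`. -/
theorem bijective_primeBelowMaxSpec_out :
    Function.Bijective (fun ω : MulAction.orbitRel.Quotient G (MaximalSpectrum (LocAlg L q)) =>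
      primeBelowMaxSpec K ω.out) := by
  constructor
  · intro ω ω' h
    obtain ⟨g, hg⟩ := exists_smul_eq_of_primeBelowMaxSpec_eq (G := G) K h
    rw [← Quotient.out_eq' ω, ← Quotient.out_eq' ω', Quotient.eq'', MulAction.orbitRel_apply]
    refine ⟨g⁻¹, ?_⟩
    show g⁻¹ • Quotient.out ω' = Quotient.out ω
    rw [← hg, inv_smul_smul]
  · intro v
    obtain ⟨m, hm⟩ := primeBelowMaxSpec_surjective K (L := L) v
    refine ⟨Quotient.mk'' m, ?_⟩
    have h : (Quotient.mk'' m : MulAction.orbitRel.Quotient G (MaximalSpectrum (LocAlg L q))).out ∈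
        MulAction.orbit G m := by
      rw [← MulAction.orbitRel_apply, ← Quotient.eq'']
      exact Quotient.out_eq' _
    obtain ⟨g, hg⟩ := h
    show primeBelowMaxSpec K (Quotient.mk'' m :
      MulAction.orbitRel.Quotient G (MaximalSpectrum (LocAlg L q))).out = v
    rw [← hg, primeBelowMaxSpec_smul, hm]

/-- **Orbit sum**: a sum over orbit representatives of a function depending only on the prime of `K`
below is a sum over the primes of `K` above `q`. -/
theorem finsum_orbit_out_eq_finsum_primesOver {A : Type*} [AddCommMonoid A]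
    (F : MaximalSpectrum (LocAlg L q) → A) (f : PrimesOver K q → A)
    (hF : ∀ m, F m = f (primeBelowMaxSpec K m)) :
    ∑ᶠ ω : MulAction.orbitRel.Quotient G (MaximalSpectrum (LocAlg L q)), F ω.out =
      ∑ᶠ v : PrimesOver K q, f v := by
  rw [← finsum_comp_equiv (Equiv.ofBijective _
    (bijective_primeBelowMaxSpec_out (G := G) (L := L) K (q := q)))]
  exact finsum_congr fun ω => hF _

end Orbit

end Fermat.Agent.Lib.CFT.Global.ClassFormation.CycloSymbol
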