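import Fermat.Agent.Lib.CFT.Global.ClassFormation.CycloSymbolBridge
import Fermat.Agent.Lib.CFT.Global.ClassFormation.CycloSymbolGood
import Fermat.Agent.Lib.CFT.Global.ClassFormation.CycloSymbolOrbit
import Fermat.Agent.Lib.CFT.Global.ClassFormation.GlobalInv

/-!
# Reciprocity for symbols on cyclic cyclotomic layers (P-CFT (GI-5), helper93)

`K` a number field, `M = K(ζ_m)`, `L` an intermediate field of `M / K`, cyclic of odd degree over
`K` with generator `s` of `G = Gal(L/K)`, `x ∈ Kˣ`, and `c = i_*(x ∪ δχ_s) ∈ H²(G, J_L)`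
(`symbolIdeleClass`).  Assume

* `hbad`: the local components of `c` at all primes of `L` above the primes dividing `m` vanish;
* `hloc`: at a prime `mm` of `L` above `q ∤ m`, over the prime `v` of `K`, the local invariant of
  `c` is `χ_s(Frob_v) · ord_v(x)` (the unramified formula, (GI-4)(e) + (GI-5)(B3)).

Then the global invariant of `c` vanishes (`globalInv_symbolIdeleClass_eq_zero`).
-/

set_option autoImplicit false
set_option linter.unusedSectionVars false

open scoped NumberField Pointwise

namespace Fermat.Agent.Lib.CFT.Global.ClassFormation.CycloSymbol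

open Fermat.Agent.Lib.CFT.Coh.CyclicExplicit
open Fermat.Agent.Lib.CFT.Global Fermat.Agent.Lib.CFT.Global.EtaleAlg
open Fermat.Agent.Lib.CFT.Global.ArtinCyc
open Fermat.Agent.Lib.CFT.Local (LocalInvTheory)
open Fermat.Agent.Lib.CFT.Local.LocalBrauer (QZ)

section Character

variable {G : Type} [Group G] [Fintype G] (s : G) (hs : ∀ x, x ∈ Subgroup.zpowers s)

/-- The character `χ_s : G → ℚ/ℤ`, `s ^ j ↦ j / |G|`, of a finite cyclic group with generator `s`. -/
noncomputable def cycChar : Additive G →+ QZ where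
  toFun g := (((dlog s hs (Additive.toMul g) : ℚ) / (Fintype.card G : ℚ) : ℚ) : QZ)
  map_zero' := by
    show (((dlog s hs (1 : G) : ℚ) / (Fintype.card G : ℚ) : ℚ) : QZ) = 0
    rw [dlog_one]
    simp
  map_add' a b := by
    show (((dlog s hs (Additive.toMul a * Additive.toMul b) : ℚ) / (Fintype.card G : ℚ) : ℚ) : QZ) =
      (((dlog s hs (Additive.toMul a) : ℚ) / (Fintype.card G : ℚ) : ℚ) : QZ) +
        (((dlog s hs (Additive.toMul b) : ℚ) / (Fintype.card G : ℚ) : ℚ) : QZ)
    rw [dlog_mul, ← AddCircle.coe_add]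
    have hn : (Fintype.card G : ℚ) ≠ 0 := Nat.cast_ne_zero.2 Fintype.card_ne_zero
    set i := dlog s hs (Additive.toMul a)
    set j := dlog s hs (Additive.toMul b)
    set n := Fintype.card G
    have h1 : ((i + j : ℕ) : ℚ) = (((i + j) % n : ℕ) : ℚ) + (n : ℚ) * (((i + j) / n : ℕ) : ℚ) := by
      exact_mod_cast (Nat.mod_add_div (i + j) n).symm
    have h2 : ((i : ℚ) / n + (j : ℚ) / n) =
        ((((i + j) % n : ℕ) : ℚ) / n) + (((i + j) / n : ℕ) : ℚ) := by
      push_cast at h1
      field_simp
      linarith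
    rw [h2, AddCircle.coe_add]
    have h3 : (((((i + j) / n : ℕ) : ℚ) : ℚ) : QZ) = 0 := by
      have := AddCircle.coe_period (1 : ℚ)
      rw [show ((((i + j) / n : ℕ) : ℚ)) = ((i + j) / n : ℕ) • (1 : ℚ) by simp, AddCircle.coe_nsmul,
        this, smul_zero]
    rw [h3, add_zero]

lemma cycChar_ofMul (g : G) :
    cycChar s hs (Additive.ofMul g) =
      (((dlog s hs g : ℚ) / (Fintype.card G : ℚ) : ℚ) : QZ) := rfl

/-- `o • χ_s(g) = (dlog g * o) / |G|`. -/
lemma zsmul_cycChar_ofMul (g : G) (o : ℤ) :
    o • cycChar s hs (Additive.ofMul g) =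
      (((((dlog s hs g : ℤ) * o : ℤ) : ℚ) / (Fintype.card G : ℚ) : ℚ) : QZ) := by
  rw [cycChar_ofMul, ← AddCircle.coe_zsmul]
  congr 1
  push_cast
  rw [zsmul_eq_mul]
  ring

end Character

section Sum

variable (T : ∀ q : Nat.Primes, LocalInvTheory (pv q))
variable (K : Type) [Field K] [NumberField K] (M : Type) [Field M] [NumberField M] [Algebra K M]
  (m : ℕ) [NeZero m] [IsCyclotomicExtension {m} K M] (hirr : Irreducible (Polynomial.cyclotomic m K))
  (L : IntermediateField K M) [IsGalois K L]

/-- **Reciprocity for symbols on a cyclic cyclotomic layer of odd degree**: the global invariant of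
`i_*(x ∪ δχ_s)` vanishes, provided its local components above the primes dividing `m` vanish and
its local invariants at the primes not dividing `m` are given by the unramified formula. -/
theorem globalInv_symbolIdeleClass_eq_zero (hodd : Odd (Nat.card (L ≃ₐ[K] L)))
    (s : L ≃ₐ[K] L) (hs : ∀ g, g ∈ Subgroup.zpowers s) (x : Kˣ)
    (hbad : ∀ q : Nat.Primes, pv q ∣ m → ∀ mm : MaximalSpectrum (LocAlg L q),
      locComp L (L ≃ₐ[K] L) q mm 2 (symbolIdeleClass K L s hs x) = 0)
    (hloc : ∀ q : Nat.Primes, ¬ pv q ∣ m → ∀ mm : MaximalSpectrum (LocAlg L q),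
      locInv T L (L ≃ₐ[K] L) q mm (symbolIdeleClass K L s hs x) =
        (((((dlog s hs (frobCyc K M m hirr L (primeBelowMaxSpec K mm).1) : ℤ) *
          SUnits.ordAt (primeBelowMaxSpec K mm).1 x : ℤ) : ℚ) /
          (Fintype.card (L ≃ₐ[K] L) : ℚ) : ℚ) : QZ)) :
    globalInv T L (L ≃ₐ[K] L) (symbolIdeleClass K L s hs x) = 0 := by
  classical
  set c := symbolIdeleClass K L s hs x with hc
  set χ := cycChar s hs with hχ
  -- the contribution of a prime of `K`
  let f : ∀ q : Nat.Primes, Places.PrimesOver K q → QZ := fun q v =>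
    SUnits.ordAt v.1 x • χ (Additive.ofMul (frobCyc K M m hirr L v.1))
  -- the `q`-part of the global invariant
  have hprime : ∀ q : Nat.Primes, primeInv T L (L ≃ₐ[K] L) q c =
      if q ∈ goodSupport K m x then ∑ v : Places.PrimesOver K q, f q v else 0 := by
    intro q
    by_cases hq : pv q ∣ m
    · rw [if_neg (fun h => not_dvd_of_mem_goodSupport K m x h hq)]
      exact primeInv_eq_zero_of_forall T L (L ≃ₐ[K] L) q c (hbad q hq)
    · have h1 : primeInv T L (L ≃ₐ[K] L) q c = ∑ᶠ v : Places.PrimesOver K q, f q v := by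
        unfold primeInv
        refine finsum_orbit_out_eq_finsum_primesOver (G := L ≃ₐ[K] L) K
          (fun mm => locInv T L (L ≃ₐ[K] L) q mm c) (f q) (fun mm => ?_)
        rw [hloc q hq mm]
        exact (zsmul_cycChar_ofMul s hs _ _).symm
      rw [h1, finsum_eq_sum_of_fintype]
      split_ifs with hqT
      · rfl
      · refine Finset.sum_eq_zero fun v _ => ?_
        show SUnits.ordAt v.1 x • χ _ = 0
        rw [ordAt_eq_zero_of_notMem_goodSupport K m x hq hqT v, zero_smul]
  -- the sum over the good support is the character of the Artin symbol of the good part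
  have hsum : ∑ q ∈ goodSupport K m x, ∑ v : Places.PrimesOver K q, f q v = 0 := by
    have h1 := map_artinCyc_goodPart_principal_add K M m hirr L χ x
    rw [artinCyc_goodPart_principal_eq_one K M m hirr L hodd s hs x hbad] at h1
    rw [← h1]
    exact map_zero χ
  unfold globalInv
  rw [finsum_eq_sum_of_support_subset (s := goodSupport K m x)]
  · rw [← hsum]
    refine Finset.sum_congr rfl fun q hq => ?_
    rw [hprime q, if_pos hq]
  · intro q hq
    rw [Function.mem_support, hprime q] at hq
    by_contra hqT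
    rw [Finset.mem_coe] at hqT
    exact hq (if_neg hqT)

end Sum

end Fermat.Agent.Lib.CFT.Global.ClassFormation.CycloSymbol
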