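/-
helper70 (P-CFT, (GI-4)(b)/(GI-5): subextensions of cyclotomic extensions are unramified outside
the modulus).

* `inertia_under_eq_bot` : going down for trivial inertia in a tower `K ⊆ L ⊆ M` of Galois
  extensions of number fields (via `|I| = e` and multiplicativity of `e`);
* `inertia_eq_bot_of_intermediateField`, `inertia_eq_bot_of_primesOver` : for `L₁ ⊆ K(ζ_{m₀})`
  Galois over `K` and a prime `w` of `L₁` not containing `m₀`, `Ideal.inertia Gal(L₁/K) w = ⊥`;
* `eq_frobCyc_of_isArithFrobAt` : uniqueness of the arithmetic Frobenius at such primes.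
-/
import Mathlib
import Fermat.Agent.Lib.CFT.Global.ClassFormation.CycloSymbolFrob

set_option autoImplicit false
set_option linter.unusedSectionVars false

open scoped NumberField TensorProduct

namespace Fermat.Agent.Lib.CFT.Global.ArtinCyc

open Fermat.Agent.Lib.CFT.Global Polynomial IsDedekindDomain

section InertiaDown

variable {K L M : Type*} [Field K] [NumberField K] [Field L] [NumberField L] [Field M]
  [NumberField M] [Algebra K L] [Algebra K M] [Algebra L M] [IsScalarTower K L M]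
  [IsGalois K L] [IsGalois K M]

/-- Going down for trivial inertia: if a prime `W` of `M` has trivial inertia group in
`Gal(M/K)`, then the prime `W ∩ 𝓞 L` of a Galois subextension `L/K` has trivial inertia group in
`Gal(L/K)`. -/
theorem inertia_under_eq_bot (W : Ideal (𝓞 M)) [W.IsPrime]
    (h : Ideal.inertia Gal(M/K) W = ⊥) :
    Ideal.inertia Gal(L/K) (W.under (𝓞 L)) = ⊥ := by
  have : IsGalois L M := IsGalois.tower_top_of_isGalois K L M
  set v : Ideal (𝓞 K) := W.under (𝓞 K) with hv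
  set w : Ideal (𝓞 L) := W.under (𝓞 L) with hw
  have hwv : w.LiesOver v := by
    constructor
    rw [hv, hw, Ideal.under_under]
  have hWw : W.LiesOver w := ⟨rfl⟩
  have hWv : W.LiesOver v := ⟨rfl⟩
  have h1 : Nat.card (W.inertia Gal(M/K)) = v.ramificationIdxIn (𝓞 M) :=
    Ideal.card_inertia_eq_ramificationIdxIn v W
  have h2 : v.ramificationIdxIn (𝓞 L) * w.ramificationIdxIn (𝓞 M) = v.ramificationIdxIn (𝓞 M) :=
    Ideal.ramificationIdxIn_mul_ramificationIdxIn w Gal(L/K) (𝓞 M) Gal(M/K) Gal(M/L)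
  have h3 : Nat.card (w.inertia Gal(L/K)) = v.ramificationIdxIn (𝓞 L) :=
    Ideal.card_inertia_eq_ramificationIdxIn v w
  rw [h, Subgroup.card_bot] at h1
  rw [← h1] at h2
  have h4 : v.ramificationIdxIn (𝓞 L) = 1 := Nat.eq_one_of_mul_eq_one_right h2
  rw [h4] at h3
  exact Subgroup.eq_bot_of_card_eq _ h3

end InertiaDown

section CycloSub

variable (K : Type) [Field K] [NumberField K] (M₀ : Type) [Field M₀] [NumberField M₀] [Algebra K M₀]
  (m₀ : ℕ) [NeZero m₀] [IsCyclotomicExtension {m₀} K M₀]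
  (L₁ : IntermediateField K M₀) [IsGalois K L₁]

/-- **Subextensions of `K(ζ_{m₀})/K` are unramified outside `m₀`**: the inertia group in
`Gal(L₁/K)` of a prime of `L₁` not containing `m₀` is trivial. -/
theorem inertia_eq_bot_of_intermediateField (w : Ideal (𝓞 L₁)) [w.IsPrime]
    (hm : (m₀ : 𝓞 L₁) ∉ w) : Ideal.inertia Gal(L₁/K) w = ⊥ := by
  have : IsGalois K M₀ := IsCyclotomicExtension.isGalois {m₀} K M₀
  obtain ⟨W, -, hWp, hW⟩ := Ideal.exists_ideal_over_prime_of_isIntegral w (⊥ : Ideal (𝓞 M₀))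
    (by
      rw [Ideal.comap_bot_of_injective _ (FaithfulSMul.algebraMap_injective (𝓞 L₁) (𝓞 M₀))]
      exact bot_le)
  have hmW : (m₀ : 𝓞 M₀) ∉ W := by
    intro h
    apply hm
    rw [← hW, Ideal.mem_comap, map_natCast]
    exact h
  have h1 : Ideal.inertia Gal(M₀/K) W = ⊥ :=
    Unram.CycloFrob.inertia_eq_bot (IsCyclotomicExtension.zeta_spec m₀ K M₀) hmW
  have h2 := inertia_under_eq_bot (K := K) (L := L₁) W h1
  have hWw : W.under (𝓞 L₁) = w := hW
  rw [hWw] at h2
  exact h2

/-- The same at the primes above a rational prime `q ∤ m₀`. -/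
theorem inertia_eq_bot_of_primesOver (q : Nat.Primes) (hq : ¬ pv q ∣ m₀)
    (w : Places.PrimesOver L₁ q) : Ideal.inertia Gal(L₁/K) w.1.asIdeal = ⊥ := by
  have := w.1.isPrime
  exact inertia_eq_bot_of_intermediateField K M₀ m₀ L₁ w.1.asIdeal
    (natCast_notMem_of_not_dvd L₁ m₀ q hq w)

variable (hirr : Irreducible (cyclotomic m₀ K))

/-- **Uniqueness of the Frobenius**: an arithmetic Frobenius in `Gal(L₁/K)` at a prime `w` of `L₁`
above `v ∌ m₀` is `frobCyc v`. -/
theorem eq_frobCyc_of_isArithFrobAt (v : HeightOneSpectrum (𝓞 K)) (hv : (m₀ : 𝓞 K) ∉ v.asIdeal)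
    (w : Ideal (𝓞 L₁)) [w.IsPrime] (hw : w.under (𝓞 K) = v.asIdeal) (σ : Gal(L₁/K))
    (hσ : IsArithFrobAt (𝓞 K) σ w) : σ = frobCyc K M₀ m₀ hirr L₁ v := by
  have hmw : (m₀ : 𝓞 L₁) ∉ w := by
    intro h
    apply hv
    rw [← hw, Ideal.under_def, Ideal.mem_comap, map_natCast]
    exact h
  have h1 := hσ.mul_inv_mem_inertia (isArithFrobAt_frobCyc K M₀ m₀ hirr L₁ v hv w hw)
  rw [inertia_eq_bot_of_intermediateField K M₀ m₀ L₁ w hmw, Subgroup.mem_bot] at h1
  exact mul_inv_eq_one.1 h1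

end CycloSub

end Fermat.Agent.Lib.CFT.Global.ArtinCyc
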