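import Fermat.Agent.Lib.CFT.Global.LocalDict.Unram
import Fermat.Agent.Lib.CFT.Global.LocalDict.Ord
import Fermat.Agent.Lib.CFT.Global.ClassFormation.CycloSymbolSum
import Fermat.Agent.Lib.CFT.Global.ClassFormation.CycloSymbolUnram
import Fermat.Agent.Lib.CFT.Global.ClassFormation.CycloSymbolLocal

/-!
# The unramified local invariants of the symbols on cyclotomic layers (P-CFT (GI-5), helper93)

`K` a number field, `M = K(ζ_m)`, `L` an intermediate field of `M / K` Galois over `K`, cyclic with
generator `s` of `G = Gal(L/K)`, `x ∈ Kˣ`, `c = i_*(x ∪ δχ_s) ∈ H²(G, J_L)`.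

* `ordAt_map_eq_of_inertia_eq_bot`: at a prime `w` of `L` with trivial inertia over the prime `v`
  of `K`, `ord_w(x) = ord_v(x)` for `x ∈ Kˣ`;
* `locInv_symbolIdeleClass_of_not_dvd`: at a prime `mm` of `L` above `q ∤ m`, over the prime `v` of
  `K`, the local invariant of `c` is `χ_s(Frob_v) · ord_v(x)` (from (GI-4)(e), `invAtPrime_unram`);
* `globalInv_symbolIdeleClass_eq_zero'`: for `[L : K]` odd, the global invariant of `c` vanishes as
  soon as its local components above the primes dividing `m` vanish.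
-/

set_option autoImplicit false
set_option linter.unusedSectionVars false
set_option linter.style.haveILetI false
open scoped NumberField Pointwise

namespace Fermat.Agent.Lib.CFT.Global.ClassFormation.CycloSymbol

open IsDedekindDomain
open Fermat.Agent.Lib.CFT.Coh.CyclicExplicit
open Fermat.Agent.Lib.CFT.Global Fermat.Agent.Lib.CFT.Global.EtaleAlg
open Fermat.Agent.Lib.CFT.Global.ArtinCyc
open Fermat.Agent.Lib.CFT.Global.Places Fermat.Agent.Lib.CFT.Global.Places.Galois
open Fermat.Agent.Lib.CFT.Global.LocalFieldAt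
open Fermat.Agent.Lib.CFT.Local (LocalInvTheory)
open Fermat.Agent.Lib.CFT.Local.LocalBrauer (QZ)
open Fermat.Agent.Lib.CFT.Local.UnitsFiltration (ord)

attribute [local instance] Units.mulDistribMulActionRight

/-- At a prime `w` of `L` with trivial inertia group, over the prime `v` of `K`, the `w`-adic
valuation of an element of `Kˣ` is its `v`-adic valuation. -/
theorem ordAt_map_eq_of_inertia_eq_bot {K L : Type} [Field K] [NumberField K] [Field L]
    [NumberField L] [Algebra K L]
    {G : Type} [Group G] [Finite G] [MulSemiringAction G L] [IsGaloisGroup G K L]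
    (v : HeightOneSpectrum (𝓞 K)) (w : HeightOneSpectrum (𝓞 L))
    (hvw : w.asIdeal.under (𝓞 K) = v.asIdeal)
    (h : Ideal.inertia G w.asIdeal = ⊥) (x : Kˣ) :
    SUnits.ordAt w (Units.map (algebraMap K L : K →* L) x) = SUnits.ordAt v x := by
  haveI : w.asIdeal.LiesOver v.asIdeal := ⟨hvw.symm⟩
  haveI : IsGaloisGroup G (𝓞 K) (𝓞 L) := IsGaloisGroup.of_isFractionRing G (𝓞 K) (𝓞 L) K L
  have h1 : Nat.card (w.asIdeal.inertia G) = v.asIdeal.ramificationIdxIn (𝓞 L) :=
    Ideal.card_inertia_eq_ramificationIdxIn v.asIdeal w.asIdeal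
  rw [h, Subgroup.card_bot] at h1
  have h2 := Ideal.ramificationIdxIn_eq_ramificationIdx v.asIdeal w.asIdeal G
  have h3 := Ideal.ramificationIdx'_eq_ramificationIdx v.asIdeal w.asIdeal v.ne_bot
  have h4 := HeightOneSpectrum.valuation_liesOver L v w (x : K)
  rw [h3, ← h2, ← h1, pow_one] at h4
  have h5 := SUnits.valuation_eq_exp_neg_ordAt v x
  have h6 := SUnits.valuation_eq_exp_neg_ordAt w (Units.map (algebraMap K L : K →* L) x)
  have h7 : ((Units.map (algebraMap K L : K →* L) x : Lˣ) : L) = algebraMap K L (x : K) := rfl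
  rw [h7, ← h4, h5, WithZero.exp_inj, neg_inj] at h6
  exact h6.symm

section Unram

variable (T : ∀ q : Nat.Primes, LocalInvTheory (pv q))
variable (K : Type) [Field K] [NumberField K] (M : Type) [Field M] [NumberField M] [Algebra K M]
  (m : ℕ) [NeZero m] [IsCyclotomicExtension {m} K M] (hirr : Irreducible (Polynomial.cyclotomic m K))
  (L : IntermediateField K M) [IsGalois K L]

/-- **The unramified local invariants of the symbol**: at a prime `mm` of `L` above `q ∤ m`, over
the prime `v` of `K`, the local invariant of `i_*(x ∪ δχ_s)` is `χ_s(Frob_v) · ord_v(x)`. -/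
theorem locInv_symbolIdeleClass_of_not_dvd (s : L ≃ₐ[K] L) (hs : ∀ g, g ∈ Subgroup.zpowers s)
    (x : Kˣ) (q : Nat.Primes) (hq : ¬ pv q ∣ m) (mm : MaximalSpectrum (LocAlg L q)) :
    locInv T L (L ≃ₐ[K] L) q mm (symbolIdeleClass K L s hs x) =
      (((((dlog s hs (frobCyc K M m hirr L (primeBelowMaxSpec K mm).1) : ℤ) *
          SUnits.ordAt (primeBelowMaxSpec K mm).1 x : ℤ) : ℚ) /
          (Fintype.card (L ≃ₐ[K] L) : ℚ) : ℚ) : QZ) := by
  classical
  obtain ⟨w, rfl⟩ := (primesEquivMaximalSpectrum L q).surjective mm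
  rw [primeBelowMaxSpec_primesEquiv]
  have hvw : LiesOverAlong (algebraMap (𝓞 K) (𝓞 L)) (primeBelow K w) w :=
    liesOverAlong_primeBelow w
  have hin : Ideal.inertia (L ≃ₐ[K] L) w.1.asIdeal = ⊥ :=
    inertia_eq_bot_of_primesOver K M m L q hq w
  have hmv : (m : 𝓞 K) ∉ (primeBelow K w).1.asIdeal :=
    natCast_notMem_of_not_dvd K m q hq (primeBelow K w)
  have := w.1.isPrime
  have hfrob := isArithFrobAt_frobCyc K M m hirr L (primeBelow K w).1 hmv w.1.asIdeal rfl
  have hstab : frobCyc K M m hirr L (primeBelow K w).1 ∈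
      MulAction.stabilizer (L ≃ₐ[K] L) (primesEquivMaximalSpectrum L q w) :=
    (mem_stabilizer_primesEquiv_iff' q _ w).2 hfrob.mem_stabilizer
  have hord : ∀ (u : (localField L q w)ˣ) (k : ℤ),
      ord (localInt L q w) (localField L q w) (u ^ k) =
        k * ord (localInt L q w) (localField L q w) u :=
    fun u k => Fermat.Agent.Lib.CFT.Local.UnitsFiltration.ord_zpow u k
  have key := locInv_scalarClass_carry_of_invariants_of_cocycle_formula T L (L ≃ₐ[K] L) s hs q
    (primesEquivMaximalSpectrum L q w) (baseUnit K L x)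
    ⟨frobCyc K M m hirr L (primeBelow K w).1, hstab⟩
    (fun u => ord (localInt L q w) (localField L q w) u)
    hord
    (fun c => by
      have h1 := LocalDict.invAtPrime_unram T hvw hin
        ⟨frobCyc K M m hirr L (primeBelow K w).1, hstab⟩
        (fun y => hfrob y) c
      exact h1)
  have hordx : ord (localInt L q w) (localField L q w)
      (fieldAtUnit L q (primesEquivMaximalSpectrum L q w)
        (Additive.toMul (α := Lˣ) (baseUnit K L x).1)) = SUnits.ordAt (primeBelow K w).1 x := by
    have h1 := LocalDict.ord_ofField w (Units.map (algebraMap K L : K →* L) x)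
    have h2 := ordAt_map_eq_of_inertia_eq_bot (G := L ≃ₐ[K] L) (primeBelow K w).1 w.1 rfl hin x
    rw [← h2, ← h1]
    rfl
  rw [hordx] at key
  exact key

include hirr in
/-- **Reciprocity for symbols on a cyclic cyclotomic layer of odd degree**, with the unramified
local invariants computed: the global invariant of `i_*(x ∪ δχ_s)` vanishes as soon as its local
components above the primes dividing `m` vanish. -/
theorem globalInv_symbolIdeleClass_eq_zero' (hodd : Odd (Nat.card (L ≃ₐ[K] L)))
    (s : L ≃ₐ[K] L) (hs : ∀ g, g ∈ Subgroup.zpowers s) (x : Kˣ)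
    (hbad : ∀ q : Nat.Primes, pv q ∣ m → ∀ mm : MaximalSpectrum (LocAlg L q),
      locComp L (L ≃ₐ[K] L) q mm 2 (symbolIdeleClass K L s hs x) = 0) :
    globalInv T L (L ≃ₐ[K] L) (symbolIdeleClass K L s hs x) = 0 :=
  globalInv_symbolIdeleClass_eq_zero T K M m hirr L hodd s hs x hbad
    (fun q hq mm => locInv_symbolIdeleClass_of_not_dvd T K M m hirr L s hs x q hq mm)

end Unram

end Fermat.Agent.Lib.CFT.Global.ClassFormation.CycloSymbol
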