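import Fermat.Agent.Lib.CFT.Global.ClassFormation.CycloSymbolBridge
import Fermat.Agent.Lib.CFT.Global.ClassFormation.CycloSymbolLocal

/-!
# Local components and local invariants of `symbolIdeleClass` (P-CFT (GI-5)(B), helper77)

The statements of `CycloSymbolLocal.lean` specialised to the Galois situation of
`CycloSymbolBridge.lean`: `L / K` finite with cyclic group `Gal(L/K) = ⟨s⟩`, `x : Kˣ`, and the class
`symbolIdeleClass K L s hs x ∈ H²(Gal(L/K), J_L)`.
-/

set_option autoImplicit false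
set_option linter.unusedSectionVars false

namespace Fermat.Agent.Lib.CFT.Global.ClassFormation.CycloSymbol

open CategoryTheory groupCohomology
open Fermat.Agent.Lib.CFT.Coh.CyclicExplicit Fermat.Agent.Lib.CFT.Global.ClassFormation
open Fermat.Agent.Lib.CFT.Global Fermat.Agent.Lib.CFT.Global.EtaleAlg
open Fermat.Agent.Lib.CFT.Global.LocalFieldAt
open Fermat.Agent.Lib.CFT.Local (LocalInvTheory)
open Fermat.Agent.Lib.CFT.Local.LocalBrauer (QZ)

open scoped Pointwise

attribute [local instance] Units.mulDistribMulActionRight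

section Gal

variable (T : ∀ q : Nat.Primes, LocalInvTheory (pv q))
variable (K L : Type) [Field K] [NumberField K] [Field L] [NumberField L] [Algebra K L]
  [FiniteDimensional K L]
variable (s : L ≃ₐ[K] L) (hs : ∀ g, g ∈ Subgroup.zpowers s) (x : Kˣ)

/-- The image of `x : Kˣ` in the local field of `L` at `m`. -/
noncomputable def baseFieldAtUnit (q : Nat.Primes) (m : MaximalSpectrum (LocAlg L q)) :
    Kˣ →* (FieldAt L q m)ˣ :=
  (fieldAtUnit L q m).comp (Units.map (algebraMap K L : K →* L))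

lemma baseFieldAtUnit_apply (q : Nat.Primes) (m : MaximalSpectrum (LocAlg L q)) :
    baseFieldAtUnit K L q m x = fieldAtUnit L q m (Units.map (algebraMap K L : K →* L) x) := rfl

lemma coe_baseFieldAtUnit (q : Nat.Primes) (m : MaximalSpectrum (LocAlg L q)) :
    ((baseFieldAtUnit K L q m x : (FieldAt L q m)ˣ) : FieldAt L q m) =
      toFieldAt L q m (algebraMap K L (x : K)) := rfl

/-- The image of `x : Kˣ` in the local field at `m`, as an invariant element for the decomposition
group. -/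
noncomputable def baseFieldAtInv (q : Nat.Primes) (m : MaximalSpectrum (LocAlg L q)) :
    (Rep.ofMulDistribMulAction (MulAction.stabilizer (L ≃ₐ[K] L) m) (FieldAt L q m)ˣ).ρ.invariants :=
  fieldAtInvOf L (L ≃ₐ[K] L) q m (baseUnit K L x)

lemma coe_baseFieldAtInv (q : Nat.Primes) (m : MaximalSpectrum (LocAlg L q)) :
    ((baseFieldAtInv K L x q m :
      (Rep.ofMulDistribMulAction (MulAction.stabilizer (L ≃ₐ[K] L) m)
        (FieldAt L q m)ˣ).ρ.invariants) :
      Rep.ofMulDistribMulAction (MulAction.stabilizer (L ≃ₐ[K] L) m) (FieldAt L q m)ˣ) =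
      Additive.ofMul (baseFieldAtUnit K L q m x) := rfl

/-- **(B2)** for `symbolIdeleClass`. -/
theorem locComp_symbolIdeleClass (q : Nat.Primes) (m : MaximalSpectrum (LocAlg L q)) :
    locComp L (L ≃ₐ[K] L) q m 2 (symbolIdeleClass K L s hs x) =
      scalarClass (Rep.ofMulDistribMulAction (MulAction.stabilizer (L ≃ₐ[K] L) m) (FieldAt L q m)ˣ)
        ((isScalarCocycle_carry ℤ s hs).comp (MulAction.stabilizer (L ≃ₐ[K] L) m).subtype)
        (baseFieldAtInv K L x q m) :=
  locComp_scalarClass_of_invariants L (L ≃ₐ[K] L) q m (isScalarCocycle_carry ℤ s hs)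
    (baseUnit K L x)

/-- The symbol of `x` is locally trivial at `m` iff `x` is a norm from the local field at `m` for
the decomposition group. -/
theorem locComp_symbolIdeleClass_eq_zero_iff (q : Nat.Primes) (m : MaximalSpectrum (LocAlg L q))
    [Fintype (MulAction.stabilizer (L ≃ₐ[K] L) m)] :
    locComp L (L ≃ₐ[K] L) q m 2 (symbolIdeleClass K L s hs x) = 0 ↔
      ∃ t : (FieldAt L q m)ˣ, ∏ d : MulAction.stabilizer (L ≃ₐ[K] L) m, d • t =
        baseFieldAtUnit K L q m x :=
  locComp_scalarClass_carry_eq_zero_iff_of_invariants L (L ≃ₐ[K] L) s hs q m (baseUnit K L x)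

/-- **(B3)** for `symbolIdeleClass`: given the unramified formula `hunr` on scalar classes at `m`
(`σ` the Frobenius in the decomposition group, `o` the valuation of `x` at `m`), the local invariant
of the symbol of `x` at `m` is `dlog s σ * o / [L : K]`. -/
theorem locInv_symbolIdeleClass (q : Nat.Primes) (m : MaximalSpectrum (LocAlg L q))
    [Fintype (MulAction.stabilizer (L ≃ₐ[K] L) m)]
    (σ : MulAction.stabilizer (L ≃ₐ[K] L) m) (o : ℤ)
    (hunr : ∀ (z : MulAction.stabilizer (L ≃ₐ[K] L) m → MulAction.stabilizer (L ≃ₐ[K] L) m → ℤ)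
      (hz : IsScalarCocycle z),
      invAtPrime T L (L ≃ₐ[K] L) q m (scalarClass
        (Rep.ofMulDistribMulAction (MulAction.stabilizer (L ≃ₐ[K] L) m) (FieldAt L q m)ˣ) hz
        (baseFieldAtInv K L x q m)) =
      (((((∑ τ : MulAction.stabilizer (L ≃ₐ[K] L) m, z σ τ) * o : ℤ) : ℚ) /
        (Nat.card (MulAction.stabilizer (L ≃ₐ[K] L) m) : ℚ) : ℚ) : QZ)) :
    locInv T L (L ≃ₐ[K] L) q m (symbolIdeleClass K L s hs x) =
      (((((dlog s hs (σ : L ≃ₐ[K] L) : ℤ) * o : ℤ) : ℚ) /
        (Fintype.card (L ≃ₐ[K] L) : ℚ) : ℚ) : QZ) :=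
  locInv_scalarClass_carry_of_invariants T L (L ≃ₐ[K] L) s hs q m (baseUnit K L x) σ o hunr

/-- **(B3)** for `symbolIdeleClass`, from the cocycle-level unramified formula. -/
theorem locInv_symbolIdeleClass_of_cocycle_formula (q : Nat.Primes)
    (m : MaximalSpectrum (LocAlg L q)) [Fintype (MulAction.stabilizer (L ≃ₐ[K] L) m)]
    (σ : MulAction.stabilizer (L ≃ₐ[K] L) m) (ord : (FieldAt L q m)ˣ → ℤ)
    (hord : ∀ (u : (FieldAt L q m)ˣ) (k : ℤ), ord (u ^ k) = k * ord u)
    (hcoc : ∀ c : cocycles₂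
        (Rep.ofMulDistribMulAction (MulAction.stabilizer (L ≃ₐ[K] L) m) (FieldAt L q m)ˣ),
      invAtPrime T L (L ≃ₐ[K] L) q m (H2π _ c) =
        ((((∑ τ : MulAction.stabilizer (L ≃ₐ[K] L) m,
          ord (Additive.toMul (α := (FieldAt L q m)ˣ) (c (σ, τ))) : ℤ) : ℚ) /
          (Nat.card (MulAction.stabilizer (L ≃ₐ[K] L) m) : ℚ) : ℚ) : QZ)) :
    locInv T L (L ≃ₐ[K] L) q m (symbolIdeleClass K L s hs x) =
      (((((dlog s hs (σ : L ≃ₐ[K] L) : ℤ) * ord (baseFieldAtUnit K L q m x) : ℤ) : ℚ) /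
        (Fintype.card (L ≃ₐ[K] L) : ℚ) : ℚ) : QZ) :=
  locInv_scalarClass_carry_of_invariants_of_cocycle_formula T L (L ≃ₐ[K] L) s hs q m
    (baseUnit K L x) σ ord hord hcoc

end Gal

end Fermat.Agent.Lib.CFT.Global.ClassFormation.CycloSymbol
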