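import Fermat.Agent.Lib.CFT.Global.ClassFormation.CycloSymbolAll
import Fermat.Agent.Lib.CFT.Global.ClassFormation.AdaptedTower
import Fermat.Agent.Lib.CFT.Global.CohIdeles.HasseH2

/-!
# The sum formula for classes of odd prime power order, Galois form (P-CFT (GI-9) glue, helper93)

Assembly of `AdaptedTower.globalInv_principalClass_eq_zero_of_support` (helper17) with the Hasse
principle `CohIdeles.hasse_units'`, the finiteness of the support `CohIdeles.hasFiniteSupport`
(helper58) and the sum formula on cyclic cyclotomic layers `cyclo_hO2a_finrank`.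
-/

set_option autoImplicit false
set_option linter.unusedSectionVars false
open scoped NumberField Pointwise

namespace Fermat.Agent.Lib.CFT.Global.ClassFormation.CycloSymbol

open Fermat.Agent.Lib.CFT.Global Fermat.Agent.Lib.CFT.Global.EtaleAlg
open Fermat.Agent.Lib.CFT.Global.ClassFormation
open Fermat.Agent.Lib.CFT.Local (LocalInvTheory)

section SumFormulaGal

variable (T : ∀ q : Nat.Primes, LocalInvTheory (pv q))
variable (K L : Type) [Field K] [NumberField K] [Field L] [NumberField L] [Algebra K L]
  [IsGalois K L]

/-- **The sum formula for classes of odd prime power order** (Galois form): for a Galois extension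
`L / K` of number fields and a class `α ∈ H²(Gal(L/K), Lˣ)` killed by a power of an odd prime, the
sum of the local invariants of `α` vanishes. -/
theorem globalInv_principalClass_eq_zero_of_primePow {p : ℕ} (hp : p.Prime) (hp2 : p ≠ 2) (k : ℕ)
    (α : groupCohomology (unitsRep L (L ≃ₐ[K] L)) 2) (hα : (p ^ k) • α = 0) :
    globalInv T L (L ≃ₐ[K] L) (principalClass L (L ≃ₐ[K] L) α) = 0 := by
  classical
  have hfin := CohIdeles.hasFiniteSupport L (L ≃ₐ[K] L) (principalClass L (L ≃ₐ[K] L) α)
  refine AdaptedTower.globalInv_principalClass_eq_zero_of_support T K L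
    (fun M _ _ N _ _ _ _ c hfin harch => CohIdeles.hasse_units' M N c hfin harch)
    (fun m _ hirr M0 _ _ _ _ _ L₁ _ hc ho β hβ => cyclo_hO2a_finrank T K M0 m hirr L₁ hc ho β hβ)
    hp hp2 k α hα hfin.toFinset ?_
  intro q hq m₀
  by_contra h
  exact hq (hfin.mem_toFinset.2 ⟨m₀, h⟩)

end SumFormulaGal

end Fermat.Agent.Lib.CFT.Global.ClassFormation.CycloSymbol
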