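import Fermat.Agent.Lib.CFT.Global.ClassFormation.CycloLayer
import Fermat.Agent.Lib.CFT.Global.ArtinCyclotomicSurjGen
import Fermat.Agent.Lib.CFT.Global.SecondIneq.ConsequencesCyclicAll

/-!
# `H²(Gal(L/K), C_L)` is cyclic of order `[L:K]` for `p`-power layers (P-CFT, helper50)

Input: the two Props `FirstIneqHerbrand` and `PrimeLayersGood` of `SecondIneq/ConsequencesDefs.lean`
(the second follows from the first by `SecondIneq.Instance.primeLayersGood_of_herbrand`).

* `card_H2_and_isAddCyclic_of_cyclotomic_of_ineq`: `CycloLayer.card_H2_and_isAddCyclic_of_cyclotomic`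
  with all its hypotheses discharged from the two inequalities and helper57's surjectivity of the
  cyclotomic Artin map: for `Z = K(ζ_m)`, `M = L'(ζ_m)`, `(ℤ/m)ˣ` cyclic, `[L':K] ∣ [Z:K]`.
* `card_H2_and_isAddCyclic_of_prime_pow`: for `p` an odd prime and `L'/K` Galois of degree `p^e`:
  `|H²(Gal(L'/K), C_{L'})| = [L':K]` and this group is cyclic.
-/

set_option autoImplicit false

open CategoryTheory Rep groupCohomology Polynomial IntermediateField

namespace Fermat.Agent.Lib.CFT.Global.ClassFormation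

open Fermat.Agent.Lib.CFT.Global Fermat.Agent.Lib.CFT.Global.SecondIneq.Consequences ArtinCyc

section Arith

/-- `φ(m)` divides `[K : ℚ] * [K(ζ_m) : K]`. -/
lemma totient_dvd_finrank_mul (K : Type) [Field K] [NumberField K] (m : ℕ) [NeZero m] (Z : Type)
    [Field Z] [NumberField Z] [Algebra K Z] [IsCyclotomicExtension {m} K Z] :
    m.totient ∣ Module.finrank ℚ K * Module.finrank K Z := by
  have hz := IsCyclotomicExtension.zeta_spec m K Z
  set ζ := IsCyclotomicExtension.zeta m K Z
  have hint : IsIntegral ℚ ζ := Algebra.IsIntegral.isIntegral ζ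
  have h1 : Module.finrank ℚ ℚ⟮ζ⟯ = m.totient := by
    rw [IntermediateField.adjoin.finrank hint, ← cyclotomic_eq_minpoly_rat hz (NeZero.pos m),
      natDegree_cyclotomic]
  rw [Module.finrank_mul_finrank ℚ K Z, ← Module.finrank_mul_finrank ℚ ℚ⟮ζ⟯ Z, h1]
  exact dvd_mul_right _ _

/-- For a prime `p`, `e` and `d ≠ 0` there is `j` such that `φ(p^(j+1)) ∣ d * x` forces
`p^e ∣ x`. -/
lemma exists_pow_dvd_of_totient_dvd (p : ℕ) (hp : p.Prime) (e d : ℕ) (hd : d ≠ 0) :
    ∃ j : ℕ, ∀ x : ℕ, (p ^ (j + 1)).totient ∣ d * x → p ^ e ∣ x := by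
  obtain ⟨k, d', hd', rfl⟩ := Nat.exists_eq_pow_mul_and_not_dvd hd p hp.ne_one
  refine ⟨e + k, fun x hx => ?_⟩
  rw [Nat.totient_prime_pow_succ hp] at hx
  have h1 : p ^ (e + k) ∣ p ^ k * d' * x := (dvd_mul_right _ _).trans hx
  rw [pow_add, mul_comm (p ^ e), mul_assoc] at h1
  have h2 : p ^ e ∣ d' * x := (Nat.mul_dvd_mul_iff_left (pow_pos hp.pos k)).1 h1
  exact (Nat.Coprime.pow_left e ((Nat.Prime.coprime_iff_not_dvd hp).2 hd')).dvd_of_dvd_mul_left h2

end Arith

section General

/-- `H¹(H, C_M) = 0` for every subgroup `H` of `Gal(M/K)`. -/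
theorem isZero_H1_res_ideleClassRep (K M : Type) [Field K] [NumberField K] [Field M]
    [NumberField M] [Algebra K M] [IsGalois K M] (hP : PrimeLayersGood)
    (H : Subgroup (M ≃ₐ[K] M)) :
    Limits.IsZero (groupCohomology (res H.subtype (ideleClassRep M (M ≃ₐ[K] M))) 1) :=
  Limits.IsZero.of_iso (layerGood hP (fixedField H) M).1 (resIso H 1)

/-- **`H²` of a Galois layer via the cyclotomic layer, from the two inequalities.**  Here
`Z = K(ζ_m)`, `M = L'(ζ_m)`, `(ℤ/m)ˣ` is cyclic and `[L':K] ∣ [Z:K]`. -/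
theorem card_H2_and_isAddCyclic_of_cyclotomic_of_ineq (K Z L' M : Type) [Field K] [NumberField K]
    [Field Z] [NumberField Z] [Field L'] [NumberField L'] [Field M] [NumberField M]
    [Algebra K Z] [Algebra Z M] [Algebra K L'] [Algebra L' M] [Algebra K M]
    [IsScalarTower K Z M] [IsScalarTower K L' M]
    [IsGalois K Z] [IsGalois K L'] [IsGalois K M]
    (m : ℕ) [NeZero m] [IsCyclotomicExtension {m} K Z] [IsCyclotomicExtension {m} L' M]
    (h1 : FirstIneqHerbrand) (hP : PrimeLayersGood) [IsCyclic (ZMod m)ˣ]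
    (hdiv : Module.finrank K L' ∣ Module.finrank K Z) :
    Nat.card (H2 (ideleClassRep L' (L' ≃ₐ[K] L'))) = Module.finrank K L' ∧
      IsAddCyclic (H2 (ideleClassRep L' (L' ≃ₐ[K] L'))) := by
  have hcycZ : IsCyclic (Z ≃ₐ[K] Z) := isCyclic_gal_of_isCyclic_units K Z m
  have hcycM : IsCyclic (M ≃ₐ[L'] M) := isCyclic_gal_of_isCyclic_units L' M m
  have : IsGalois L' M := IsCyclotomicExtension.isGalois {m} L' M
  obtain ⟨-, hfin, hdvd⟩ := layerGood hP K L'
  have := hfin
  exact card_H2_and_isAddCyclic_of_cyclotomic K Z L' M m hdiv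
    (cycloRange_le_range_omega K Z m) (cycloRange_le_range_omega L' M m)
    (card_H2_of_isCyclic K Z h1 hP) (card_H2_of_isCyclic L' M h1 hP)
    (isZero_H1_res_ideleClassRep K M hP _) (isZero_H1_res_ideleClassRep K M hP _)
    (Nat.le_of_dvd Module.finrank_pos hdvd)

end General

section PrimePower

variable (K L' : Type) [Field K] [NumberField K] [Field L'] [NumberField L'] [Algebra K L']

/-- The `K`-embedding `K(ζ_m) → L'(ζ_m)`. -/
noncomputable def cycloLift (m : ℕ) [NeZero m] : CyclotomicField m K →ₐ[K] CyclotomicField m L' :=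
  Polynomial.SplittingField.lift (cyclotomic m K) (by
    have h := IsCyclotomicExtension.splits_cyclotomic (S := {m}) L' (CyclotomicField m L')
      (Set.mem_singleton m)
    rw [← map_cyclotomic m (algebraMap K L'), Polynomial.map_map,
      ← IsScalarTower.algebraMap_eq] at h
    exact h)

theorem exists_ne_zero_isSplittingField [IsGalois K L'] :
    ∃ f : K[X], f ≠ 0 ∧ IsSplittingField K L' f := by
  obtain ⟨f, hf⟩ := Normal.exists_isSplittingField K L'
  by_cases h0 : f = 0
  · subst h0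
    refine ⟨1, one_ne_zero, ⟨by simp, ?_⟩⟩
    have := hf.adjoin_rootSet
    simpa [rootSet_zero] using this
  · exact ⟨f, h0, hf⟩

/-- `L'(ζ_m)/K` is Galois if `L'/K` is. -/
theorem isGalois_cyclotomicField [IsGalois K L'] (m : ℕ) [NeZero m] :
    IsGalois K (CyclotomicField m L') := by
  obtain ⟨f, hf0, hf⟩ := exists_ne_zero_isSplittingField K L'
  have h2 : IsSplittingField L' (CyclotomicField m L')
      ((cyclotomic m K).map (algebraMap K L')) := by
    rw [map_cyclotomic]
    exact IsCyclotomicExtension.splitting_field_cyclotomic m L' _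
  have h3 := Polynomial.IsSplittingField.mul (F := K) (K := L') (CyclotomicField m L') f
    (cyclotomic m K) hf0 (cyclotomic_ne_zero m K)
  have := Normal.of_isSplittingField (F := K) (E := CyclotomicField m L') (f * cyclotomic m K)
  exact ⟨⟩

/-- **`p`-power layers** (`p` odd): `H²(Gal(L'/K), C_{L'})` is cyclic of order `[L':K]`. -/
theorem card_H2_and_isAddCyclic_of_prime_pow (h1 : FirstIneqHerbrand) (hP : PrimeLayersGood)
    [IsGalois K L'] (p : ℕ) (hp : p.Prime) (hp2 : p ≠ 2) (e : ℕ)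
    (he : Module.finrank K L' = p ^ e) :
    Nat.card (H2 (ideleClassRep L' (L' ≃ₐ[K] L'))) = Module.finrank K L' ∧
      IsAddCyclic (H2 (ideleClassRep L' (L' ≃ₐ[K] L'))) := by
  obtain ⟨j, hj⟩ := exists_pow_dvd_of_totient_dvd p hp e (Module.finrank ℚ K)
    Module.finrank_pos.ne'
  have : NeZero (p ^ (j + 1)) := ⟨(pow_pos hp.pos _).ne'⟩
  let _ : Algebra (CyclotomicField (p ^ (j + 1)) K) (CyclotomicField (p ^ (j + 1)) L') :=
    (cycloLift K L' (p ^ (j + 1))).toRingHom.toAlgebra
  have : IsScalarTower K (CyclotomicField (p ^ (j + 1)) K) (CyclotomicField (p ^ (j + 1)) L') :=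
    IsScalarTower.of_algebraMap_eq (fun x => ((cycloLift K L' (p ^ (j + 1))).commutes x).symm)
  have : IsGalois K (CyclotomicField (p ^ (j + 1)) K) :=
    IsCyclotomicExtension.isGalois {p ^ (j + 1)} K _
  have : IsGalois K (CyclotomicField (p ^ (j + 1)) L') := isGalois_cyclotomicField K L' _
  have : IsCyclic (ZMod (p ^ (j + 1)))ˣ := ZMod.isCyclic_units_of_prime_pow p hp hp2 (j + 1)
  refine card_H2_and_isAddCyclic_of_cyclotomic_of_ineq K (CyclotomicField (p ^ (j + 1)) K) L'
    (CyclotomicField (p ^ (j + 1)) L') (p ^ (j + 1)) h1 hP ?_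
  rw [he]
  exact hj _ (totient_dvd_finrank_mul K (p ^ (j + 1)) (CyclotomicField (p ^ (j + 1)) K))

end PrimePower

end Fermat.Agent.Lib.CFT.Global.ClassFormation
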