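import Fermat.Agent.Lib.CFT.Global.ClassFormation.AdaptedTower
import Fermat.Agent.Lib.CFT.Global.ClassFormation.CycloSymbolAll
import Fermat.Agent.Lib.CFT.Global.CohIdeles.HasseH2
import Fermat.Agent.Lib.CFT.Global.CohIdeles.LocalComp
import Fermat.Agent.Lib.CFT.Global.ClassFormation.CyclicLayerPPrimary

/-!
# The sum formula for Brauer classes of odd prime power order, unconditionally
(P-CFT (GI-9), final assembly, helper57)

Relative to a family of local invariant theories `T : ∀ q, LocalInvTheory (pv q)`: for a finite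
group `G` of automorphisms of a number field `L` and a class `α ∈ H²(G, Lˣ)` killed by `p ^ k`,
`p` an odd prime, the sum of the local invariants of `α` vanishes.

* `sum_formula_gal` : the Galois form (`G = Gal(L/K)`), an instantiation of
  `AdaptedTower.globalInv_principalClass_eq_zero_of_support` with the Hasse principle
  `CohIdeles.hasse_units'`, the sum formula on cyclic cyclotomic layers
  `CycloSymbol.cyclo_hO2a_finrank` and the finiteness of the support `CohIdeles.hasFiniteSupport`;
* `sum_formula_isGaloisGroup` : the same for a group `G` with `[IsGaloisGroup G K L]`;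
* `sum_formula` : the action form (`G` finite, acting faithfully on `L`), the hypothesis of
  `CyclicLayer.cyclicInvP`;
* `sum_formula_of_card` : on a layer of degree `p ^ k` the full sum formula (`IsReciprocity`).
-/

set_option autoImplicit false

open CategoryTheory Polynomial IntermediateField

namespace Fermat.Agent.Lib.CFT.Global.ClassFormation.Assembly

open Fermat.Agent.Lib.CFT.Global Fermat.Agent.Lib.CFT.Global.EtaleAlg
open Fermat.Agent.Lib.CFT.Global.LocalFieldAt
open Fermat.Agent.Lib.CFT.Global.ClassFormation.AdaptedTower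
open Fermat.Agent.Lib.CFT.Local (LocalInvTheory)

attribute [local instance] Units.mulDistribMulActionRight

section Gal

variable (T : ∀ q : Nat.Primes, LocalInvTheory (pv q))
variable (K L : Type) [Field K] [NumberField K] [Field L] [NumberField L] [Algebra K L]
  [IsGalois K L]

/-- **The sum formula**, Galois form: for a Galois extension `L / K` of number fields and a class
`α ∈ H²(Gal(L/K), Lˣ)` killed by `p ^ k`, `p` an odd prime, the sum of the local invariants of
`α` vanishes. -/
theorem sum_formula_gal {p : ℕ} (hp : p.Prime) (hp2 : p ≠ 2) (k : ℕ)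
    (α : groupCohomology (unitsRep L (L ≃ₐ[K] L)) 2) (hα : (p ^ k) • α = 0) :
    globalInv T L (L ≃ₐ[K] L) (principalClass L (L ≃ₐ[K] L) α) = 0 := by
  have hfin := CohIdeles.hasFiniteSupport L (L ≃ₐ[K] L) (principalClass L (L ≃ₐ[K] L) α)
  refine globalInv_principalClass_eq_zero_of_support T K L
    (fun M _ _ N _ _ _ _ c h1 h2 => CohIdeles.hasse_units' M N c h1 h2)
    (fun m _ hirr M0 _ _ _ _ _ L₁ _ hc ho β hβ =>
      CycloSymbol.cyclo_hO2a_finrank T K M0 m hirr L₁ hc ho β hβ)
    hp hp2 k α hα hfin.toFinset ?_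
  intro q hq m₀
  by_contra hne
  exact hq (hfin.mem_toFinset.2 ⟨m₀, hne⟩)

end Gal

section Action

variable (T : ∀ q : Nat.Primes, LocalInvTheory (pv q))
variable (K L : Type) [Field K] [NumberField K] [Field L] [NumberField L] [Algebra K L]
  (G : Type) [Group G] [Finite G] [MulSemiringAction G L] [IsGaloisGroup G K L]
  [FaithfulSMul G L]

/-- `AdaptedTower.globalInv_principalClass_eq_zero_of_cyclotomic_layer` for a Galois group `G` of
`L / K` in the sense of `IsGaloisGroup`. -/
theorem globalInv_principalClass_eq_zero_of_cyclotomic_layer' [IsGalois K L]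
    (m : ℕ) [NeZero m] (L₁ : IntermediateField K (cycSub K L m)) [IsGalois K L₁]
    (p k : ℕ) (hp : Odd p)
    (α : groupCohomology (unitsRep L G) 2) (hα : (p ^ k) • α = 0)
    (S : Set Nat.Primes)
    (hS : ∀ q ∉ S, ∀ m₀ : MaximalSpectrum (LocAlg L q),
      locComp L G q m₀ 2 (principalClass L G α) = 0)
    (hadapt : ∀ q ∈ S, ∀ m₁ : MaximalSpectrum (LocAlg L₁ q),
      p ^ k ∣ Nat.card (MulAction.stabilizer (L₁ ≃ₐ[K] L₁) m₁))
    (Sbad : Set Nat.Primes) (hdisj : ∀ q ∈ Sbad, q ∉ S)
    (hO2a : ∀ β : groupCohomology (unitsRep L₁ (L₁ ≃ₐ[K] L₁)) 2,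
      (∀ q ∈ Sbad, ∀ m₁ : MaximalSpectrum (LocAlg L₁ q),
        locComp L₁ (L₁ ≃ₐ[K] L₁) q m₁ 2 (principalClass L₁ (L₁ ≃ₐ[K] L₁) β) = 0) →
      globalInv T L₁ (L₁ ≃ₐ[K] L₁) (principalClass L₁ (L₁ ≃ₐ[K] L₁) β) = 0) :
    globalInv T L G (principalClass L G α) = 0 := by
  refine globalInv_principalClass_eq_zero_of_layer T K L L₁ (CyclotomicField m L)
    G (L₁ ≃ₐ[K] L₁) (CyclotomicField m L ≃ₐ[K] CyclotomicField m L)
    (CyclotomicField m L ≃ₐ[L₁] CyclotomicField m L)
    (IsGaloisGroup.restrictHom (CyclotomicField m L ≃ₐ[K] CyclotomicField m L) G K L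
      (CyclotomicField m L))
    (fun γ x => IsGaloisGroup.algebraMap_restrictHom_smul
      (CyclotomicField m L ≃ₐ[K] CyclotomicField m L) G K L (CyclotomicField m L) γ x)
    (AlgEquiv.restrictNormalHom L₁) (fun γ x => AlgEquiv.restrictNormal_commutes γ L₁ x)
    (AlgEquiv.restrictScalarsHom K) (fun n x => rfl)
    (fun c h1 h2 => CohIdeles.hasse_units' _ _ c h1 h2) p k hp α hα ?_ Sbad ?_ hO2a
  · intro q m' h0
    apply hadapt q
    by_contra hq
    exact h0 (hS q hq _)
  · intro q hq m₀
    exact hS q (hdisj q hq) m₀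

include K in
/-- **The sum formula** for a Galois group `G` of `L / K` in the sense of `IsGaloisGroup`. -/
theorem sum_formula_isGaloisGroup {p : ℕ} (hp : p.Prime) (hp2 : p ≠ 2) (k : ℕ)
    (α : groupCohomology (unitsRep L G) 2) (hα : (p ^ k) • α = 0) :
    globalInv T L G (principalClass L G α) = 0 := by
  have : IsGalois K L := IsGaloisGroup.isGalois G K L
  have hodd : Odd p := hp.odd_of_ne_two hp2
  have hfin := CohIdeles.hasFiniteSupport L G (principalClass L G α)
  obtain ⟨m, hm0, hirr, -, -, hmS, hM⟩ :=
    CycAdapted.exists_cyclic_cyclotomic_primePow_maxSpec K hfin.toFinset hp k one_ne_zero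
  have := hm0
  obtain ⟨L₁, hgal, hcycl, -, ⟨a, ha⟩, hdec⟩ := hM (cycSub K L m)
  have := hgal
  refine globalInv_principalClass_eq_zero_of_cyclotomic_layer' T K L G m L₁
    p k hodd α hα (hfin.toFinset : Set Nat.Primes) ?_
    (fun q hq => hdec q (by simpa using hq)) {q | pv q ∣ m}
    (fun q hq hqS => hmS q (by simpa using hqS) hq) ?_
  · intro q hq m₀
    by_contra hne
    apply hq
    rw [Finset.mem_coe, Set.Finite.mem_toFinset]
    exact ⟨m₀, hne⟩
  · intro β hβ
    refine CycloSymbol.cyclo_hO2a_finrank T K (cycSub K L m) m hirr L₁ hcycl ?_ β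
      (fun q hq m₁ => hβ q hq m₁)
    rw [ha]
    exact hodd.pow

end Action

section ActionForm

variable (T : ∀ q : Nat.Primes, LocalInvTheory (pv q))
variable (L : Type) [Field L] [NumberField L]
  (G : Type) [Group G] [Finite G] [MulSemiringAction G L] [FaithfulSMul G L]

/-- The fixed field of a group of automorphisms of a number field is a number field. -/
instance numberField_fixedPoints : NumberField (FixedPoints.subfield G L) where
  to_charZero := inferInstance
  to_finiteDimensional := FiniteDimensional.left ℚ (FixedPoints.subfield G L) L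

/-- **The sum formula**, action form: for a finite group `G` of automorphisms of a number field
`L` and a class `α ∈ H²(G, Lˣ)` killed by `p ^ k`, `p` an odd prime, the sum of the local
invariants of `α` vanishes. -/
theorem sum_formula {p : ℕ} (hp : p.Prime) (hp2 : p ≠ 2) (k : ℕ)
    (α : groupCohomology (unitsRep L G) 2) (hα : (p ^ k) • α = 0) :
    globalInv T L G (principalClass L G α) = 0 :=
  sum_formula_isGaloisGroup T (FixedPoints.subfield G L) L G hp hp2 k α hα

/-- On a layer of degree `p ^ k`, `p` an odd prime, the sum formula holds for all classes. -/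
theorem sum_formula_of_card {p : ℕ} (hp : p.Prime) (hp2 : p ≠ 2) {k : ℕ}
    (hG : Nat.card G = p ^ k) (α : groupCohomology (unitsRep L G) 2) :
    globalInv T L G (principalClass L G α) = 0 :=
  CyclicLayer.hsum_of_pPrimary hG (fun α hα => sum_formula T L G hp hp2 k α hα) α

end ActionForm

end Fermat.Agent.Lib.CFT.Global.ClassFormation.Assembly
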