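import Fermat.Agent.Lib.CFT.Global.ClassFormation.SumFormulaLayer
import Fermat.Agent.Lib.CFT.Global.ClassFormation.PLayer
import Fermat.Agent.Lib.CFT.Global.CyclotomicAdaptedLoc
import Fermat.Agent.Lib.CFT.Global.CohIdeles.HasseH2

/-!
# The sum formula for Brauer classes of odd prime power order (P-CFT (GI-9), helper55)

`∑_v inv_v(α) = 0` for `α ∈ H²(G, Lˣ)` with `p ^ k • α = 0`, `p` odd, `L` a number field with a
finite group `G` acting faithfully: `sum_formula`.

Assembly of

* `globalInv_principalClass_eq_zero_of_layer` (`SumFormulaLayer.lean`): reduction to an adapted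
  layer in a Galois tower;
* `CycAdapted.exists_cyclic_cyclotomic_primePow_maxSpec` (helper96): a cyclic layer `L₁ ⊂ K(ζ_m)` of
  `p`-power degree whose decomposition groups at the primes of the support of `α` have order
  divisible by `p ^ k`, `m` prime to the support;
* the tower `K ⊂ L ⊂ M = L(ζ_m)`, `K ⊂ L₁ ⊂ K(ζ_m) ⊂ M` (`cycloLift`, helper50);
* the Hasse principle `CohIdeles.hasse_units'` and the finiteness of the support (helper58);
* the sum formula on cyclic cyclotomic layers of odd degree, `CycloSumFormula T`, taken as a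
  hypothesis here (it is `CycloSymbolSum.lean`, helper93/helper70/helper77).
-/

set_option autoImplicit false
set_option linter.unusedSectionVars false

namespace Fermat.Agent.Lib.CFT.Global.ClassFormation

open CategoryTheory Polynomial
open Fermat.Agent.Lib.CFT.Global Fermat.Agent.Lib.CFT.Global.EtaleAlg
open Fermat.Agent.Lib.CFT.Global.LocalFieldAt
open Fermat.Agent.Lib.CFT.Local (LocalInvTheory)
open Fermat.Agent.Lib.CFT.Local.LocalBrauer (QZ)

open scoped Pointwise

attribute [local instance] Units.mulDistribMulActionRight

/-- **The sum formula on cyclic cyclotomic layers of odd degree**: for `L' ⊂ K(ζ_m)` cyclic of odd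
degree over `K`, the global invariant vanishes on the classes of `H²(Gal(L'/K), L'ˣ)` which are
locally trivial above the primes dividing `m`. -/
def CycloSumFormula (T : ∀ q : Nat.Primes, LocalInvTheory (pv q)) : Prop :=
  ∀ (K : Type) [Field K] [NumberField K] (M₀ : Type) [Field M₀] [NumberField M₀] [Algebra K M₀]
    (m : ℕ) [NeZero m] [IsCyclotomicExtension {m} K M₀] (_ : Irreducible (cyclotomic m K))
    (L' : IntermediateField K M₀) [IsGalois K L'],
    IsCyclic (L' ≃ₐ[K] L') → Odd (Nat.card (L' ≃ₐ[K] L')) →
    ∀ β : groupCohomology (unitsRep L' (L' ≃ₐ[K] L')) 2,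
      (∀ q : Nat.Primes, pv q ∣ m → ∀ mm : MaximalSpectrum (LocAlg L' q),
        locComp L' (L' ≃ₐ[K] L') q mm 2 (principalClass L' (L' ≃ₐ[K] L') β) = 0) →
      globalInv T L' (L' ≃ₐ[K] L') (principalClass L' (L' ≃ₐ[K] L') β) = 0

section Final

variable (T : ∀ q : Nat.Primes, LocalInvTheory (pv q))

/-- **The sum formula**, for a Galois extension `L/K` of number fields presented by a group `G`
with `IsGaloisGroup G K L`. -/
theorem sum_formula_isGaloisGroup (hcyc : CycloSumFormula T)
    (K L : Type) [Field K] [NumberField K] [Field L] [NumberField L] [Algebra K L]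
    (G : Type) [Group G] [Finite G] [MulSemiringAction G L] [IsGaloisGroup G K L]
    [FaithfulSMul G L]
    (p k : ℕ) (hp : p.Prime) (hp2 : p ≠ 2)
    (α : groupCohomology (unitsRep L G) 2) (hα : (p ^ k) • α = 0) :
    globalInv T L G (principalClass L G α) = 0 := by
  classical
  have hgal : IsGalois K L := IsGaloisGroup.isGalois G K L
  have hfd : FiniteDimensional K L := IsGaloisGroup.finiteDimensional G K L
  -- the support of `α`
  have hfs := CohIdeles.hasFiniteSupport L G (principalClass L G α)
  set S : Finset Nat.Primes := hfs.toFinset with hSdef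
  have hS : ∀ q : Nat.Primes, q ∉ S → ∀ m : MaximalSpectrum (LocAlg L q),
      locComp L G q m 2 (principalClass L G α) = 0 := by
    intro q hq m
    by_contra h
    apply hq
    rw [hSdef, Set.Finite.mem_toFinset]
    exact ⟨m, h⟩
  -- the adapted modulus and layer
  obtain ⟨m, hm0, hirr, -, -, hmS, hM⟩ :=
    CycAdapted.exists_cyclic_cyclotomic_primePow_maxSpec K S hp k (D := 1) one_ne_zero
  haveI hgalM₀ : IsGalois K (CyclotomicField m K) := IsCyclotomicExtension.isGalois {m} K _
  obtain ⟨L', hL'gal, hL'cyc, -, ⟨a, ha⟩, hL'adapt⟩ := hM (CyclotomicField m K)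
  -- the tower
  letI algM₀M : Algebra (CyclotomicField m K) (CyclotomicField m L) :=
    (cycloLift K L m).toRingHom.toAlgebra
  haveI towerM₀ : IsScalarTower K (CyclotomicField m K) (CyclotomicField m L) :=
    IsScalarTower.of_algebraMap_eq (fun x => ((cycloLift K L m).commutes x).symm)
  letI algL'M : Algebra L' (CyclotomicField m L) :=
    ((algebraMap (CyclotomicField m K) (CyclotomicField m L)).comp
      (algebraMap L' (CyclotomicField m K))).toAlgebra
  haveI towerL' : @IsScalarTower K L' (CyclotomicField m L) Algebra.toSMul Algebra.toSMul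
      Algebra.toSMul :=
    IsScalarTower.of_algebraMap_eq (fun x => by
      show algebraMap K (CyclotomicField m L) x =
        algebraMap (CyclotomicField m K) (CyclotomicField m L)
          (algebraMap L' (CyclotomicField m K) (algebraMap K L' x))
      rw [← IsScalarTower.algebraMap_apply K L' (CyclotomicField m K),
        ← IsScalarTower.algebraMap_apply K (CyclotomicField m K) (CyclotomicField m L)])
  haveI hgalM : IsGalois K (CyclotomicField m L) := isGalois_cyclotomicField K L m
  haveI hfdML : FiniteDimensional L (CyclotomicField m L) :=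
    IsCyclotomicExtension.finiteDimensional {m} L _
  haveI hfdM : FiniteDimensional K (CyclotomicField m L) := Module.Finite.trans L _
  haveI hgalML' : IsGalois L' (CyclotomicField m L) := IsGalois.tower_top_of_isGalois K L' _
  haveI hfdML' : FiniteDimensional L' (CyclotomicField m L) := FiniteDimensional.right K L' _
  -- the maps
  let πG : ((CyclotomicField m L) ≃ₐ[K] (CyclotomicField m L)) →* G :=
    (IsGaloisGroup.mulEquivAlgEquiv G K L).symm.toMonoidHom.comp (AlgEquiv.restrictNormalHom L)
  have hπG : ∀ (γ : (CyclotomicField m L) ≃ₐ[K] (CyclotomicField m L)) (x : L),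
      algebraMap L (CyclotomicField m L) (πG γ • x) = γ • algebraMap L (CyclotomicField m L) x := by
    intro γ x
    have h1 : πG γ • x = AlgEquiv.restrictNormalHom L γ x := by
      have h2 : IsGaloisGroup.mulEquivAlgEquiv G K L (πG γ) = AlgEquiv.restrictNormalHom L γ :=
        (IsGaloisGroup.mulEquivAlgEquiv G K L).apply_symm_apply _
      rw [← h2]
      rfl
    rw [h1]
    exact AlgEquiv.restrictNormal_commutes γ L x
  have hodd : Odd (Nat.card (L' ≃ₐ[K] L')) := by
    rw [IsGalois.card_aut_eq_finrank, ha]
    exact Odd.pow (hp.odd_of_ne_two hp2)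
  refine globalInv_principalClass_eq_zero_of_layer T K L L' (CyclotomicField m L) G
    (L' ≃ₐ[K] L') ((CyclotomicField m L) ≃ₐ[K] (CyclotomicField m L))
    ((CyclotomicField m L) ≃ₐ[L'] (CyclotomicField m L)) πG hπG
    (AlgEquiv.restrictNormalHom L') (fun γ x => AlgEquiv.restrictNormal_commutes γ L' x)
    (AlgEquiv.restrictScalarsHom K) (fun _ _ => rfl)
    (CohIdeles.hasse_units' (CyclotomicField m L) _) p k (hp.odd_of_ne_two hp2) α hα ?_
    {q : Nat.Primes | pv q ∣ m} ?_ ?_
  · intro q m' h
    have hq : q ∈ S := by
      by_contra hq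
      exact h (hS q hq _)
    exact hL'adapt q hq _
  · intro q hq mm
    have hqS : q ∉ S := fun h => hmS q h hq
    exact hS q hqS mm
  · intro β hβ
    exact hcyc K (CyclotomicField m K) m hirr L' hL'cyc hodd β (fun q hq mm => hβ q hq mm)

/-- **The sum formula** `∑_v inv_v(α) = 0` for the classes `α ∈ H²(G, Lˣ)` of odd prime power order,
`G` a finite group acting faithfully on the number field `L` (action form). -/
theorem sum_formula (hcyc : CycloSumFormula T)
    (L : Type) [Field L] [NumberField L]
    (G : Type) [Group G] [Finite G] [MulSemiringAction G L] [FaithfulSMul G L]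
    (p k : ℕ) (hp : p.Prime) (hp2 : p ≠ 2)
    (α : groupCohomology (unitsRep L G) 2) (hα : (p ^ k) • α = 0) :
    globalInv T L G (principalClass L G α) = 0 := by
  haveI : IsGaloisGroup G (FixedPoints.subfield G L) L :=
    { faithful := inferInstance
      commutes := ⟨fun d a x => by
        rw [Algebra.smul_def, Algebra.smul_def, smul_mul']
        congr 1
        exact a.2 d⟩
      isInvariant := ⟨fun x hx => ⟨⟨x, hx⟩, rfl⟩⟩ }
  exact sum_formula_isGaloisGroup T hcyc (FixedPoints.subfield G L) L G p k hp hp2 α hα

end Final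

end Fermat.Agent.Lib.CFT.Global.ClassFormation
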