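import Fermat.Agent.Lib.CFT.Global.ClassFormation.SumFormula
import Fermat.Agent.Lib.CFT.Global.LocalInvTower
import Fermat.Agent.Lib.CFT.Global.CohIdelesArchCoh
import Fermat.Agent.Lib.CFT.Global.EtaleAlgHilbert90

/-!
# The sum formula via an adapted layer, in a Galois tower (P-CFT (GI-9), helper55)

Specialisation of `globalInv_principalClass_eq_zero` (`SumFormula.lean`) to Galois towers of number
fields `K ⊂ L ⊂ M`, `K ⊂ L₁ ⊂ M` presented by groups with `IsGaloisGroup` (helper75's conventions
of `LocalInvTower.lean`), with all formal hypotheses discharged: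

* `isZero_H1_res_unitsRep`: Hilbert 90 for a subgroup;
* `two_nsmul_arch_eq_zero`: the cohomology of the archimedean components is killed by `2`;
* `towerSub_injective`, `towerSub_range`, `isInflationDatum_units`: the units of a Galois tower
  form an inflation datum, `Gal(M/L₁)` is the kernel of the restriction;
* `card_stabilizer_eq_mul`: multiplicativity of the orders of decomposition groups;
* `globalInv_principalClass_eq_zero_of_layer`: the sum formula for a class `α ∈ H²(G, Lˣ)` of odd
  prime power order from (1) an adapted layer `L₁`, (2) the Hasse principle for `H²(N, Mˣ)`,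
  (3) the sum formula on `L₁` for the classes which are locally trivial at `Sbad`.
-/

set_option autoImplicit false
set_option linter.unusedSectionVars false

namespace Fermat.Agent.Lib.CFT.Global.ClassFormation

open CategoryTheory
open Fermat.Agent.Lib.CFT.Global Fermat.Agent.Lib.CFT.Global.EtaleAlg
open Fermat.Agent.Lib.CFT.Global.LocalFieldAt
open Fermat.Agent.Lib.CFT.Local (LocalInvTheory)
open Fermat.Agent.Lib.CFT.Local.LocalBrauer (QZ)

open scoped Pointwise

attribute [local instance] Units.mulDistribMulActionRight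

section H90

variable (M : Type) [Field M] (Γ : Type) [Group Γ] [Finite Γ] [MulSemiringAction Γ M]
  [FaithfulSMul Γ M]

/-- Hilbert 90 for a subgroup, in the form used by `globalInv_principalClass_eq_zero`. -/
lemma isZero_H1_res_unitsRep (S : Subgroup Γ) :
    Limits.IsZero (groupCohomology (Rep.res S.subtype (unitsRep M Γ)) 1) := by
  have : FaithfulSMul S M := ⟨fun {a b} h => Subtype.ext (eq_of_smul_eq_smul (α := M) h)⟩
  exact isZero_H1_of_forall_isMulCoboundary₁ (G := S) (M := Mˣ)
    (fun f hf => isMulCoboundary₁_of_faithful f hf)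

end H90

section Arch

variable (M : Type) [Field M] [NumberField M] (N : Type) [Group N] [Finite N]
  [MulSemiringAction N M] [FaithfulSMul N M]

/-- The cohomology of the archimedean local components is killed by `2`. -/
lemma two_nsmul_arch_eq_zero (a : MaximalSpectrum (ArchAlg M)) (n : ℕ) (hn : n ≠ 0)
    (y : groupCohomology (Rep.ofMulDistribMulAction (MulAction.stabilizer N a)
      (ArchAlg M ⧸ a.asIdeal)ˣ) n) : 2 • y = 0 := by
  obtain ⟨w, rfl⟩ := (PlacesInfinite.placeEquivMaximalSpectrum (L := M)).surjective a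
  have h := CohIdelesArch.card_groupCohomology_resUnits_dvd_two (G := N) w n hn
  have hfin : Finite (groupCohomology (Rep.ofMulDistribMulAction
      (MulAction.stabilizer N (PlacesInfinite.placeEquivMaximalSpectrum w))
      (CohIdelesArch.ResUnits (PlacesInfinite.placeEquivMaximalSpectrum w))) n) := by
    apply Nat.finite_of_card_ne_zero
    intro h0
    rw [h0] at h
    omega
  obtain ⟨t, ht⟩ := h
  have h2 := card_nsmul_eq_zero' (G := groupCohomology (Rep.ofMulDistribMulAction
      (MulAction.stabilizer N (PlacesInfinite.placeEquivMaximalSpectrum w))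
      (CohIdelesArch.ResUnits (PlacesInfinite.placeEquivMaximalSpectrum w))) n) (x := y)
  rw [ht, mul_comm, mul_smul, h2, smul_zero]

end Arch

section Tower

variable (K L₁ M : Type) [Field K] [Field L₁] [Field M] [NumberField L₁] [NumberField M]
  [Algebra K L₁] [Algebra K M] [Algebra L₁ M] [IsScalarTower K L₁ M]
  (Q Γ N : Type) [Group Q] [Group Γ] [Group N] [Finite Q] [Finite Γ] [Finite N]
  [MulSemiringAction Q L₁] [MulSemiringAction Γ M] [MulSemiringAction N M]
  [IsGaloisGroup Q K L₁] [IsGaloisGroup Γ K M] [IsGaloisGroup N L₁ M]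
  (π : Γ →* Q) (hπ : ∀ (γ : Γ) (x : L₁), algebraMap L₁ M (π γ • x) = γ • algebraMap L₁ M x)
  (j : N →* Γ) (hj : ∀ (n : N) (x : M), j n • x = n • x)

include L₁ hj in
lemma towerSub_injective : Function.Injective j := by
  have : FaithfulSMul N M := IsGaloisGroup.faithful L₁
  intro a b hab
  apply eq_of_smul_eq_smul (α := M)
  intro x
  rw [← hj, ← hj, hab]

include K hπ hj in
lemma towerSub_range : j.range = π.ker := by
  have hfQ : FaithfulSMul Q L₁ := IsGaloisGroup.faithful K
  have hfΓ : FaithfulSMul Γ M := IsGaloisGroup.faithful K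
  have hcomm : SMulCommClass N L₁ M := IsGaloisGroup.commutes
  ext γ
  constructor
  · rintro ⟨n, rfl⟩
    refine mem_ker_of_forall_smul_algebraMap K L₁ M Q Γ π hπ (j n) (fun x => ?_)
    rw [hj, Algebra.algebraMap_eq_smul_one, smul_comm, smul_one]
  · intro hγ
    have hγ1 : π γ = 1 := hγ
    -- `γ` is an `L₁`-algebra automorphism of `M`
    let σ : M ≃ₐ[L₁] M :=
      { MulSemiringAction.toRingEquiv Γ M γ with
        commutes' := fun x => by
          show γ • algebraMap L₁ M x = algebraMap L₁ M x
          rw [← hπ, hγ1, one_smul] }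
    obtain ⟨n, hn⟩ := (IsGaloisGroup.mulEquivAlgEquiv N L₁ M).surjective σ
    refine ⟨n, ?_⟩
    apply eq_of_smul_eq_smul (α := M)
    intro x
    rw [hj]
    have h1 : n • x = σ x := by
      rw [← hn]
      rfl
    exact h1

include K hπ hj in
/-- The units of a Galois tower form an inflation datum. -/
lemma isInflationDatum_units :
    IsInflationDatum π (unitsMapRepHom π (algebraMap L₁ M) hπ) := by
  refine ⟨towerHom_surjective K L₁ M Q Γ π hπ, ?_, ?_⟩
  · intro a b hab
    have h1 : Additive.toMul ((unitsMapRepHom π (algebraMap L₁ M) hπ).hom a) =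
        Additive.toMul ((unitsMapRepHom π (algebraMap L₁ M) hπ).hom b) := congrArg _ hab
    have h2 : algebraMap L₁ M ((Additive.toMul a : L₁ˣ) : L₁) =
        algebraMap L₁ M ((Additive.toMul b : L₁ˣ) : L₁) := congrArg Units.val h1
    have h3 := (algebraMap L₁ M).injective h2
    exact congrArg Additive.ofMul (Units.ext h3)
  · intro a ha
    have hinv : Algebra.IsInvariant L₁ M N := IsGaloisGroup.isInvariant
    have hrange := towerSub_range K L₁ M Q Γ N π hπ j hj
    have hfix : ∀ n : N, n • ((Additive.toMul a : Mˣ) : M) = ((Additive.toMul a : Mˣ) : M) := by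
      intro n
      have hmem : j n ∈ π.ker := by
        rw [← hrange]
        exact ⟨n, rfl⟩
      have h1 := ha (j n) hmem
      have h2 : j n • (Additive.toMul a : Mˣ) = Additive.toMul a := congrArg Additive.toMul h1
      rw [← hj]
      exact congrArg Units.val h2
    obtain ⟨y, hy⟩ := hinv.isInvariant _ hfix
    have hy0 : y ≠ 0 := by
      rintro rfl
      rw [map_zero] at hy
      exact (Additive.toMul a : Mˣ).ne_zero hy.symm
    refine ⟨Additive.ofMul (Units.mk0 y hy0), ?_⟩
    apply congrArg Additive.ofMul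
    apply Units.ext
    exact hy

end Tower

section TowerCard

variable (K L₁ M : Type) [Field K] [Field L₁] [Field M] [NumberField L₁] [NumberField M]
  [Algebra K L₁] [Algebra K M] [Algebra L₁ M] [IsScalarTower K L₁ M]
  (Q Γ N : Type) [Group Q] [Group Γ] [Group N] [Finite Q] [Finite Γ] [Finite N]
  [MulSemiringAction Q L₁] [MulSemiringAction Γ M] [MulSemiringAction N M]
  [IsGaloisGroup Q K L₁] [IsGaloisGroup Γ K M] [IsGaloisGroup N L₁ M]
  (π : Γ →* Q) (hπ : ∀ (γ : Γ) (x : L₁), algebraMap L₁ M (π γ • x) = γ • algebraMap L₁ M x)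
  (j : N →* Γ) (hj : ∀ (n : N) (x : M), j n • x = n • x)

include hj in
lemma smul_maxSpec_eq (q : Nat.Primes) (n : N) (m' : MaximalSpectrum (LocAlg M q)) :
    j n • m' = n • m' := by
  have hj' : ∀ (n : N) (x : M), RingHom.id M (j n • x) = n • RingHom.id M x := hj
  have h := primeBelowMax_smul (RingHom.id M) q j hj' n m'
  have hid : ∀ m : MaximalSpectrum (LocAlg M q), primeBelowMax (RingHom.id M) q m = m :=
    fun m => MaximalSpectrum.ext (asIdeal_eq_comap_id M q m).symm
  rw [hid, hid] at h
  exact h.symm

include K hπ hj in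
/-- Multiplicativity of the orders of the decomposition groups, with the kernel presented by
`j : N →* Γ`. -/
lemma card_stabilizer_eq_mul (q : Nat.Primes) (m' : MaximalSpectrum (LocAlg M q)) :
    Nat.card (MulAction.stabilizer Γ m') =
      Nat.card (MulAction.stabilizer Q (primeBelowMax (algebraMap L₁ M) q m')) *
        Nat.card (MulAction.stabilizer N m') := by
  have hfQ : FaithfulSMul Q L₁ := IsGaloisGroup.faithful K
  have hfΓ : FaithfulSMul Γ M := IsGaloisGroup.faithful K
  rw [LocalFieldAt.card_stabilizer_tower K L₁ M Q Γ π hπ q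
    (primeBelowMax (algebraMap L₁ M) q m') m' rfl]
  congr 1
  symm
  have hinj := towerSub_injective L₁ M Γ N j hj
  have hrange := towerSub_range K L₁ M Q Γ N π hπ j hj
  refine Nat.card_congr (Equiv.ofBijective
    (fun n : MulAction.stabilizer N m' =>
      (⟨⟨j (n : N), by
          rw [MulAction.mem_stabilizer_iff, smul_maxSpec_eq M Γ N j hj q]
          exact n.2⟩, by
        rw [MonoidHom.mem_ker]
        apply Subtype.ext
        have hmem : j (n : N) ∈ π.ker := by
          rw [← hrange]
          exact ⟨n, rfl⟩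
        exact hmem⟩ :
        (stabilizerMapAlong π _ (locMap_smul_along π (algebraMap L₁ M) hπ q)
          (primeBelowMax (algebraMap L₁ M) q m') m' rfl).ker)) ⟨?_, ?_⟩)
  · intro a b hab
    apply Subtype.ext
    apply hinj
    exact congrArg (fun z => ((z : (stabilizerMapAlong π _
      (locMap_smul_along π (algebraMap L₁ M) hπ q)
      (primeBelowMax (algebraMap L₁ M) q m') m' rfl).ker) : MulAction.stabilizer Γ m').1) hab
  · rintro ⟨s, hs⟩
    have hs1 : π (s : Γ) = 1 := congrArg Subtype.val (MonoidHom.mem_ker.1 hs)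
    have hmem : (s : Γ) ∈ j.range := by
      rw [hrange]
      exact hs1
    obtain ⟨n, hn⟩ := hmem
    have hnstab : n ∈ MulAction.stabilizer N m' := by
      rw [MulAction.mem_stabilizer_iff, ← smul_maxSpec_eq M Γ N j hj q, hn]
      exact s.2
    refine ⟨⟨n, hnstab⟩, ?_⟩
    apply Subtype.ext
    apply Subtype.ext
    exact hn

end TowerCard

section Layer

variable (T : ∀ q : Nat.Primes, LocalInvTheory (pv q))
variable (K L L₁ M : Type) [Field K] [Field L] [Field L₁] [Field M]
  [NumberField L] [NumberField L₁] [NumberField M]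
  [Algebra K L] [Algebra K L₁] [Algebra K M] [Algebra L M] [Algebra L₁ M]
  [IsScalarTower K L M] [IsScalarTower K L₁ M]
  (G Q Γ N : Type) [Group G] [Group Q] [Group Γ] [Group N]
  [Finite G] [Finite Q] [Finite Γ] [Finite N]
  [MulSemiringAction G L] [MulSemiringAction Q L₁] [MulSemiringAction Γ M]
  [MulSemiringAction N M]
  [IsGaloisGroup G K L] [IsGaloisGroup Q K L₁] [IsGaloisGroup Γ K M] [IsGaloisGroup N L₁ M]
  [FaithfulSMul G L] [FaithfulSMul Q L₁] [FaithfulSMul Γ M] [FaithfulSMul N M]
  (πG : Γ →* G) (hπG : ∀ (γ : Γ) (x : L), algebraMap L M (πG γ • x) = γ • algebraMap L M x)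
  (πQ : Γ →* Q) (hπQ : ∀ (γ : Γ) (x : L₁), algebraMap L₁ M (πQ γ • x) = γ • algebraMap L₁ M x)
  (j : N →* Γ) (hj : ∀ (n : N) (x : M), j n • x = n • x)

include K hπG hπQ hj in
/-- **The sum formula via an adapted layer.**  `K ⊂ L ⊂ M` and `K ⊂ L₁ ⊂ M` Galois towers of
number fields with groups `G`, `Q`, `Γ`, and `N = Gal(M/L₁)`.  Let `α ∈ H²(G, Lˣ)` be killed by
`p ^ k`, `p` odd.  If `L₁` is adapted to `α` (at every prime of `M` over a prime of `L` where `α`
has a nonzero local component, `p ^ k` divides the order of the decomposition group of `L₁`), the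
Hasse principle holds for `H²(N, Mˣ)`, and the sum formula holds for the classes of
`H²(Q, L₁ˣ)` which are locally trivial at `Sbad` (a set of primes where `α` is locally trivial),
then the sum formula holds for `α`. -/
theorem globalInv_principalClass_eq_zero_of_layer
    (hHasse : ∀ c : groupCohomology (unitsRep M N) 2,
      (∀ (q : Nat.Primes) (m : MaximalSpectrum (LocAlg M q)),
        locComp M N q m 2 (principalClass M N c) = 0) →
      (∀ a : MaximalSpectrum (ArchAlg M),
        archComp M N a 2 (principalClass M N c) = 0) → c = 0)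
    (p k : ℕ) (hp : Odd p)
    (α : groupCohomology (unitsRep L G) 2) (hα : (p ^ k) • α = 0)
    (hadapt : ∀ (q : Nat.Primes) (m' : MaximalSpectrum (LocAlg M q)),
      locComp L G q (primeBelowMax (algebraMap L M) q m') 2 (principalClass L G α) ≠ 0 →
        p ^ k ∣ Nat.card (MulAction.stabilizer Q (primeBelowMax (algebraMap L₁ M) q m')))
    (Sbad : Set Nat.Primes)
    (hbad : ∀ q ∈ Sbad, ∀ m : MaximalSpectrum (LocAlg L q),
      locComp L G q m 2 (principalClass L G α) = 0)
    (hO2a : ∀ β : groupCohomology (unitsRep L₁ Q) 2,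
      (∀ q ∈ Sbad, ∀ m : MaximalSpectrum (LocAlg L₁ q),
        locComp L₁ Q q m 2 (principalClass L₁ Q β) = 0) →
      globalInv T L₁ Q (principalClass L₁ Q β) = 0) :
    globalInv T L G (principalClass L G α) = 0 := by
  -- the inflation of `α` to `M`
  set α' : groupCohomology (unitsRep M Γ) 2 :=
    groupCohomology.map πG (unitsMapRepHom πG (algebraMap L M) hπG) 2 α with hα'
  have hpr : principalClass M Γ α' =
      groupCohomology.map πG (ideleMapRepHom πG (algebraMap L M) hπG) 2 (principalClass L G α) :=
    (map_principalClass πG (algebraMap L M) hπG α).symm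
  have hglob : globalInv T M Γ (principalClass M Γ α') = globalInv T L G (principalClass L G α) := by
    rw [hpr]
    exact LocalInvTower.globalInv_infl T K L M G Γ πG hπG _
  -- local invariants of the inflation
  have hlocinv : ∀ (q : Nat.Primes) (m' : MaximalSpectrum (LocAlg M q)),
      locInv T M Γ q m' (principalClass M Γ α') =
        locInv T L G q (primeBelowMax (algebraMap L M) q m') (principalClass L G α) := by
    intro q m'
    rw [hpr]
    exact LocalInvTower.locInv_infl T K L M G Γ πG hπG q _ m' rfl _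
  have hfd : FiniteDimensional K M := IsGaloisGroup.finiteDimensional Γ K M
  have hfd' : FiniteDimensional L₁ M := FiniteDimensional.right K L₁ M
  rw [← hglob]
  have hj' : ∀ (n : N) (x : M), RingHom.id M (j n • x) = n • RingHom.id M x := hj
  have hjinj := towerSub_injective L₁ M Γ N j hj
  have hjker := towerSub_range K L₁ M Q Γ N πQ hπQ j hj
  refine globalInv_principalClass_eq_zero T πQ (algebraMap L₁ M) hπQ j hj'
    (isInflationDatum_units K L₁ M Q Γ N πQ hπQ j hj) hjinj hjker
    (isZero_H1_res_unitsRep M Γ πQ.ker) hHasse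
    (fun a y => two_nsmul_arch_eq_zero M N a 2 (by norm_num) y) p k hp α' ?_ ?_ Sbad ?_ hO2a
    ?_ ?_ ?_ ?_
  · rw [hα', ← map_nsmul, hα, map_zero]
  · intro q m' h0
    have h1 : locComp L G q (primeBelowMax (algebraMap L M) q m') 2 (principalClass L G α) ≠ 0 := by
      intro h2
      apply h0
      rw [← locInv_eq_zero_iff T, hlocinv, locInv_eq_zero_iff]
      exact h2
    have h3 := hadapt q m' h1
    rw [card_stabilizer_eq_mul K L₁ M Q Γ N πQ hπQ j hj q m',
      Nat.mul_div_cancel _ Nat.card_pos]
    exact h3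
  · intro q hq m'
    rw [← locInv_eq_zero_iff T, hlocinv, locInv_eq_zero_iff]
    exact hbad q hq _
  · intro q m
    obtain ⟨m', hm'⟩ := LocalInvTower.exists_maximalSpectrum_over L₁ M q m
    exact ⟨m', MaximalSpectrum.ext hm'.symm⟩
  · intro q m₁ m₂ h
    obtain ⟨n, -, hn⟩ := LocalInvTower.exists_ker_smul_eq K L₁ M Q Γ πQ hπQ q
      (primeBelowMax (algebraMap L₁ M) q m₁) m₁ rfl m₂
      (congrArg MaximalSpectrum.asIdeal h)
    exact ⟨n, hn⟩
  · intro q m'
    exact LocalInvTower.decompMap_surjective K L₁ M Q Γ πQ hπQ q _ m' rfl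
  · intro q m' y hy
    exact LocalInvTower.exists_fieldAtMap_eq_of_fixed K L₁ M Q Γ πQ hπQ q _ m' rfl y hy

end Layer

end Fermat.Agent.Lib.CFT.Global.ClassFormation
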