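import Fermat.Agent.Lib.CFT.Global.ClassFormation.SumFormulaFinal
import Fermat.Agent.Lib.CFT.Global.ClassFormation.CycloSymbolAll
import Fermat.Agent.Lib.CFT.Local.LocalInvInstance

/-!
# The sum formula, unconditionally (P-CFT (O2), helper55)

* `cycloSumFormula T : CycloSumFormula T` (from `CycloSymbol.cyclo_hO2a`, helper93);
* `sumFormula T L G p k hp hp2 α hα : globalInv T L G (principalClass L G α) = 0`: the sum formula
  `∑_v inv_v(α) = 0` for the classes of odd prime power order of `H²(G, Lˣ)`, `G` a finite group
  acting faithfully on a number field `L`, relative to any family `T` of local invariant theories;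
* `canonicalInv`: the family `fun q => Local.localInvTheory (pv q)`, and `sumFormula_canonical`.
-/

set_option autoImplicit false
set_option linter.unusedSectionVars false

namespace Fermat.Agent.Lib.CFT.Global.ClassFormation

open CategoryTheory Polynomial
open Fermat.Agent.Lib.CFT.Global Fermat.Agent.Lib.CFT.Global.EtaleAlg
open Fermat.Agent.Lib.CFT.Local (LocalInvTheory)
open Fermat.Agent.Lib.CFT.Local.LocalBrauer (QZ)

attribute [local instance] Units.mulDistribMulActionRight

section Main

variable (T : ∀ q : Nat.Primes, LocalInvTheory (pv q))

/-- The sum formula on cyclic cyclotomic layers of odd degree. -/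
theorem cycloSumFormula : CycloSumFormula T := by
  intro K _ _ M₀ _ _ _ m _ _ hirr L' _ hcyc hodd β hβ
  exact CycloSymbol.cyclo_hO2a T K M₀ m hirr L' hcyc hodd β hβ

/-- **The sum formula** (reciprocity law for Brauer classes) `∑_v inv_v(α) = 0`, for the classes
`α ∈ H²(G, Lˣ)` of odd prime power order; `G` a finite group acting faithfully on the number field
`L`. -/
theorem sumFormula (L : Type) [Field L] [NumberField L]
    (G : Type) [Group G] [Finite G] [MulSemiringAction G L] [FaithfulSMul G L]
    (p k : ℕ) (hp : p.Prime) (hp2 : p ≠ 2)
    (α : groupCohomology (unitsRep L G) 2) (hα : (p ^ k) • α = 0) :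
    globalInv T L G (principalClass L G α) = 0 :=
  sum_formula T (cycloSumFormula T) L G p k hp hp2 α hα

end Main

/-- The canonical local invariants at all primes. -/
noncomputable def canonicalInv : ∀ q : Nat.Primes, LocalInvTheory (pv q) :=
  fun q => Fermat.Agent.Lib.CFT.Local.localInvTheory (pv q)

/-- The sum formula for the canonical local invariants. -/
theorem sumFormula_canonical (L : Type) [Field L] [NumberField L]
    (G : Type) [Group G] [Finite G] [MulSemiringAction G L] [FaithfulSMul G L]
    (p k : ℕ) (hp : p.Prime) (hp2 : p ≠ 2)
    (α : groupCohomology (unitsRep L G) 2) (hα : (p ^ k) • α = 0) :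
    globalInv canonicalInv L G (principalClass L G α) = 0 :=
  sumFormula canonicalInv L G p k hp hp2 α hα

end Fermat.Agent.Lib.CFT.Global.ClassFormation
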