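import Fermat.Agent.Lib.CFT.Global.ClassFormation.GenInfl
import Fermat.Agent.Lib.CFT.Global.FirstIneqInvariants
import Fermat.Agent.Lib.CFT.Global.IdeleInvariants

/-!
# The inflation datum of a tower of number fields (P-CFT, Global/ClassFormation, helper50)

For a tower `K ⊆ L ⊆ M` of number fields with `L/K` and `M/K` Galois, the restriction
`π = AlgEquiv.restrictNormalHom L : Gal(M/K) →* Gal(L/K)` and the map `C_L → C_M` on idele class
groups form an inflation datum (`GenInfl.lean`): `C_L → C_M` is injective, equivariant, and its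
image is the group of `Gal(M/L)`-invariants (`(C_M)^{Gal(M/L)} = C_L`, Hilbert 90 and
`(J_M)^{Gal(M/L)} = J_L`).

* `towerHom K L M : res (restrictNormalHom L) (ideleClassRep L Gal(L/K)) ⟶ ideleClassRep M Gal(M/K)`
* `tower_isInflationDatum K L M : IsInflationDatum (restrictNormalHom L) (towerHom K L M)`
* `actionCohIso`: the cohomology of `ideleClassRep M Γ` only depends on the image of `Γ` in
  `Aut M` (transport along a group isomorphism compatible with the actions);
  `resSubgroupIso`: `res S.subtype (ideleClassRep M Γ) ≅ ideleClassRep M S`.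
-/

set_option autoImplicit false

open CategoryTheory Rep groupCohomology

namespace Fermat.Agent.Lib.CFT.Global.ClassFormation

open Fermat.Agent.Lib.CFT.Global

section Action

variable (M : Type) [Field M] [NumberField M]

/-- The action of a group element on the ideles is `ideleMap` of the corresponding ring
automorphism. -/
lemma smul_idele_eq_ideleMap (Γ : Type) [Group Γ] [MulSemiringAction Γ M] (g : Γ) (a : Idele M) :
    g • a = ideleMap (MulSemiringAction.toRingHom Γ M g) a := rfl

/-- Two group elements (of possibly different groups) acting in the same way on `M` act in the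
same way on the ideles. -/
lemma smul_idele_congr {Γ₁ Γ₂ : Type} [Group Γ₁] [Group Γ₂] [MulSemiringAction Γ₁ M]
    [MulSemiringAction Γ₂ M] (g₁ : Γ₁) (g₂ : Γ₂) (h : ∀ x : M, g₁ • x = g₂ • x) (a : Idele M) :
    g₁ • a = g₂ • a := by
  rw [smul_idele_eq_ideleMap, smul_idele_eq_ideleMap]
  have : MulSemiringAction.toRingHom Γ₁ M g₁ = MulSemiringAction.toRingHom Γ₂ M g₂ :=
    RingHom.ext h
  rw [this]

/-- Two group elements acting in the same way on `M` act in the same way on the idele classes. -/
lemma smul_ideleClass_congr {Γ₁ Γ₂ : Type} [Group Γ₁] [Group Γ₂] [MulSemiringAction Γ₁ M]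
    [MulSemiringAction Γ₂ M] (g₁ : Γ₁) (g₂ : Γ₂) (h : ∀ x : M, g₁ • x = g₂ • x)
    (c : IdeleClass M) : g₁ • c = g₂ • c := by
  induction c using QuotientGroup.induction_on with
  | H a =>
    rw [smul_mk_ideleClass, smul_mk_ideleClass, smul_idele_congr M g₁ g₂ h]

end Action

section Tower

variable (K L M : Type) [Field K] [NumberField K] [Field L] [NumberField L] [Field M]
  [NumberField M] [Algebra K L] [Algebra L M] [Algebra K M] [IsScalarTower K L M]
  [IsGalois K L] [IsGalois K M]

omit [NumberField K] [IsGalois K M] in
/-- Equivariance of `J_L → J_M` with respect to the restriction `Gal(M/K) → Gal(L/K)`. -/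
lemma ideleMap_restrictNormalHom_smul (g : M ≃ₐ[K] M) (a : Idele L) :
    ideleMap (algebraMap L M) (AlgEquiv.restrictNormalHom L g • a) =
      g • ideleMap (algebraMap L M) a := by
  rw [smul_idele_eq_ideleMap, smul_idele_eq_ideleMap, ← ideleMap_comp, ← ideleMap_comp]
  have : (algebraMap L M).comp
      (MulSemiringAction.toRingHom (L ≃ₐ[K] L) L (AlgEquiv.restrictNormalHom L g)) =
      (MulSemiringAction.toRingHom (M ≃ₐ[K] M) M g).comp (algebraMap L M) :=
    RingHom.ext fun x => AlgEquiv.restrictNormal_commutes g L x
  rw [this]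

omit [NumberField K] [IsGalois K M] in
/-- Equivariance of `C_L → C_M` with respect to the restriction `Gal(M/K) → Gal(L/K)`. -/
lemma ideleClassMap_restrictNormalHom_smul (g : M ≃ₐ[K] M) (c : IdeleClass L) :
    ideleClassMap (algebraMap L M) (AlgEquiv.restrictNormalHom L g • c) =
      g • ideleClassMap (algebraMap L M) c := by
  induction c using QuotientGroup.induction_on with
  | H a =>
    rw [smul_mk_ideleClass, ideleClassMap_mk, ideleClassMap_mk, smul_mk_ideleClass,
      ideleMap_restrictNormalHom_smul]

/-- The map `C_L → C_M` as a morphism of `Gal(M/K)`-representations. -/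
noncomputable def towerHom :
    res (AlgEquiv.restrictNormalHom L : (M ≃ₐ[K] M) →* (L ≃ₐ[K] L))
      (ideleClassRep L (L ≃ₐ[K] L)) ⟶ ideleClassRep M (M ≃ₐ[K] M) :=
  Rep.ofHom ⟨(MonoidHom.toAdditive (ideleClassMap (algebraMap L M))).toIntLinearMap, fun g => by
    ext c
    exact congrArg Additive.ofMul
      (ideleClassMap_restrictNormalHom_smul K L M g (Additive.toMul c))⟩

lemma towerHom_apply (c : Additive (IdeleClass L)) :
    (towerHom K L M).hom c =
      Additive.ofMul (ideleClassMap (algebraMap L M) (Additive.toMul c)) := rfl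

omit [NumberField K] [NumberField L] [NumberField M] [IsGalois K M] in
/-- An element of `Gal(M/L)`, viewed in `Gal(M/K)`, restricts to the identity of `L`. -/
lemma restrictScalars_mem_ker (γ : M ≃ₐ[L] M) :
    (γ.restrictScalars K) ∈ (AlgEquiv.restrictNormalHom L : (M ≃ₐ[K] M) →* (L ≃ₐ[K] L)).ker := by
  rw [MonoidHom.mem_ker]
  ext x
  apply (algebraMap L M).injective
  change algebraMap L M ((γ.restrictScalars K).restrictNormal L x) = _
  rw [AlgEquiv.restrictNormal_commutes]
  exact γ.commutes x

/-- **The inflation datum of a tower `K ⊆ L ⊆ M`.** -/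
theorem tower_isInflationDatum :
    IsInflationDatum (AlgEquiv.restrictNormalHom L : (M ≃ₐ[K] M) →* (L ≃ₐ[K] L))
      (towerHom K L M) where
  surjective := AlgEquiv.restrictNormalHom_surjective M
  injective := by
    have : IsGalois L M := IsGalois.tower_top_of_isGalois K L M
    intro x y hxy
    have h := FirstIneq.ideleClassMap_injective (K := L) (L := M)
      (congrArg Additive.toMul hxy)
    exact congrArg Additive.ofMul h
  exists_of_fixed := by
    have : IsGalois L M := IsGalois.tower_top_of_isGalois K L M
    intro a ha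
    have hfix : ∀ γ : M ≃ₐ[L] M, γ • (Additive.toMul a : IdeleClass M) = Additive.toMul a := by
      intro γ
      have h1 := ha _ (restrictScalars_mem_ker K L M γ)
      have h2 : (γ.restrictScalars K) • (Additive.toMul a : IdeleClass M) = Additive.toMul a :=
        congrArg Additive.toMul h1
      rw [← h2]
      exact smul_ideleClass_congr M γ (γ.restrictScalars K) (fun x => rfl) _
    obtain ⟨c, hc⟩ := FirstIneq.exists_ideleClassMap_eq_of_fixed
      (exists_ideleMap_eq_of_fixed L M) (Additive.toMul a) hfix
    exact ⟨Additive.ofMul c, congrArg Additive.ofMul hc⟩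

end Tower

end Fermat.Agent.Lib.CFT.Global.ClassFormation
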