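import Fermat.Agent.Lib.CFT.Global.ClassFormation.Tower
import Fermat.Agent.Lib.CFT.Global.ClassFormation.Carry
import Fermat.Agent.Lib.CFT.Global.ClassFormation.CompareGen

/-!
# The comparison theorem for towers of number fields (P-CFT, Global/ClassFormation, helper50)

`(O3)` of the global class formation plan (notes `CFT-GLOBAL-CF-DESIGN`), with the arithmetic input
isolated as one hypothesis, the *norm criterion* `NormCriterion K L L' M`:

  every `a ∈ C_K` with `a ^ [L':K] ∈ N_{L/K} C_L` becomes a norm from `M` in `C_{L'}`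

(for `L/K` cyclic cyclotomic and `M = L L'` this follows from the Artin map of the cyclic cyclotomic
extension `M/L'`: kernel = norms, and base change `ω_{M/L'}(a)|_L = ω_{L/K}(N_{L'/K} a) = ω_{L/K}(a)^{[L':K]}`).

Main result `card_H2_and_isAddCyclic_of_normCriterion`: for `L/K` cyclic, `L'/K` Galois with
`[L':K] ∣ [L:K]`, both inside `M/K` Galois: if `H¹(Gal(M/L), C_M) = H¹(Gal(M/L'), C_M) = 0`,
`H²(Gal(L/K), C_L)` is cyclic of order `[L:K]`, `|H²(Gal(L'/K), C_{L'})| ≤ [L':K]` and the norm
criterion holds, then `H²(Gal(L'/K), C_{L'})` is cyclic of order `[L':K]`.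

Auxiliary: `prod_smul_ideleClass` (product of conjugates = image of the norm on idele classes),
`kerEquiv` (`Gal(M/L) ≃ ker (Gal(M/K) → Gal(L/K))`), `norm_res_ker_eq` (norm over the kernel).
-/

set_option autoImplicit false

open CategoryTheory Rep groupCohomology

namespace Fermat.Agent.Lib.CFT.Global.ClassFormation

open Fermat.Agent.Lib.CFT.Global

section ClassNorm

variable (K L : Type) [Field K] [NumberField K] [Field L] [NumberField L] [Algebra K L]
  [IsGalois K L]

/-- On idele classes of a Galois extension, the product of the conjugates is the image of the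
norm. -/
lemma prod_smul_ideleClass (c : IdeleClass L) :
    ∏ g : L ≃ₐ[K] L, g • c = ideleClassMap (algebraMap K L) (ideleClassNorm K L c) := by
  induction c using QuotientGroup.induction_on with
  | H b =>
    rw [ideleClassNorm_mk, ideleClassMap_mk, ideleMap_ideleNorm]
    simp only [smul_mk_ideleClass]
    exact (QuotientGroup.mk_prod (principal L).range Finset.univ).symm

end ClassNorm

section KerEquiv

variable (K L M : Type) [Field K] [Field L] [Field M] [Algebra K L] [Algebra L M] [Algebra K M]
  [IsScalarTower K L M] [IsGalois K L]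

/-- `Gal(M/L)` is the kernel of the restriction `Gal(M/K) → Gal(L/K)`. -/
noncomputable def kerEquiv :
    (M ≃ₐ[L] M) ≃ ↥(AlgEquiv.restrictNormalHom L : (M ≃ₐ[K] M) →* (L ≃ₐ[K] L)).ker where
  toFun γ := ⟨γ.restrictScalars K, restrictScalars_mem_ker K L M γ⟩
  invFun g :=
    { (g : M ≃ₐ[K] M) with
      commutes' := fun x => by
        have h1 : AlgEquiv.restrictNormalHom L (g : M ≃ₐ[K] M) = 1 := g.2
        have h2 := AlgEquiv.restrictNormal_commutes (g : M ≃ₐ[K] M) L x
        change algebraMap L M ((AlgEquiv.restrictNormalHom L (g : M ≃ₐ[K] M)) x) = _ at h2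
        rw [h1] at h2
        exact h2.symm }
  left_inv γ := by
    ext x
    rfl
  right_inv g := by
    apply Subtype.ext
    ext x
    rfl

@[simp] lemma kerEquiv_coe (γ : M ≃ₐ[L] M) :
    ((kerEquiv K L M γ : (AlgEquiv.restrictNormalHom L : (M ≃ₐ[K] M) →* (L ≃ₐ[K] L)).ker) :
      M ≃ₐ[K] M) = γ.restrictScalars K := rfl

end KerEquiv


section NormKer

/-- The norm of the restriction to a subgroup, as a sum over the subgroup. -/
lemma norm_res_apply {k G : Type} [CommRing k] [Group G] (S : Subgroup G) [Fintype S]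
    (A : Rep k G) (t : A) :
    (res S.subtype A).ρ.norm t = ∑ n : S, A.ρ (n : G) t := by
  change (∑ n : S, (A.ρ.comp S.subtype) n) t = _
  rw [LinearMap.sum_apply]
  rfl

variable (K L M : Type) [Field K] [NumberField K] [Field L] [NumberField L] [Field M]
  [NumberField M] [Algebra K L] [Algebra L M] [Algebra K M] [IsScalarTower K L M]
  [IsGalois K L] [IsGalois K M]

omit [NumberField K] in
/-- The norm over `ker (Gal(M/K) → Gal(L/K))` on `C_M` is the image of the norm `C_M → C_L`. -/
lemma norm_res_ker_eq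
    [Fintype ↥(AlgEquiv.restrictNormalHom L : (M ≃ₐ[K] M) →* (L ≃ₐ[K] L)).ker]
    (t : (ideleClassRep M (M ≃ₐ[K] M)).V) :
    (res (AlgEquiv.restrictNormalHom L : (M ≃ₐ[K] M) →* (L ≃ₐ[K] L)).ker.subtype
      (ideleClassRep M (M ≃ₐ[K] M))).ρ.norm t =
      Additive.ofMul (ideleClassMap (algebraMap L M)
        (ideleClassNorm L M (Additive.toMul (α := IdeleClass M) t))) := by
  have : IsGalois L M := IsGalois.tower_top_of_isGalois K L M
  rw [← prod_smul_ideleClass L M, norm_res_apply, ← Equiv.sum_comp (kerEquiv K L M), ofMul_prod]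
  refine Finset.sum_congr rfl fun γ _ => ?_
  change Additive.ofMul ((γ.restrictScalars K) • Additive.toMul (α := IdeleClass M) t) =
    Additive.ofMul (γ • Additive.toMul (α := IdeleClass M) t)
  congr 1

end NormKer


section Main

variable (K L L' M : Type) [Field K] [NumberField K] [Field L] [NumberField L]
  [Field L'] [NumberField L'] [Field M] [NumberField M]
  [Algebra K L] [Algebra L M] [Algebra K L'] [Algebra L' M] [Algebra K M]
  [IsScalarTower K L M] [IsScalarTower K L' M]
  [IsGalois K L] [IsGalois K L'] [IsGalois K M]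

/-- The **norm criterion** (arithmetic input, supplied by the Artin map of the cyclic cyclotomic
extension `M/L'`, `M = L L'`): an idele class `a` of `K` whose `[L':K]`-th power is a norm from
`L` becomes a norm from `M` in `C_{L'}`. -/
def NormCriterion : Prop :=
  ∀ a : IdeleClass K, a ^ Module.finrank K L' ∈ (ideleClassNorm K L).range →
    ideleClassMap (algebraMap K L') a ∈ (ideleClassNorm L' M).range

variable {K L L' M}

/-- From the norm criterion to the hypothesis of the counting theorem. -/
theorem torsionIsNormClassGen_of_normCriterion (hNC : NormCriterion K L L' M)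
    (s : L ≃ₐ[K] L) (hs : ∀ x, x ∈ Subgroup.zpowers s)
    [Fintype ↥(AlgEquiv.restrictNormalHom L' : (M ≃ₐ[K] M) →* (L' ≃ₐ[K] L')).ker] :
    TorsionIsNormClassGen (AlgEquiv.restrictNormalHom L' : (M ≃ₐ[K] M) →* (L' ≃ₐ[K] L'))
      (towerHom K L M) (isScalarCocycle_carry ℤ s hs) (Module.finrank K L') := by
  intro x hx
  obtain ⟨b, rfl⟩ := exists_scalarClass_carry_eq (ideleClassRep L (L ≃ₐ[K] L)) s hs x
  -- `b` comes from an idele class `a` of `K`
  have hbfix : ∀ g : L ≃ₐ[K] L, g • Additive.toMul (α := IdeleClass L) b.1 = Additive.toMul b.1 :=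
    fun g => congrArg Additive.toMul (b.2 g)
  obtain ⟨a, ha⟩ := FirstIneq.exists_ideleClassMap_eq_of_fixed
    (exists_ideleMap_eq_of_fixed K L) _ hbfix
  -- `a ^ n'` is a norm from `L`
  have hnb : scalarClass (ideleClassRep L (L ≃ₐ[K] L)) (isScalarCocycle_carry ℤ s hs)
      (Module.finrank K L' • b) = 0 := by
    rw [map_nsmul]
    exact hx
  obtain ⟨t, ht⟩ := (scalarClass_carry_eq_zero_iff _ s hs _).1 hnb
  have ht' : ∏ g : L ≃ₐ[K] L, g • Additive.toMul (α := IdeleClass L) t =
      (Additive.toMul (α := IdeleClass L) b.1) ^ Module.finrank K L' := by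
    have := congrArg (Additive.toMul (α := IdeleClass L)) ht
    exact (Representation.norm_ofMulDistribMulAction_eq (G := L ≃ₐ[K] L) (M := IdeleClass L)
      t).symm.trans this
  have hanorm : a ^ Module.finrank K L' ∈ (ideleClassNorm K L).range := by
    refine ⟨Additive.toMul (α := IdeleClass L) t, ?_⟩
    apply FirstIneq.ideleClassMap_injective (K := K) (L := L)
    rw [← prod_smul_ideleClass, ht', map_pow, ha]
  obtain ⟨t', ht'⟩ := hNC a hanorm
  refine ⟨b, (Additive.ofMul t' : Additive (IdeleClass M)), ?_, rfl⟩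
  refine (norm_res_ker_eq K L' M _).trans ?_
  change Additive.ofMul (ideleClassMap (algebraMap L' M) (ideleClassNorm L' M t')) =
    Additive.ofMul (ideleClassMap (algebraMap L M) (Additive.toMul (α := IdeleClass L) b.1))
  congr 1
  rw [ht', ← ha]
  induction a using QuotientGroup.induction_on with
  | H a0 =>
    simp only [ideleClassMap_mk]
    rw [← ideleMap_comp, ← ideleMap_comp, ← IsScalarTower.algebraMap_eq,
      ← IsScalarTower.algebraMap_eq]

/-- **Comparison theorem for towers** (`(O3)` of the class formation plan).  Let `L/K` be a cyclic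
extension and `L'/K` a Galois extension of number fields, both inside the Galois extension `M/K`,
with `[L':K] ∣ [L:K]`.  Assume `H¹(Gal(M/L), C_M) = 0 = H¹(Gal(M/L'), C_M)`, that `H²(Gal(L/K), C_L)`
is cyclic of order `[L:K]`, that `H²(Gal(L'/K), C_{L'})` has at most `[L':K]` elements, and the norm
criterion.  Then `H²(Gal(L'/K), C_{L'})` is cyclic of order `[L':K]`. -/
theorem card_H2_and_isAddCyclic_of_normCriterion (hNC : NormCriterion K L L' M)
    (hcycQ : IsCyclic (L ≃ₐ[K] L)) (hdiv : Module.finrank K L' ∣ Module.finrank K L)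
    (h1 : Limits.IsZero (groupCohomology
      (res (AlgEquiv.restrictNormalHom L : (M ≃ₐ[K] M) →* (L ≃ₐ[K] L)).ker.subtype
        (ideleClassRep M (M ≃ₐ[K] M))) 1))
    (h1' : Limits.IsZero (groupCohomology
      (res (AlgEquiv.restrictNormalHom L' : (M ≃ₐ[K] M) →* (L' ≃ₐ[K] L')).ker.subtype
        (ideleClassRep M (M ≃ₐ[K] M))) 1))
    [Finite (H2 (ideleClassRep L (L ≃ₐ[K] L)))]
    (hcyc : IsAddCyclic (H2 (ideleClassRep L (L ≃ₐ[K] L))))
    (hcard : Nat.card (H2 (ideleClassRep L (L ≃ₐ[K] L))) = Module.finrank K L)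
    [Finite (H2 (ideleClassRep L' (L' ≃ₐ[K] L')))]
    (hle : Nat.card (H2 (ideleClassRep L' (L' ≃ₐ[K] L'))) ≤ Module.finrank K L') :
    Nat.card (H2 (ideleClassRep L' (L' ≃ₐ[K] L'))) = Module.finrank K L' ∧
      IsAddCyclic (H2 (ideleClassRep L' (L' ≃ₐ[K] L'))) := by
  obtain ⟨s, hs⟩ := hcycQ.exists_generator
  let _ : Fintype ↥(AlgEquiv.restrictNormalHom L' : (M ≃ₐ[K] M) →* (L' ≃ₐ[K] L')).ker :=
    Fintype.ofFinite _
  have hT := torsionIsNormClassGen_of_normCriterion hNC s hs
  exact ⟨card_H2_of_inflationData (tower_isInflationDatum K L M) (tower_isInflationDatum K L' M)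
      h1 h1' hdiv hT hcyc hcard hle,
    isAddCyclic_H2_of_inflationData (tower_isInflationDatum K L M) (tower_isInflationDatum K L' M)
      h1 h1' hdiv hT hcyc hcard hle⟩

end Main

end Fermat.Agent.Lib.CFT.Global.ClassFormation
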